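import Fermat.Agent.EllFrobenius.DetOfCard
import Fermat.Agent.EllTorsion.Count
import Mathlib.RingTheory.RootsOfUnity.AlgebraicallyClosed

/-!
# `det ρ_p` is the cyclotomic character
-/

set_option autoImplicit false

open WeierstrassCurve WeierstrassCurve.Affine
open scoped WeierstrassCurve.Affine

universe r s u

namespace Fermat.Agent.EllFrobenius

variable {R : Type r} {S : Type s} {K : Type u} [CommRing R] [CommRing S] [Field K]
  [DecidableEq K] [Algebra R S] [Algebra R K] [Algebra S K] [IsScalarTower R S K] [IsAlgClosed K]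

/-- The determinant of the mod `p` representation is the mod `p` cyclotomic character. -/
theorem det_galoisRepModuleEnd (W' : Affine R) [hE : (W'⁄K).IsElliptic] (p : ℕ)
    [hp : Fact p.Prime] (hpK : (p : K) ≠ 0) (hn : Nat.card (rootsOfUnity p K) = p)
    (σ : K ≃ₐ[S] K) :
    LinearMap.det (Affine.Point.galoisRepModuleEnd S W' p σ) =
      ((modularCyclotomicCharacter K hn (σ : K ≃+* K) : (ZMod p)ˣ) : ZMod p) :=
  det_galoisRepModuleEnd_of_card W' p
    (EllTorsion.natCard_torsionBy (W := (W'⁄K).toAffine) p hpK) hn σ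

/-- Over `ℚ`, for the algebraic closure. -/
theorem det_galoisRepModuleEnd_rat (E : WeierstrassCurve ℚ) [E.IsElliptic] (p : ℕ)
    [hp : Fact p.Prime] (hn : Nat.card (rootsOfUnity p (AlgebraicClosure ℚ)) = p)
    (σ : AlgebraicClosure ℚ ≃ₐ[ℚ] AlgebraicClosure ℚ) :
    LinearMap.det (Affine.Point.galoisRepModuleEnd (K := AlgebraicClosure ℚ) ℚ E p σ) =
      ((modularCyclotomicCharacter (AlgebraicClosure ℚ) hn
        (σ : AlgebraicClosure ℚ ≃+* AlgebraicClosure ℚ) : (ZMod p)ˣ) : ZMod p) :=
  det_galoisRepModuleEnd (hE := EllTorsion.isElliptic_affine_baseChange E (AlgebraicClosure ℚ))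
    E p (Nat.cast_ne_zero.mpr hp.out.ne_zero) hn σ

end Fermat.Agent.EllFrobenius
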