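import Fermat.Agent.EllFrobenius.Relation
import Fermat.Agent.EllFrobenius.Det
import Fermat.Prelude.Def_EllipticCurve_FrobeniusTrace
import Mathlib.LinearAlgebra.Trace

/-!
# Trace and determinant of Frobenius on `E[p]` over a finite field
-/

set_option autoImplicit false

open WeierstrassCurve WeierstrassCurve.Affine WeierstrassCurve.Affine.Point
open scoped WeierstrassCurve.Affine

universe r u

namespace Fermat.Agent.EllFrobenius

variable {k : Type r} [Field k] [Fintype k] {K : Type u} [Field K] [DecidableEq K] [Algebra k K]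
  [IsAlgClosed K]

omit [IsAlgClosed K] in
lemma smul_eq_map_frobenius (W : WeierstrassCurve k) (σ : K ≃ₐ[k] K)
    (hσ : ∀ x : K, σ x = x ^ Fintype.card k) (P : (W.toAffine⁄K).Point) :
    σ • P = Affine.Point.map (FiniteField.frobeniusAlgHom k K) P := by
  have e : σ.toAlgHom = FiniteField.frobeniusAlgHom k K := AlgHom.ext hσ
  rw [algEquiv_smul_def, e]

/-- `φ² - aφ + q = 0` on all points over an algebraically closed field. -/
theorem frobenius_relation (W : WeierstrassCurve k) [W.IsElliptic] (P : (W.toAffine⁄K).Point) :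
    Affine.Point.map (FiniteField.frobeniusAlgHom k K)
        (Affine.Point.map (FiniteField.frobeniusAlgHom k K) P) -
      W.traceOfFrobenius • Affine.Point.map (FiniteField.frobeniusAlgHom k K) P +
      (Fintype.card k : ℤ) • P = 0 := by
  classical
  exact frobenius_relation_map W.toAffine K P

theorem frobenius_relation_smul (W : WeierstrassCurve k) [W.IsElliptic] (σ : K ≃ₐ[k] K)
    (hσ : ∀ x : K, σ x = x ^ Fintype.card k) (P : (W.toAffine⁄K).Point) :
    σ • σ • P - W.traceOfFrobenius • (σ • P) + (Fintype.card k : ℤ) • P = 0 := by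
  simp only [smul_eq_map_frobenius W σ hσ]
  exact frobenius_relation W P

/-- The determinant of Frobenius on `E[p]` is `q`. -/
theorem det_galoisRepModuleEnd_of_card_pow (W : WeierstrassCurve k) [W.IsElliptic] (p : ℕ)
    [hp : Fact p.Prime] (hpk : (p : k) ≠ 0) (σ : K ≃ₐ[k] K)
    (hσ : ∀ x : K, σ x = x ^ Fintype.card k) :
    LinearMap.det (galoisRepModuleEnd k W.toAffine p σ) = (Fintype.card k : ZMod p) := by
  have hpK : (p : K) ≠ 0 := by
    rw [← map_natCast (algebraMap k K)]
    exact (_root_.map_ne_zero _).mpr hpk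
  have : NeZero (p : K) := ⟨hpK⟩
  have hn : Nat.card (rootsOfUnity p K) = p := HasEnoughRootsOfUnity.natCard_rootsOfUnity K p
  rw [det_galoisRepModuleEnd (hE := EllTorsion.isElliptic_affine_baseChange W K) W.toAffine p hpK hn]
  symm
  refine modularCyclotomicCharacter.unique K hn _ (c := (Fintype.card k : ZMod p)) fun t ht => ?_
  rw [AlgEquiv.coe_ringEquiv, hσ, ZMod.val_natCast, ← Units.val_pow_eq_pow_val,
    ← Units.val_pow_eq_pow_val]
  congr 1
  exact pow_eq_pow_mod _ ((mem_rootsOfUnity p t).mp ht)

/-- The trace of Frobenius on `E[p]` is `q + 1 - #E`. -/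
theorem galoisTrace_of_card_pow (W : WeierstrassCurve k) [W.IsElliptic] (p : ℕ)
    [hp : Fact p.Prime] (hpk : (p : k) ≠ 0) (σ : K ≃ₐ[k] K)
    (hσ : ∀ x : K, σ x = x ^ Fintype.card k) :
    galoisTrace k W.toAffine p σ = (W.traceOfFrobenius : ZMod p) := by
  have hpK : (p : K) ≠ 0 := by
    rw [← map_natCast (algebraMap k K)]
    exact (_root_.map_ne_zero _).mpr hpk
  set M := galoisRepModuleEnd k W.toAffine p σ
  set t : ZMod p := (W.traceOfFrobenius : ZMod p)
  set Q : ZMod p := (Fintype.card k : ZMod p)
  have hQ : Q ≠ 0 := by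
    intro h0
    rw [ZMod.natCast_eq_zero_iff] at h0
    obtain ⟨ℓ, hℓ⟩ := CharP.exists k
    obtain ⟨n, hℓp, hn⟩ := FiniteField.card k ℓ
    rw [hn] at h0
    have := (Nat.prime_dvd_prime_iff_eq hp.out hℓp).mp (hp.out.dvd_of_dvd_pow h0)
    exact hpk (this ▸ CharP.cast_eq_zero k ℓ)
  set V := Submodule.torsionBy ℤ (W.toAffine⁄K).Point p
  have : Finite V := EllTorsion.finite_torsionBy_baseChange W K hp.out.ne_zero
  have : Module.Finite (ZMod p) V := Module.Finite.of_finite
  have hrank : Module.finrank (ZMod p) V = 2 :=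
    EllTorsion.finrank_torsionBy_baseChange W K p hpK
  have hrel : M * M - t • M + Q • 1 = 0 := by
    ext x
    have h := frobenius_relation_smul W σ hσ (x : (W.toAffine⁄K).Point)
    have e1 : ∀ (z : ℤ) (y : V), ((z : ZMod p) • y : V) = z • y := fun z y =>
      Int.cast_smul_eq_zsmul (ZMod p) z y
    simp only [LinearMap.add_apply, LinearMap.sub_apply, LinearMap.smul_apply, Module.End.one_apply,
      Module.End.mul_apply, LinearMap.zero_apply, t, Q, e1]
    rw [show ((Fintype.card k : ℕ) : ZMod p) = ((Fintype.card k : ℤ) : ZMod p) from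
      (Int.cast_natCast _).symm, e1]
    exact h
  let b : Module.Basis (Fin 2) (ZMod p) V :=
    (Module.finBasis (ZMod p) V).reindex (finCongr hrank)
  set A := LinearMap.toMatrix b b M
  have hA : A * A - t • A + Q • 1 = 0 := by
    have h := congrArg (LinearMap.toMatrix b b) hrel
    simpa [LinearMap.toMatrix_mul, LinearMap.toMatrix_one] using h
  have hdet : A.det = Q := by
    rw [LinearMap.det_toMatrix]
    exact det_galoisRepModuleEnd_of_card_pow W p hpk σ hσ
  rw [galoisTrace_def, LinearMap.trace_eq_matrix_trace (ZMod p) b]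
  show A.trace = t
  have hmul : ∀ i j, (A.trace - t) * A i j = 0 := by
    intro i j
    have h := congrFun (congrFun hA i) j
    rw [Matrix.det_fin_two] at hdet
    rw [Matrix.trace_fin_two]
    simp only [Matrix.add_apply, Matrix.sub_apply, Matrix.smul_apply, Matrix.zero_apply,
      Matrix.mul_apply, Fin.sum_univ_two, Matrix.one_apply, smul_eq_mul] at h
    revert h
    fin_cases i <;> fin_cases j <;> simp [-mul_eq_zero] <;> intro h <;>
      first | linear_combination h | linear_combination h + hdet
  by_contra hne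
  apply hQ
  have hz : ∀ i j, A i j = 0 := fun i j => (mul_eq_zero.mp (hmul i j)).resolve_left
    (sub_ne_zero.mpr hne)
  rw [← hdet, Matrix.det_fin_two, hz 0 0, hz 0 1]
  ring

end Fermat.Agent.EllFrobenius
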