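import Fermat.Agent.EllFrobenius.Reduction
import Fermat.Agent.EllFrobenius.FiniteField

/-!
# Frobenius elements at good primes: trace and determinant
-/

set_option autoImplicit false

open WeierstrassCurve
open scoped WeierstrassCurve.Affine

namespace Fermat.Agent.EllFrobenius

local notation "Qb" => AlgebraicClosure ℚ

variable (W : WeierstrassCurve ℤ) (ℓ p : ℕ) [Fact ℓ.Prime] [Fact p.Prime] (hlp : ℓ ≠ p)
  (hgood : W.IsGoodPrimeFor ℓ) (A : ValuationSubring Qb) (σ : Qb ≃ₐ[ℚ] Qb)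
  (hA : A.LiesOverPrime ℓ) (hσ : A.IsFrobeniusAt σ ℓ)

include hlp hgood hA hσ

/-- The trace of a Frobenius element at a good prime `ℓ ≠ p` on `E[p]` is `a_ℓ`. -/
theorem galoisTrace_eq_apOfModel :
    Affine.Point.galoisTrace ℚ (W.map (Int.castRingHom ℚ)) p σ = (W.apOfModel ℓ : ZMod p) := by
  obtain ⟨k, _, _, _, _, τ, hτ, hpk, hE, e, he⟩ :=
    exists_torsion_reduction W ℓ p hlp hgood A σ hA hσ
  have hpk' : (p : ZMod ℓ) ≠ 0 := fun h => hpk <| by
    rw [← map_natCast (algebraMap (ZMod ℓ) k), h, map_zero]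
  have h := galoisTrace_of_card_pow (W.reductionMod ℓ) p hpk' τ (by simpa [ZMod.card] using hτ)
  rw [Affine.Point.galoisTrace_def] at h ⊢
  rw [WeierstrassCurve.apOfModel, ← h, ← LinearMap.trace_conj' _ e]
  congr 1
  refine LinearMap.ext fun x => ?_
  rw [LinearEquiv.conj_apply_apply, Affine.Point.galoisRepModuleEnd_apply,
    Affine.Point.galoisRepModuleEnd_apply, he, LinearEquiv.apply_symm_apply]

/-- The determinant of a Frobenius element at a good prime `ℓ ≠ p` on `E[p]` is `ℓ`. -/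
theorem det_eq_of_isFrobeniusAt :
    LinearMap.det (Affine.Point.galoisRepModuleEnd ℚ (W.map (Int.castRingHom ℚ)) p σ) =
      (ℓ : ZMod p) := by
  obtain ⟨k, _, _, _, _, τ, hτ, hpk, hE, e, he⟩ :=
    exists_torsion_reduction W ℓ p hlp hgood A σ hA hσ
  have hpk' : (p : ZMod ℓ) ≠ 0 := fun h => hpk <| by
    rw [← map_natCast (algebraMap (ZMod ℓ) k), h, map_zero]
  have h := det_galoisRepModuleEnd_of_card_pow (W.reductionMod ℓ) p hpk' τ
    (by simpa [ZMod.card] using hτ)
  rw [ZMod.card] at h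
  rw [← h, ← LinearMap.det_conj _ e]
  congr 1
  refine LinearMap.ext fun x => ?_
  simp [he]

end Fermat.Agent.EllFrobenius
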