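import Fermat.Agent.EllTorsion.XCoord
import Mathlib.AlgebraicGeometry.EllipticCurve.Affine.AddSubMap

/-!
# The addition-and-subtraction map does what it should
-/

set_option autoImplicit false

open MvPolynomial

universe u

namespace Fermat.Agent.EllFrobenius

open WeierstrassCurve WeierstrassCurve.Affine

variable {F : Type u} [Field F] [DecidableEq F] {W : WeierstrassCurve.Affine F}

omit [DecidableEq F] in
private lemma eval_addSubMap (x : Fin 3 → F) :
    eval x (addSubMap W 0) = x 0 ^ 2 - W.b₄ * x 0 * x 2 - W.b₆ * x 1 * x 2 - W.b₈ * x 2 ^ 2 ∧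
    eval x (addSubMap W 1) =
      2 * x 1 * x 0 + W.b₂ * x 0 * x 2 + W.b₄ * x 1 * x 2 + W.b₆ * x 2 ^ 2 ∧
    eval x (addSubMap W 2) = x 1 ^ 2 - 4 * x 0 * x 2 := by
  simp [addSubMap]

omit [DecidableEq F] in
private lemma some_case {a b s d c y y' ys yd : F} {ha : W.Nonsingular a y}
    {hb : W.Nonsingular b y'} {hs : W.Nonsingular s ys} {hd : W.Nonsingular d yd}
    (h0 : c * (s * d) = EllTorsion.prodForm W a b)
    (h1 : c * (s + d) = EllTorsion.sumForm W a 1 b 1) (h2 : c = (a - b) ^ 2) (i : Fin 3) :
    eval ((Affine.Point.some a y ha).sym2x (Affine.Point.some b y' hb)) (addSubMap W i) =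
      c * (Affine.Point.some s ys hs).sym2x (Affine.Point.some d yd hd) i := by
  obtain ⟨e0, e1, e2⟩ := eval_addSubMap (W := W)
    ((Affine.Point.some a y ha).sym2x (Affine.Point.some b y' hb))
  simp only [Affine.Point.sym2x_some_some, Matrix.cons_val_zero, Matrix.cons_val_one,
    Matrix.cons_val] at e0 e1 e2 ⊢
  simp only [EllTorsion.prodForm, EllTorsion.sumForm] at h0 h1
  fin_cases i
  · exact e0.trans (by simp; linear_combination -h0)
  · exact e1.trans (by simp; linear_combination -h1)
  · exact e2.trans (by simp; linear_combination -h2)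

/-- `sym2x (P + Q) (P - Q)` is the image of `sym2x P Q` up to a scalar. -/
theorem exists_addSubMap_eq (P Q : W.Point) :
    ∃ c : F, ∀ i, eval (P.sym2x Q) (addSubMap W i) = c * (P + Q).sym2x (P - Q) i := by
  have zero_left : ∀ Q : W.Point, ∀ i,
      eval ((0 : W.Point).sym2x Q) (addSubMap W i) = 1 * (0 + Q).sym2x (0 - Q) i := by
    intro Q i
    rw [zero_add, zero_sub, Affine.Point.sym2x_neg_right, one_mul]
    rcases Q with _ | ⟨b, y, hb⟩
    · obtain ⟨e0, e1, e2⟩ := eval_addSubMap (W := W) ![1, 0, 0]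
      rw [← Affine.Point.zero_def, Affine.Point.sym2x_zero_zero]
      fin_cases i
      · exact e0.trans (by simp)
      · exact e1.trans (by simp)
      · exact e2.trans (by simp)
    · obtain ⟨e0, e1, e2⟩ := eval_addSubMap (W := W) ![b, 1, 0]
      rw [Affine.Point.sym2x_zero_some, Affine.Point.sym2x_some_some]
      fin_cases i
      · exact e0.trans (by simp; ring)
      · exact e1.trans (by simp; ring)
      · exact e2.trans (by simp)
  rcases P with _ | ⟨a, y, ha⟩
  · exact ⟨1, zero_left Q⟩
  rcases Q with _ | ⟨b, y', hb⟩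
  · refine ⟨1, fun i => ?_⟩
    rw [← Affine.Point.zero_def, Affine.Point.sym2x_comm, zero_left, zero_add, zero_sub, add_zero,
      sub_zero, Affine.Point.sym2x_neg_right]
  by_cases hab : a = b
  · subst hab
    have hsame : ∀ {y : F} (ha : W.Nonsingular a y), ∃ c : F, ∀ i,
        eval ((Affine.Point.some a y ha).sym2x (Affine.Point.some a y ha)) (addSubMap W i) =
          c * ((2 : ℕ) • Affine.Point.some a y ha).sym2x 0 i := by
      intro y ha
      obtain ⟨e0, e1, e2⟩ := eval_addSubMap (W := W) ![a * a, a + a, 1]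
      rw [Affine.Point.sym2x_some_some]
      by_cases hd : EllTorsion.dupDen W a 1 = 0
      · refine ⟨EllTorsion.dupNum W a 1, fun i => ?_⟩
        rw [(EllTorsion.two_nsmul_eq_zero_iff ⟨y, ha, rfl⟩).mpr hd, Affine.Point.sym2x_zero_zero]
        simp only [EllTorsion.dupDen, EllTorsion.dupNum] at hd ⊢
        fin_cases i
        · exact e0.trans (by simp; ring)
        · exact e1.trans (by simp; linear_combination hd)
        · exact e2.trans (by simp; ring)
      · obtain ⟨s, ⟨ys, hs, es⟩, hsd⟩ :=
          EllTorsion.exists_hasX_two_nsmul (B := Affine.Point.some a y ha) ⟨y, ha, rfl⟩ hd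
        refine ⟨EllTorsion.dupDen W a 1, fun i => ?_⟩
        rw [es, Affine.Point.sym2x_some_zero]
        simp only [EllTorsion.dupDen, EllTorsion.dupNum] at hsd ⊢
        fin_cases i
        · exact e0.trans (by simp; linear_combination -hsd)
        · exact e1.trans (by simp; ring)
        · exact e2.trans (by simp; ring)
    obtain ⟨c, hc⟩ := hsame ha
    rcases (Affine.Point.X_eq_iff (h₁ := hb) (h₂ := ha)).mp rfl with e | e
    · rw [e]
      refine ⟨c, fun i => ?_⟩
      rw [← two_nsmul, sub_self]
      exact hc i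
    · rw [e, ← sub_eq_add_neg, sub_self, sub_neg_eq_add, ← two_nsmul,
        Affine.Point.sym2x_neg_right]
      refine ⟨c, fun i => ?_⟩
      rw [Affine.Point.sym2x_comm 0]
      exact hc i
  · obtain ⟨s, d, ⟨ys, hs, es⟩, ⟨yd, hd, ed⟩, h1, h2⟩ :=
      EllTorsion.exists_hasX_add_sub (A := Affine.Point.some a y ha) (B := Affine.Point.some b y' hb)
        ⟨y, ha, rfl⟩ ⟨y', hb, rfl⟩ hab
    refine ⟨(a - b) ^ 2, fun i => ?_⟩
    rw [es, ed]
    exact some_case (by linear_combination h2) (by linear_combination h1) rfl i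

end Fermat.Agent.EllFrobenius
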