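import Mathlib.AlgebraicGeometry.EllipticCurve.Affine.Point
import Mathlib.RingTheory.Norm.Basic

/-!
# The coordinate ring of a Weierstrass curve: conjugation and the degree at infinity
-/

set_option autoImplicit false

open Polynomial
open scoped Polynomial.Bivariate

universe u

namespace Fermat.Agent.EllFrobenius

open WeierstrassCurve WeierstrassCurve.Affine

variable {K : Type u} [Field K] (W : WeierstrassCurve.Affine K)

/-- The coordinate function `x` in the coordinate ring. -/
noncomputable def xC : W.CoordinateRing := CoordinateRing.mk W (C X)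

/-- The coordinate function `y` in the coordinate ring. -/
noncomputable def yC : W.CoordinateRing := CoordinateRing.mk W Y

/-- Constants in the coordinate ring. -/
noncomputable def cC : K →+* W.CoordinateRing := algebraMap K W.CoordinateRing

/-- Polynomials in `x` in the coordinate ring. -/
noncomputable def polyC : K[X] →+* W.CoordinateRing := algebraMap K[X] W.CoordinateRing

lemma polyC_X : polyC W X = xC W := rfl

lemma polyC_C (c : K) : polyC W (C c) = cC W c :=
  (IsScalarTower.algebraMap_apply K K[X] W.CoordinateRing c).symm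

lemma polyC_apply (p : K[X]) : polyC W p = CoordinateRing.mk W (C p) := rfl

lemma polyC_injective : Function.Injective (polyC W) :=
  FaithfulSMul.algebraMap_injective K[X] W.CoordinateRing

lemma cC_injective : Function.Injective (cC W) :=
  FaithfulSMul.algebraMap_injective K W.CoordinateRing

lemma smul_eq_polyC_mul (p : K[X]) (a : W.CoordinateRing) : p • a = polyC W p * a :=
  Algebra.smul_def p a

lemma exists_repr (a : W.CoordinateRing) : ∃ p q : K[X], a = polyC W p + polyC W q * yC W := by
  obtain ⟨p, q, h⟩ := CoordinateRing.exists_smul_basis_eq a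
  refine ⟨p, q, ?_⟩
  rw [← h, smul_eq_polyC_mul, smul_eq_polyC_mul, mul_one]
  rfl

lemma repr_eq_zero {p q : K[X]} (h : polyC W p + polyC W q * yC W = 0) : p = 0 ∧ q = 0 := by
  apply CoordinateRing.smul_basis_eq_zero (W' := W)
  rw [smul_eq_polyC_mul, smul_eq_polyC_mul, mul_one]
  exact h

lemma repr_inj {p q p' q' : K[X]}
    (h : polyC W p + polyC W q * yC W = polyC W p' + polyC W q' * yC W) : p = p' ∧ q = q' := by
  have := repr_eq_zero W (p := p - p') (q := q - q') (by rw [map_sub, map_sub]; linear_combination h)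
  exact ⟨sub_eq_zero.mp this.1, sub_eq_zero.mp this.2⟩

/-- The Weierstrass equation in the coordinate ring. -/
lemma coordRing_equation :
    yC W ^ 2 + cC W W.a₁ * xC W * yC W + cC W W.a₃ * yC W =
      xC W ^ 3 + cC W W.a₂ * xC W ^ 2 + cC W W.a₄ * xC W + cC W W.a₆ := by
  have h : CoordinateRing.mk W (Y ^ 2 + C (C W.a₁ * X + C W.a₃) * Y -
      C (X ^ 3 + C W.a₂ * X ^ 2 + C W.a₄ * X + C W.a₆)) = 0 := AdjoinRoot.mk_self
  simp only [map_add, map_sub, map_mul, map_pow] at h
  simp only [← polyC_C, ← polyC_X, polyC_apply, yC]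
  linear_combination h

/-- The conjugation `y ↦ -y - a₁x - a₃` of the coordinate ring. -/
noncomputable def conj : W.CoordinateRing →+* W.CoordinateRing :=
  AdjoinRoot.lift (polyC W) (CoordinateRing.mk W W.negPolynomial) (by
    show eval₂ (polyC W) (CoordinateRing.mk W W.negPolynomial) (Y ^ 2 + C (C W.a₁ * X + C W.a₃) * Y -
      C (X ^ 3 + C W.a₂ * X ^ 2 + C W.a₄ * X + C W.a₆)) = 0
    rw [negPolynomial]
    simp only [eval₂_add, eval₂_sub, eval₂_mul, eval₂_pow, eval₂_X, eval₂_C, polyC_apply,
      map_sub, map_neg, map_add, map_mul, map_pow]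
    have h := coordRing_equation W
    simp only [← polyC_C, ← polyC_X, polyC_apply, yC] at h
    linear_combination h)

@[simp] lemma conj_polyC (p : K[X]) : conj W (polyC W p) = polyC W p := by
  rw [conj, polyC_apply, AdjoinRoot.lift_mk, eval₂_C]
  rfl

@[simp] lemma conj_xC : conj W (xC W) = xC W := conj_polyC W X

@[simp] lemma conj_cC (c : K) : conj W (cC W c) = cC W c := by
  rw [← polyC_C, conj_polyC]

lemma conj_yC : conj W (yC W) = -yC W - cC W W.a₁ * xC W - cC W W.a₃ := by
  rw [conj, yC, AdjoinRoot.lift_mk, eval₂_X, negPolynomial]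
  simp only [← polyC_C, ← polyC_X, polyC_apply, map_sub, map_neg, map_add, map_mul]
  ring

/-- The norm to `K[X]`, as a polynomial. -/
noncomputable def normP : W.CoordinateRing →* K[X] := Algebra.norm K[X]

lemma polyC_normP (a : W.CoordinateRing) : polyC W (normP W a) = a * conj W a := by
  obtain ⟨p, q, rfl⟩ := exists_repr W a
  rw [map_add (conj W), map_mul (conj W), conj_polyC, conj_polyC, conj_yC]
  have h := CoordinateRing.norm_smul_basis (W' := W) p q
  rw [smul_eq_polyC_mul, smul_eq_polyC_mul, mul_one] at h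
  rw [normP, show polyC W p + polyC W q * yC W = polyC W p + polyC W q * CoordinateRing.mk W Y
    from rfl, h]
  simp only [map_sub, map_add, map_mul, map_pow, polyC_X, polyC_C]
  have e := coordRing_equation W
  unfold yC at *
  linear_combination (polyC W q) ^ 2 * e

lemma normP_eq_zero {a : W.CoordinateRing} : normP W a = 0 ↔ a = 0 := by
  exact Algebra.norm_eq_zero_iff_of_basis (CoordinateRing.basis W)

/-- Degree at infinity of an element of the coordinate ring (`x` has degree 2, `y` degree 3). -/
noncomputable def dg (a : W.CoordinateRing) : ℕ := (normP W a).natDegree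

lemma dg_mul {a b : W.CoordinateRing} (ha : a ≠ 0) (hb : b ≠ 0) :
    dg W (a * b) = dg W a + dg W b := by
  rw [dg, map_mul, natDegree_mul ((normP_eq_zero W).not.mpr ha) ((normP_eq_zero W).not.mpr hb)]
  rfl

lemma dg_mul_le (a b : W.CoordinateRing) : dg W (a * b) ≤ dg W a + dg W b := by
  rw [dg, map_mul]
  exact natDegree_mul_le

lemma dg_pow (a : W.CoordinateRing) (n : ℕ) : dg W (a ^ n) = n * dg W a := by
  rw [dg, map_pow, natDegree_pow]
  rfl

lemma dg_zero : dg W 0 = 0 := by
  rw [dg, (normP_eq_zero W).mpr rfl, natDegree_zero]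

lemma dg_le_iff (p q : K[X]) (n : ℕ) :
    dg W (polyC W p + polyC W q * yC W) ≤ n ↔
      2 * p.natDegree ≤ n ∧ (q ≠ 0 → 2 * q.natDegree + 3 ≤ n) := by
  have h := CoordinateRing.degree_norm_smul_basis (W' := W) p q
  rw [smul_eq_polyC_mul, smul_eq_polyC_mul, mul_one] at h
  rw [dg, natDegree_le_iff_degree_le]
  change (Algebra.norm K[X] _).degree ≤ _ ↔ _
  rw [show polyC W p + polyC W q * yC W = polyC W p + polyC W q * CoordinateRing.mk W Y from rfl, h,
    max_le_iff]
  refine and_congr ?_ ?_
  · by_cases hp : p = 0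
    · subst hp; simp
    · rw [degree_eq_natDegree hp, two_nsmul, two_mul]
      norm_cast
  · by_cases hq : q = 0
    · subst hq; simp
    · rw [degree_eq_natDegree hq]
      simp only [hq, ne_eq, not_false_eq_true, forall_const, two_nsmul, two_mul]
      norm_cast

lemma dg_add_le (a b : W.CoordinateRing) : dg W (a + b) ≤ max (dg W a) (dg W b) := by
  obtain ⟨p, q, rfl⟩ := exists_repr W a
  obtain ⟨p', q', rfl⟩ := exists_repr W b
  have e : polyC W p + polyC W q * yC W + (polyC W p' + polyC W q' * yC W) =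
      polyC W (p + p') + polyC W (q + q') * yC W := by rw [map_add, map_add]; ring
  rw [e, dg_le_iff]
  obtain ⟨hp, hq⟩ := (dg_le_iff W p q _).mp (le_max_left _
    (dg W (polyC W p' + polyC W q' * yC W)))
  obtain ⟨hp', hq'⟩ := (dg_le_iff W p' q' _).mp (le_max_right
    (dg W (polyC W p + polyC W q * yC W)) _)
  have h1 := natDegree_add_le p p'
  have h2 := natDegree_add_le q q'
  refine ⟨by omega, fun hne => ?_⟩
  by_cases hq0 : q = 0
  · subst hq0
    simp only [zero_add] at hne ⊢
    exact hq' hne
  by_cases hq0' : q' = 0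
  · subst hq0'
    simp only [add_zero]
    exact hq hq0
  have := hq hq0
  have := hq' hq0'
  omega

lemma dg_polyC (p : K[X]) : dg W (polyC W p) = 2 * p.natDegree := by
  apply le_antisymm
  · have := (dg_le_iff W p 0 (2 * p.natDegree)).mpr ⟨le_rfl, fun h => absurd rfl h⟩
    simpa using this
  · have := ((dg_le_iff W p 0 (dg W (polyC W p + polyC W 0 * yC W))).mp le_rfl).1
    simpa using this

lemma dg_cC (c : K) : dg W (cC W c) = 0 := by rw [← polyC_C, dg_polyC, natDegree_C]

lemma dg_xC : dg W (xC W) = 2 := by rw [← polyC_X, dg_polyC, natDegree_X]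

lemma dg_yC : dg W (yC W) = 3 := by
  apply le_antisymm
  · have := (dg_le_iff W 0 1 3).mpr ⟨by simp, fun _ => by simp⟩
    simpa using this
  · have := ((dg_le_iff W 0 1 (dg W (polyC W 0 + polyC W 1 * yC W))).mp le_rfl).2 one_ne_zero
    simpa using this

lemma exists_cC_of_dg_eq_zero {a : W.CoordinateRing} (h : dg W a = 0) : ∃ c : K, a = cC W c := by
  obtain ⟨p, q, rfl⟩ := exists_repr W a
  obtain ⟨hp, hq⟩ := (dg_le_iff W p q 0).mp h.le
  have hq0 : q = 0 := by
    by_contra hne
    have := hq hne
    omega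
  refine ⟨p.coeff 0, ?_⟩
  rw [hq0, map_zero, zero_mul, add_zero, ← polyC_C, ← eq_C_of_natDegree_eq_zero (by omega)]

lemma exists_cC_of_isUnit {a : W.CoordinateRing} (h : IsUnit a) : ∃ c : K, a = cC W c :=
  exists_cC_of_dg_eq_zero W (natDegree_eq_zero_of_isUnit (h.map (normP W)))

lemma ne_zero_of_two_or_linear [W.IsElliptic] :
    ¬((2 : K) = 0 ∧ W.a₁ = 0 ∧ W.a₃ = 0) := by
  rintro ⟨h2, h1, h3⟩
  refine W.isUnit_Δ.ne_zero ?_
  have hb2 : W.b₂ = 0 := by rw [b₂, h1]; linear_combination 2 * W.a₂ * h2
  have hb4 : W.b₄ = 0 := by rw [b₄, h1, h3]; linear_combination W.a₄ * h2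
  have hb6 : W.b₆ = 0 := by rw [b₆, h3]; linear_combination 2 * W.a₆ * h2
  rw [Δ, hb2, hb4, hb6]
  ring

lemma exists_polyC_of_conj_eq [W.IsElliptic] {a : W.CoordinateRing} (h : conj W a = a) :
    ∃ p : K[X], a = polyC W p := by
  obtain ⟨p, q, rfl⟩ := exists_repr W a
  rw [map_add, map_mul, conj_polyC, conj_polyC, conj_yC] at h
  have h' : polyC W (q * (C W.a₁ * X + C W.a₃)) + polyC W (2 * q) * yC W = 0 := by
    simp only [map_mul, map_add, polyC_C, polyC_X, map_ofNat]
    linear_combination -h
  obtain ⟨h1, h2⟩ := repr_eq_zero W h'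
  refine ⟨p, ?_⟩
  have hq : q = 0 := by
    by_contra hq
    apply ne_zero_of_two_or_linear W
    have h20 : (2 : K[X]) = 0 := (mul_eq_zero.mp h2).resolve_right hq
    have hlin : C W.a₁ * X + C W.a₃ = 0 := (mul_eq_zero.mp h1).resolve_left hq
    refine ⟨?_, ?_, ?_⟩
    · simpa using congrArg (Polynomial.eval 0) h20
    · simpa using congrArg (fun f => Polynomial.coeff f 1) hlin
    · simpa using congrArg (fun f => Polynomial.coeff f 0) hlin
  rw [hq, map_zero, zero_mul, add_zero]

/-- Evaluation at a point of the affine curve. -/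
noncomputable def evalPt {a b : K} (h : W.Equation a b) : W.CoordinateRing →+* K :=
  AdjoinRoot.lift (Polynomial.evalRingHom a) b (by
    rw [WeierstrassCurve.Affine.Equation] at h
    rw [← Polynomial.eval₂_evalRingHom] at h
    exact h)

@[simp] lemma evalPt_polyC {a b : K} (h : W.Equation a b) (p : K[X]) :
    evalPt W h (polyC W p) = p.eval a := by
  rw [evalPt, polyC_apply, AdjoinRoot.lift_mk, eval₂_C]
  rfl

@[simp] lemma evalPt_xC {a b : K} (h : W.Equation a b) : evalPt W h (xC W) = a := by
  rw [← polyC_X, evalPt_polyC, eval_X]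

@[simp] lemma evalPt_cC {a b : K} (h : W.Equation a b) (c : K) : evalPt W h (cC W c) = c := by
  rw [← polyC_C, evalPt_polyC, eval_C]

@[simp] lemma evalPt_yC {a b : K} (h : W.Equation a b) : evalPt W h (yC W) = b := by
  rw [evalPt, yC, AdjoinRoot.lift_mk, eval₂_X]

end Fermat.Agent.EllFrobenius
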