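import Fermat.Agent.EllFrobenius.Semilinear
import Fermat.Prelude.Def_FreyPackage_DetCyclotomic
import Mathlib.LinearAlgebra.FreeModule.Finite.Basic
import Mathlib.FieldTheory.Finiteness
import Mathlib.LinearAlgebra.Matrix.Determinant.Basic

/-!
# The determinant of the mod `p` representation is the cyclotomic character
-/

set_option autoImplicit false

open WeierstrassCurve WeierstrassCurve.Affine
open scoped WeierstrassCurve.Affine

universe r s u

namespace Fermat.Agent.EllFrobenius

variable {R : Type r} {S : Type s} {K : Type u} [CommRing R] [CommRing S] [Field K]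
  [DecidableEq K] [Algebra R S] [Algebra R K] [Algebra S K] [IsScalarTower R S K] [IsAlgClosed K]

/-- `det = χ` given that there are `p ^ 2` points of order dividing `p`. -/
theorem det_galoisRepModuleEnd_of_card (W' : Affine R) [hE : (W'⁄K).IsElliptic] (p : ℕ)
    [hp : Fact p.Prime]
    (hcard : Nat.card (Submodule.torsionBy ℤ (W'⁄K).toAffine.Point p) = p ^ 2)
    (hn : Nat.card (rootsOfUnity p K) = p) (σ : K ≃ₐ[S] K) :
    LinearMap.det (Affine.Point.galoisRepModuleEnd S W' p σ) =
      ((modularCyclotomicCharacter K hn (σ : K ≃+* K) : (ZMod p)ˣ) : ZMod p) := by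
  classical
  set M := Affine.Point.galoisRepModuleEnd S W' p σ with hM
  by_cases hp2 : p = 2
  · subst hp2
    have hu : IsUnit (LinearMap.det M) :=
      ((Group.isUnit σ).map (Affine.Point.galoisRepModuleEnd (K := K) S W' 2)).map LinearMap.det
    obtain ⟨v, hv⟩ := hu
    rw [← hv]
    exact congrArg Units.val (Subsingleton.elim _ _)
  have hp3 : 3 ≤ p := by have := hp.out.two_le; omega
  set V := Submodule.torsionBy ℤ (W'⁄K).toAffine.Point p
  have : Finite V := Nat.finite_of_card_ne_zero (by
    rw [hcard]; exact pow_ne_zero 2 hp.out.ne_zero)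
  have : Module.Finite (ZMod p) V := Module.Finite.of_finite
  have hrank : Module.finrank (ZMod p) V = 2 := by
    have h := Module.natCard_eq_pow_finrank (K := ZMod p) (V := V)
    rw [hcard, Nat.card_zmod] at h
    exact (Nat.pow_right_injective hp.out.two_le h).symm
  let b : Module.Basis (Fin 2) (ZMod p) V :=
    (Module.finBasis (ZMod p) V).reindex (finCongr hrank)
  set P : (W'⁄K).toAffine.Point := (b 0 : (W'⁄K).toAffine.Point) with hP
  set Q : (W'⁄K).toAffine.Point := (b 1 : (W'⁄K).toAffine.Point) with hQ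
  have tors : ∀ x : V, p • (x : (W'⁄K).toAffine.Point) = 0 := fun x => by
    rw [← natCast_zsmul]
    exact (Submodule.mem_torsionBy_iff _ _).mp x.2
  have hsmul : ∀ (a : ZMod p) (x : V),
      ((a • x : V) : (W'⁄K).toAffine.Point) = a.val • (x : (W'⁄K).toAffine.Point) := fun a x => by
    conv_lhs => rw [← ZMod.natCast_zmod_val a, Nat.cast_smul_eq_nsmul]
    rfl
  have hexp : ∀ x : V, (x : (W'⁄K).toAffine.Point) =
      (b.repr x 0).val • P + (b.repr x 1).val • Q := fun x => by
    conv_lhs => rw [← b.sum_repr x, Fin.sum_univ_two, Submodule.coe_add, hsmul, hsmul]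
  let σR : K ≃ₐ[R] K := σ.restrictScalars R
  have hσ : ∀ x : V, ((M x : V) : (W'⁄K).toAffine.Point) =
      Affine.Point.map (W' := W') σR.toAlgHom (x : (W'⁄K).toAffine.Point) := fun x => by
    show σ • (x : (W'⁄K).toAffine.Point) = _
    rw [Affine.Point.algEquiv_smul_def]
    rcases (x : (W'⁄K).toAffine.Point) with _ | ⟨a, c, h⟩ <;> rfl
  set w := weil W' K p P Q with hw
  have hwpow : w ^ p = 1 := weil_pow_self W' K (tors _) (tors _)
  have hgen : ∀ U ∈ (Finset.univ : Finset (Fin p × Fin p)).image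
      (fun ij => (ij.1 : ℕ) • P + (ij.2 : ℕ) • Q),
      U ∈ AddSubmonoid.closure ({P, Q} : Set (W'⁄K).toAffine.Point) := by
    intro U hU
    obtain ⟨⟨i, j⟩, -, rfl⟩ := Finset.mem_image.mp hU
    have hPm : P ∈ AddSubmonoid.closure ({P, Q} : Set (W'⁄K).toAffine.Point) :=
      AddSubmonoid.subset_closure (Set.mem_insert P {Q})
    have hQm : Q ∈ AddSubmonoid.closure ({P, Q} : Set (W'⁄K).toAffine.Point) :=
      AddSubmonoid.subset_closure (Set.mem_insert_of_mem P (Set.mem_singleton Q))
    exact add_mem (nsmul_mem hPm _) (nsmul_mem hQm _)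
  have hG : p ^ 2 ≤ ((Finset.univ : Finset (Fin p × Fin p)).image
      (fun ij => (ij.1 : ℕ) • P + (ij.2 : ℕ) • Q)).card := by
    have := Fintype.ofFinite V
    have hsub : (Finset.univ : Finset V).map ⟨fun x : V => (x : (W'⁄K).toAffine.Point),
        Subtype.val_injective⟩ ⊆ (Finset.univ : Finset (Fin p × Fin p)).image
          (fun ij => (ij.1 : ℕ) • P + (ij.2 : ℕ) • Q) := by
      intro U hU
      obtain ⟨x, -, rfl⟩ := Finset.mem_map.mp hU
      exact Finset.mem_image.mpr ⟨(⟨(b.repr x 0).val, ZMod.val_lt _⟩,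
        ⟨(b.repr x 1).val, ZMod.val_lt _⟩), Finset.mem_univ _, (hexp x).symm⟩
    have h := Finset.card_le_card hsub
    rw [Finset.card_map, Finset.card_univ, ← Nat.card_eq_fintype_card,
      hcard] at h
    exact h
  have hne : w ≠ 1 := weil_ne_one W' K hp3 (tors _) (tors _) _ hG hgen
  have hord : orderOf w = p := orderOf_eq_prime hwpow hne
  set a := b.repr (M (b 0)) 0
  set c := b.repr (M (b 0)) 1
  set a' := b.repr (M (b 1)) 0
  set d := b.repr (M (b 1)) 1
  have hdet : LinearMap.det M = a * d - a' * c := by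
    rw [← LinearMap.det_toMatrix b, Matrix.det_fin_two]
    simp only [LinearMap.toMatrix_apply]
    rfl
  have key := weil_map W' K σR (tors (b 0)) (tors (b 1))
  have tk : ∀ (x : V) (k : ℕ), p • (k • (x : (W'⁄K).toAffine.Point)) = 0 := fun x k => by
    rw [smul_comm, tors, smul_zero]
  rw [← hσ, ← hσ, hexp (M (b 0)), hexp (M (b 1)),
    weil_add_left W' K (tk _ _) (tk _ _) (by rw [smul_add, tk, tk, add_zero]),
    weil_add_right W' K (tk _ _) (tk _ _) (tk _ _), weil_add_right W' K (tk _ _) (tk _ _) (tk _ _),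
    weil_nsmul_left W' K (tors _) (tk _ _), weil_nsmul_left W' K (tors _) (tk _ _),
    weil_nsmul_left W' K (tors _) (tk _ _), weil_nsmul_left W' K (tors _) (tk _ _),
    weil_nsmul_right W' K (tors _) (tors _), weil_nsmul_right W' K (tors _) (tors _),
    weil_nsmul_right W' K (tors _) (tors _), weil_nsmul_right W' K (tors _) (tors _),
    weil_self W' K (tors _), weil_self W' K (tors _), one_pow, one_pow, one_pow, one_pow,
    one_mul, mul_one] at key
  have hswap : weil W' K p Q P = w⁻¹ := eq_inv_of_mul_eq_one_right (weil_swap W' K (tors _) (tors _))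
  rw [hswap, ← hw, ← pow_mul, inv_pow, inv_pow, ← pow_mul] at key
  set χ : (ZMod p)ˣ := modularCyclotomicCharacter K hn (σ : K ≃+* K)
  have hw0 : w ≠ 0 := fun e => by simp [e, zero_pow hp.out.ne_zero] at hwpow
  have hchi : σR w = w ^ (χ : ZMod p).val := by
    have h := modularCyclotomicCharacter.spec K hn (σ : K ≃+* K) (t := Units.mk0 w hw0)
      ((mem_rootsOfUnity p _).mpr (Units.ext (by simpa using hwpow)))
    have h' : σ w = w ^ (χ : ZMod p).val := by simpa using h
    exact h'
  rw [hchi] at key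
  have key2 : w ^ (d.val * a.val) = w ^ ((χ : ZMod p).val + a'.val * c.val) := by
    rw [pow_add, ← key, mul_assoc, inv_mul_cancel₀ (pow_ne_zero _ hw0), mul_one]
  rw [(isOfFinOrder_iff_pow_eq_one.mpr ⟨p, hp.out.pos, hwpow⟩).pow_eq_pow_iff_modEq, hord, ← ZMod.natCast_eq_natCast_iff] at key2
  simp only [Nat.cast_mul, Nat.cast_add, ZMod.natCast_zmod_val] at key2
  rw [hdet]
  linear_combination key2

end Fermat.Agent.EllFrobenius
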