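import Fermat.Agent.EllFrobenius.Height
import Fermat.Prelude.Def_FLTPrelim_Modularity
import Mathlib.FieldTheory.Finite.Basic
import Mathlib.RingTheory.Coprime.Lemmas

/-!
# The degree of `Frob - 1` is the number of rational points
-/

set_option autoImplicit false

open Polynomial
open scoped WeierstrassCurve.Affine

universe r u

namespace Fermat.Agent.EllFrobenius

open WeierstrassCurve WeierstrassCurve.Affine

variable {k : Type r} [Field k] [Fintype k] (W : WeierstrassCurve.Affine k) [W.IsElliptic]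
  (K : Type u) [Field K] [Algebra k K]

local notation "q" => Fintype.card k

instance isElliptic_baseChange : (W⁄K).IsElliptic :=
  inferInstanceAs (WeierstrassCurve.map W (algebraMap k K)).IsElliptic

/-- `X ^ q - X` over `K`. -/
noncomputable def frobD : K[X] := X ^ Fintype.card k - X

/-- The numerator of the slope between `Frob P` and `-P`. -/
noncomputable def frobW : (W⁄K).toAffine.CoordinateRing :=
  yC _ ^ q + yC _ + cC _ (W⁄K).a₁ * xC _ + cC _ (W⁄K).a₃

/-- The numerator of `x (Frob P - P)`. -/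
noncomputable def frobNum : (W⁄K).toAffine.CoordinateRing :=
  frobW W K ^ 2 + cC _ (W⁄K).a₁ * frobW W K * polyC _ (frobD (k := k) K) -
    (cC _ (W⁄K).a₂ + xC _ ^ q + xC _) * polyC _ (frobD (k := k) K) ^ 2

omit [W.IsElliptic] in
lemma coeff_pow_card :
    (W⁄K).a₁ ^ q = (W⁄K).a₁ ∧ (W⁄K).a₂ ^ q = (W⁄K).a₂ ∧ (W⁄K).a₃ ^ q = (W⁄K).a₃ ∧
      (W⁄K).a₄ ^ q = (W⁄K).a₄ ∧ (W⁄K).a₆ ^ q = (W⁄K).a₆ := by
  refine ⟨?_, ?_, ?_, ?_, ?_⟩ <;>
    exact (map_pow (algebraMap k K) _ _).symm.trans (congrArg _ (FiniteField.pow_card _))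

omit [W.IsElliptic] in
lemma yC_pow_card_equation :
    (yC (W⁄K).toAffine ^ q) ^ 2 + cC _ (W⁄K).a₁ * xC _ ^ q * yC _ ^ q +
        cC _ (W⁄K).a₃ * yC _ ^ q =
      (xC _ ^ q) ^ 3 + cC _ (W⁄K).a₂ * (xC _ ^ q) ^ 2 + cC _ (W⁄K).a₄ * xC _ ^ q +
        cC _ (W⁄K).a₆ := by
  have h := congrArg (FiniteField.frobeniusAlgHom k (W⁄K).toAffine.CoordinateRing)
    (coordRing_equation (W⁄K).toAffine)
  obtain ⟨h1, h2, h3, h4, h6⟩ := coeff_pow_card W K
  have c1 := congrArg (cC (W⁄K).toAffine) h1
  have c2 := congrArg (cC (W⁄K).toAffine) h2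
  have c3 := congrArg (cC (W⁄K).toAffine) h3
  have c4 := congrArg (cC (W⁄K).toAffine) h4
  have c6 := congrArg (cC (W⁄K).toAffine) h6
  rw [map_pow] at c1 c2 c3 c4 c6
  simp only [map_add, map_mul, map_pow, FiniteField.coe_frobeniusAlgHom, c1, c2, c3, c4, c6] at h
  exact h

omit [Fintype k] [W.IsElliptic] in
lemma frobNum_identity {A : Type*} [CommRing A] {x y xq yq a₁ a₂ a₃ a₄ a₆ z : A}
    (hz : z = y + a₁ * x + a₃)
    (h : yq ^ 2 + a₁ * xq * yq + a₃ * yq = xq ^ 3 + a₂ * xq ^ 2 + a₄ * xq + a₆) :
    (yq + y + a₁ * x + a₃) ^ 2 + a₁ * (yq + y + a₁ * x + a₃) * (xq - x) -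
        (a₂ + xq + x) * (xq - x) ^ 2 =
      xq ^ 2 * x + (a₄ * xq + a₆ + yq * (z + y) + z ^ 2 + a₁ * z * (xq + -1 * x) +
        2 * (a₂ + x) * (xq * x) + -1 * (a₂ + x) * x ^ 2 + -1 * (xq * x ^ 2)) := by
  subst hz
  linear_combination h

omit [WeierstrassCurve.IsElliptic W] in
/-- The leading term of the numerator. -/
lemma exists_frobNum_eq :
    ∃ rest : (W⁄K).toAffine.CoordinateRing,
      frobNum W K = polyC (W⁄K).toAffine (X ^ (2 * q + 1)) + rest ∧
        dg (W⁄K).toAffine rest ≤ 4 * q + 1 := by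
  have hq : 1 < q := Fintype.one_lt_card
  let A := (W⁄K).toAffine
  let x := xC A
  let y := yC A
  set z := y + cC A A.a₁ * x + cC A A.a₃ with hz
  refine ⟨cC A A.a₄ * x ^ q + cC A A.a₆ + y ^ q * (z + y) + z ^ 2 +
    cC A A.a₁ * z * (x ^ q + cC A (-1) * x) + cC A 2 * (cC A A.a₂ + x) * (x ^ q * x) +
    cC A (-1) * (cC A A.a₂ + x) * x ^ 2 + cC A (-1) * (x ^ q * x ^ 2), ?_, ?_⟩
  · have h := yC_pow_card_equation W K
    rw [frobNum, frobW, frobD]
    simp only [map_sub, map_pow, polyC_X, map_neg, map_one, map_ofNat]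
    have hid := frobNum_identity (x := x) (y := y) (z := z) hz h
    rw [show x ^ (2 * q + 1) = (x ^ q) ^ 2 * x by rw [← pow_mul, ← pow_succ, mul_comm q 2]]
    exact hid
  · have hcx : dg A x = 2 := dg_xC A
    have hcy : dg A y = 3 := dg_yC A
    have bc : ∀ c w, dg A (cC A c * w) ≤ dg A w := fun c w =>
      (dg_mul_le A _ _).trans (by rw [dg_cC, zero_add])
    have ba : ∀ {a b} {n : ℕ}, dg A a ≤ n → dg A b ≤ n → dg A (a + b) ≤ n := fun ha hb =>
      (dg_add_le A _ _).trans (max_le ha hb)
    have bz : dg A z ≤ 3 := by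
      refine ba (ba hcy.le ((bc _ _).trans (by omega))) ?_
      rw [dg_cC]; omega
    have bx : ∀ m, dg A (x ^ m) = 2 * m := fun m => by rw [dg_pow, hcx, mul_comm]
    have bax : dg A (cC A A.a₂ + x) ≤ 2 := ba (by rw [dg_cC]; omega) hcx.le
    refine ba (ba (ba (ba (ba (ba (ba ?_ ?_) ?_) ?_) ?_) ?_) ?_) ?_
    · exact (bc _ _).trans (by rw [bx]; omega)
    · rw [dg_cC]; omega
    · refine (dg_mul_le A _ _).trans ?_
      have : dg A (z + y) ≤ 3 := ba bz hcy.le
      rw [dg_pow, hcy]
      omega
    · rw [dg_pow]; omega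
    · refine (dg_mul_le A _ _).trans ?_
      have h1 : dg A (cC A A.a₁ * z) ≤ 3 := (bc _ _).trans bz
      have h2 : dg A (x ^ q + cC A (-1) * x) ≤ 2 * q := ba (bx q).le ((bc _ _).trans (by omega))
      omega
    · refine (dg_mul_le A _ _).trans ?_
      have h1 : dg A (cC A 2 * (cC A A.a₂ + x)) ≤ 2 := (bc _ _).trans bax
      rw [← pow_succ, bx]
      omega
    · refine (dg_mul_le A _ _).trans ?_
      have h1 : dg A (cC A (-1) * (cC A A.a₂ + x)) ≤ 2 := (bc _ _).trans bax
      rw [bx]
      omega
    · exact (bc _ _).trans (by rw [← pow_add, bx]; omega)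

variable [IsAlgClosed K] [DecidableEq (FF W K)] [DecidableEq K]

/-- `Frob P - P` for the generic point `P`. -/
noncomputable def frobSubOne : (W⁄(FF W K)).toAffine.Point :=
  Affine.Point.map (W' := W) (FiniteField.frobeniusAlgHom k (FF W K)) (genPt W K) - genPt W K

omit [W.IsElliptic] [IsAlgClosed K] [DecidableEq (FF W K)] [DecidableEq K] in
lemma xL_pow_ne : xL W K ^ q ≠ xL W K := by
  intro e
  have h : (X ^ q - X : K[X]) = 0 := aeval_xL_injective W K (by simp [e])
  exact FiniteField.X_pow_card_sub_X_ne_zero K Fintype.one_lt_card h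

omit [IsAlgClosed K] [DecidableEq K] in
lemma frobSubOne_eq : ∃ z y h, frobSubOne W K = .some z y h ∧
    z * toFF W K (polyC _ (frobD (k := k) K) ^ 2) = toFF W K (frobNum W K) := by
  obtain ⟨hg, eg⟩ := genPt_eq W K
  have hne : xL W K ^ q ≠ xL W K := xL_pow_ne W K
  have h : frobSubOne W K = Affine.Point.map (W' := W) (FiniteField.frobeniusAlgHom k (FF W K))
      (genPt W K) - genPt W K := rfl
  rw [eg, Affine.Point.map_some, sub_eq_add_neg, Affine.Point.neg_some] at h
  simp only [FiniteField.coe_frobeniusAlgHom] at h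
  rw [Affine.Point.add_of_X_ne hne] at h
  refine ⟨_, _, _, h, ?_⟩
  have hD : toFF W K (polyC _ (frobD (k := k) K)) = xL W K ^ q - xL W K := by
    rw [frobD, map_sub, map_pow, polyC_X, map_sub, map_pow]; rfl
  have hD0 : xL W K ^ q - xL W K ≠ 0 := sub_ne_zero.mpr hne
  have ha1 : (W⁄(FF W K)).a₁ = cL W K (W⁄K).a₁ := IsScalarTower.algebraMap_apply k K _ _
  have ha2 : (W⁄(FF W K)).a₂ = cL W K (W⁄K).a₂ := IsScalarTower.algebraMap_apply k K _ _
  have ha3 : (W⁄(FF W K)).a₃ = cL W K (W⁄K).a₃ := IsScalarTower.algebraMap_apply k K _ _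
  have hw : toFF W K (frobW W K) =
      yL W K ^ q + yL W K + cL W K (W⁄K).a₁ * xL W K + cL W K (W⁄K).a₃ := by
    simp only [frobW, map_add, map_mul, map_pow, toFF_cC]
    rfl
  rw [addX, slope_of_X_ne hne, negY, ha1, ha2, ha3, frobNum]
  simp only [map_add, map_sub, map_mul, map_pow, hD, hw, toFF_cC]
  rw [show toFF W K (xC _) = xL W K from rfl]
  field_simp
  ring

lemma frob_map_conjL_genPt :
    Affine.Point.map (W' := W) (conjL W K)
        (Affine.Point.map (W' := W) (FiniteField.frobeniusAlgHom k (FF W K)) (genPt W K)) =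
      -Affine.Point.map (W' := W) (FiniteField.frobeniusAlgHom k (FF W K)) (genPt W K) := by
  obtain ⟨hg, eg⟩ := genPt_eq W K
  have h := conjL_genPt W K
  rw [← map_neg, ← h, eg, Affine.Point.map_some, Affine.Point.map_some, Affine.Point.map_some,
    Affine.Point.map_some, Affine.Point.some.injEq]
  simp

lemma frobSubOne_mem : frobSubOne W K ∈ oddPts W K :=
  sub_mem (frob_map_conjL_genPt W K) (genPt_mem_oddPts W K)

lemma exists_frobNum_polyC : ∃ U : K[X], frobNum W K = polyC _ U ∧ U.natDegree = 2 * q + 1 := by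
  obtain ⟨z, y, h, e, hz⟩ := frobSubOne_eq W K
  have hm := frobSubOne_mem W K
  rw [e] at hm
  have hm' : Affine.Point.map (W' := W) (conjL W K) (.some z y h) = -.some z y h := hm
  rw [Affine.Point.map_some, Affine.Point.neg_some, Affine.Point.some.injEq] at hm'
  have hfix : conj _ (frobNum W K) = frobNum W K := by
    apply toFF_injective W K
    rw [← conjL_toFF, ← hz, map_mul, hm'.1, conjL_toFF, map_pow, conj_polyC]
  obtain ⟨U, hU⟩ := exists_polyC_of_conj_eq _ hfix
  obtain ⟨rest, hrest, hdg⟩ := exists_frobNum_eq W K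
  refine ⟨U, hU, ?_⟩
  have hr : rest = polyC _ (U - X ^ (2 * q + 1)) := by
    rw [map_sub, ← hU, hrest]; ring
  rw [hr, dg_polyC] at hdg
  have hU' : U = X ^ (2 * q + 1) + (U - X ^ (2 * q + 1)) := by ring
  rw [hU', natDegree_add_eq_left_of_natDegree_lt (by rw [natDegree_X_pow]; omega), natDegree_X_pow]

omit [W.IsElliptic] [DecidableEq (FF W K)] [DecidableEq K] [IsAlgClosed K] in
lemma frobD_eq_prod : frobD (k := k) K = ∏ a : k, (X - C (algebraMap k K a)) := by
  have hsplit : (X ^ q - X : k[X]) = ∏ a : k, (X - C a) := by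
    have hmonic : (X ^ q - X : k[X]).Monic :=
      monic_X_pow_sub (by rw [degree_X]; exact_mod_cast Fintype.one_lt_card)
    have hcard : Multiset.card (X ^ q - X : k[X]).roots = (X ^ q - X : k[X]).natDegree := by
      rw [FiniteField.roots_X_pow_card_sub_X, FiniteField.X_pow_card_sub_X_natDegree_eq _
        Fintype.one_lt_card]
      rfl
    rw [← prod_multiset_X_sub_C_of_monic_of_roots_card_eq hmonic hcard,
      FiniteField.roots_X_pow_card_sub_X]
    rfl
  have h := congrArg (Polynomial.map (algebraMap k K)) hsplit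
  rw [Polynomial.map_sub, Polynomial.map_pow, map_X, Polynomial.map_prod] at h
  simp only [Polynomial.map_sub, map_X, map_C] at h
  exact h

omit [W.IsElliptic] [DecidableEq (FF W K)] [DecidableEq K] [IsAlgClosed K] in
lemma mem_range_of_pow_card_eq {b : K} (hb : b ^ q = b) : ∃ β : k, algebraMap k K β = b := by
  have h := congrArg (eval b) (frobD_eq_prod (k := k) K)
  rw [frobD, eval_sub, eval_pow, eval_X, hb, sub_self, eval_prod, eq_comm,
    Finset.prod_eq_zero_iff] at h
  obtain ⟨β, -, hβ⟩ := h
  rw [eval_sub, eval_X, eval_C, sub_eq_zero] at hβ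
  exact ⟨β, hβ.symm⟩

/-- The number of points of `W` over `k` with given `x`. -/
noncomputable def fibreCard (a : k) : ℕ := Nat.card {b : k // W.Equation a b}

omit [DecidableEq (FF W K)] [DecidableEq K] in
lemma local_dvd (a : k) {U : K[X]} (hU : frobNum W K = polyC (W⁄K).toAffine U) :
    fibreCard W a ≤ 2 ∧ (X - C (algebraMap k K a)) ^ (2 - fibreCard W a) ∣ U ∧
      (fibreCard W a ≠ 0 → ¬ (X - C (algebraMap k K a)) ^ (3 - fibreCard W a) ∣ U) := by
  classical
  set α := algebraMap k K a with hαdef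
  let A := (W⁄K).toAffine
  obtain ⟨h1, -, h3, -, -⟩ := coeff_pow_card W K
  have hαq : α ^ q = α := by rw [hαdef, ← map_pow, FiniteField.pow_card]
  obtain ⟨b₀, he⟩ : ∃ b, A.Equation α b := by
    obtain ⟨b, hb⟩ := IsAlgClosed.exists_root
      (C (1 : K) * X ^ 2 + C (A.a₁ * α + A.a₃) * X +
        C (-(α ^ 3 + A.a₂ * α ^ 2 + A.a₄ * α + A.a₆)))
      (by rw [degree_quadratic one_ne_zero]; decide)
    refine ⟨b, ?_⟩
    rw [equation_iff]
    simp only [IsRoot, eval_add, eval_mul, eval_C, eval_pow, eval_X] at hb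
    linear_combination hb
  have he' : A.Equation α (A.negY α b₀) := (equation_neg α b₀).mpr he
  have roots : ∀ {b : K}, A.Equation α b → b = b₀ ∨ b = A.negY α b₀ := fun hb =>
    Y_eq_of_X_eq hb he rfl
  have pow_root : ∀ {b : K}, A.Equation α b → A.Equation α (b ^ q) := by
    intro b hb
    obtain ⟨h1, h2, h3, h4, h6⟩ := coeff_pow_card W K
    rw [equation_iff] at hb ⊢
    have h := congrArg (FiniteField.frobeniusAlgHom k K) hb
    simp only [map_add, map_mul, map_pow, FiniteField.coe_frobeniusAlgHom, hαq] at h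
    simp only [A] at h ⊢
    rw [h1, h2, h3, h4, h6] at h
    exact h
  have hfib : ∀ β : k, W.Equation a β ↔ A.Equation α (algebraMap k K β) := fun β =>
    (W.map_equation (f := algebraMap k K) (RingHom.injective _) a β).symm
  have hev : ∀ {b : K} (hb : A.Equation α b),
      evalPt A hb (frobW W K) = b ^ q + b + A.a₁ * α + A.a₃ ∧
        evalPt A hb (polyC A (frobD (k := k) K)) = 0 := by
    intro b hb
    refine ⟨by simp [frobW, A], ?_⟩
    rw [evalPt_polyC, frobD, eval_sub, eval_pow, eval_X, hαq, sub_self]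
  have hevN : ∀ {b : K} (hb : A.Equation α b),
      U.eval α = (b ^ q + b + A.a₁ * α + A.a₃) ^ 2 := by
    intro b hb
    have h := congrArg (evalPt A hb) hU
    rw [evalPt_polyC] at h
    rw [← h, frobNum]
    simp only [map_add, map_sub, map_mul, map_pow, (hev hb).1, evalPt_polyC, frobD, 
      eval_X, hαq, sub_self, A]
    ring
  have inj : ∀ {x y : K}, x ^ q = y ^ q → x = y := fun {x y} h =>
    (FiniteField.frobeniusAlgHom k K).toRingHom.injective h
  obtain ⟨g, hg⟩ : (X - C α) ∣ frobD (k := k) K :=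
    dvd_iff_isRoot.mpr (by rw [IsRoot, frobD, eval_sub, eval_pow, eval_X, hαq, sub_self])
  by_cases hfix : b₀ ^ q = b₀
  · obtain ⟨β, hβ⟩ := mem_range_of_pow_card_eq (k := k) K hfix
    have hβ' : A.negY α b₀ = algebraMap k K (W.negY a β) := by
      rw [hαdef, ← hβ]
      exact (W.map_negY (algebraMap k K) a β)
    have hset : ∀ γ : k, W.Equation a γ ↔ γ ∈ ({β, W.negY a β} : Finset k) := by
      intro γ
      rw [hfib, Finset.mem_insert, Finset.mem_singleton]
      constructor
      · intro h
        rcases roots h with e | e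
        · exact Or.inl ((algebraMap k K).injective (e.trans hβ.symm))
        · exact Or.inr ((algebraMap k K).injective (e.trans hβ'))
      · rintro (rfl | rfl)
        · rwa [hβ]
        · rwa [← hβ']
    have hcard : fibreCard W a = ({β, W.negY a β} : Finset k).card := by
      rw [fibreCard, Nat.card_eq_fintype_card, Fintype.card_of_subtype _ (fun γ => (hset γ).symm)]
    by_cases hb : b₀ = A.negY α b₀
    · have hn : fibreCard W a = 1 := by
        rw [hcard, ← (algebraMap k K).injective (hβ.trans (hb.trans hβ'))]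
        simp
      have h2b : 2 * b₀ + A.a₁ * α + A.a₃ = 0 := by
        rw [negY] at hb; linear_combination hb
      rw [hn]
      refine ⟨by omega, ?_, fun _ => ?_⟩
      · rw [show 2 - 1 = 1 from rfl, pow_one, dvd_iff_isRoot, IsRoot, hevN he, hfix,
          show b₀ + b₀ + A.a₁ * α + A.a₃ = 0 by linear_combination h2b, zero_pow two_ne_zero]
      · rw [show 3 - 1 = 2 from rfl]
        rintro ⟨U', hU'⟩
        set c := 3 * α ^ 2 + 2 * A.a₂ * α + A.a₄ - A.a₁ * b₀ with hcdef
        have hc0 : c ≠ 0 := by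
          intro h0
          rcases ((nonsingular_iff ..).mp (equation_iff_nonsingular.mp he)).2 with h | h
          · exact h (by linear_combination -h0)
          · exact h hb
        set X' := xC A - cC A α
        set Y' := yC A - cC A b₀
        set uu : A.CoordinateRing := 1 + Y' ^ (q - 1) with huu
        set c'' := cC A c - cC A A.a₁ * Y' + (cC A (3 * α) + cC A A.a₂) * X' + X' ^ 2
        have hY : Y' ^ 2 = X' * c'' := by
          have e := coordRing_equation A
          have e0 := congrArg (cC A) ((equation_iff α b₀).mp he)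
          have e2 := congrArg (cC A) h2b
          simp only [X', Y', c'', hcdef, map_add, map_sub, map_mul, map_pow, map_ofNat, map_zero]
            at e0 e2 ⊢
          linear_combination e - e0 + (-yC A + cC A b₀) * e2
        have hw : frobW W K = Y' * uu + cC A A.a₁ * X' := by
          have hYq : Y' ^ q = yC A ^ q - cC A b₀ := by
            have h := map_sub (FiniteField.frobeniusAlgHom k A.CoordinateRing) (yC A) (cC A b₀)
            simp only [FiniteField.coe_frobeniusAlgHom] at h
            rw [h, ← map_pow, hfix]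
          have hYu : Y' * uu = Y' + Y' ^ q := by
            rw [huu, mul_add, mul_one, ← pow_succ', Nat.sub_add_cancel Fintype.one_lt_card.le]
          have e2 := congrArg (cC A) h2b
          simp only [map_add, map_mul, map_ofNat, map_zero] at e2
          rw [hYu, hYq, frobW]
          simp only [X', Y', A] at e2 ⊢
          linear_combination e2
        have hD : polyC A (frobD (k := k) K) = X' * polyC A g := by
          rw [hg, map_mul, map_sub, polyC_X, polyC_C]
        set M := c'' * uu ^ 2 + 2 * cC A A.a₁ * Y' * uu + cC A A.a₁ ^ 2 * X' +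
          cC A A.a₁ * frobW W K * polyC A g -
            (cC A A.a₂ + xC A ^ q + xC A) * X' * polyC A g ^ 2
        have hNum : frobNum W K = X' * M := by
          rw [frobNum, hD]
          simp only [M, hw, A]
          linear_combination (uu ^ 2) * hY
        have hX0 : X' ≠ 0 := by
          show xC A - cC A α ≠ 0
          rw [← polyC_X, ← polyC_C, ← map_sub]
          exact (map_ne_zero_iff _ (polyC_injective A)).mpr (X_sub_C_ne_zero α)
        have hM : M = X' * polyC A U' := by
          apply mul_left_cancel₀ hX0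
          rw [← hNum, hU, hU', map_mul, map_pow, map_sub, polyC_X, polyC_C]
          ring
        have evX : evalPt A he X' = 0 := by simp [X']
        have evY : evalPt A he Y' = 0 := by simp [Y']
        have hev' := congrArg (evalPt A he) hM
        rw [map_mul, evX, zero_mul] at hev'
        apply hc0
        rw [← hev']
        simp only [M, c'', huu, map_add, map_sub, map_mul, map_pow, map_one, map_ofNat, evX, evY,
          evalPt_cC, hw]
        rw [zero_pow (Nat.sub_ne_zero_of_lt Fintype.one_lt_card)]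
        ring
    · have hn : fibreCard W a = 2 := by
        rw [hcard]
        exact Finset.card_pair fun e => hb (by rw [hβ', ← e, hβ])
      rw [hn]
      refine ⟨le_rfl, by simp, fun _ hd => ?_⟩
      rw [show 3 - 2 = 1 from rfl, pow_one, dvd_iff_isRoot, IsRoot, hevN he, hfix,
        sq_eq_zero_iff] at hd
      apply hb
      rw [negY]
      linear_combination hd
  · have hswap : b₀ ^ q = A.negY α b₀ := (roots (pow_root he)).resolve_left hfix
    have hfix' : (A.negY α b₀) ^ q ≠ A.negY α b₀ := by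
      intro e
      rw [← hswap] at e
      exact hfix (inj e)
    have hn : fibreCard W a = 0 := by
      rw [fibreCard, Nat.card_eq_zero]
      left
      refine ⟨fun ⟨γ, hγ⟩ => ?_⟩
      have hq : algebraMap k K γ ^ q = algebraMap k K γ := by rw [← map_pow, FiniteField.pow_card]
      rcases roots ((hfib γ).mp hγ) with e | e
      · exact hfix (e ▸ hq)
      · exact hfix' (e ▸ hq)
    rw [hn]
    refine ⟨by omega, ?_, fun h => absurd rfl h⟩
    rw [show (2 : ℕ) - 0 = 2 from rfl]
    have hswap' : (A.negY α b₀) ^ q = b₀ := (roots (pow_root he')).resolve_right hfix'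
    have hne : b₀ ≠ A.negY α b₀ := fun e => hfix (by rw [hswap, ← e])
    obtain ⟨c, d, hcd⟩ := exists_repr A (frobW W K)
    have z1 : c.eval α + d.eval α * b₀ = 0 := by
      have h := (hev he).1
      rw [hcd, map_add, map_mul, evalPt_polyC, evalPt_polyC, evalPt_yC, hswap, negY] at h
      linear_combination h
    have z2 : c.eval α + d.eval α * A.negY α b₀ = 0 := by
      have h := (hev he').1
      rw [hcd, map_add, map_mul, evalPt_polyC, evalPt_polyC, evalPt_yC, hswap'] at h
      rw [h, negY]
      ring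
    have hd0 : d.eval α = 0 := by
      have : d.eval α * (b₀ - A.negY α b₀) = 0 := by linear_combination z1 - z2
      exact (mul_eq_zero.mp this).resolve_right (sub_ne_zero.mpr hne)
    have hc0 : c.eval α = 0 := by rw [hd0, zero_mul, add_zero] at z1; exact z1
    obtain ⟨c', rfl⟩ := dvd_iff_isRoot.mpr hc0
    obtain ⟨d', rfl⟩ := dvd_iff_isRoot.mpr hd0
    have hNum : ∃ M, frobNum W K = polyC A ((X - C α) ^ 2) * M := by
      refine ⟨(polyC A c' + polyC A d' * yC A) ^ 2 +
        cC A A.a₁ * (polyC A c' + polyC A d' * yC A) * polyC A g -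
          (cC A A.a₂ + xC A ^ q + xC A) * polyC A g ^ 2, ?_⟩
      rw [frobNum, hcd, hg]
      simp only [map_mul, map_pow, A]
      ring
    obtain ⟨M, hM⟩ := hNum
    obtain ⟨p, r, rfl⟩ := exists_repr A M
    have h : polyC A U + polyC A 0 * yC A =
        polyC A ((X - C α) ^ 2 * p) + polyC A ((X - C α) ^ 2 * r) * yC A := by
      rw [map_zero, zero_mul, add_zero, ← hU, hM, map_mul, map_mul]
      ring
    exact ⟨p, (repr_inj A h).1⟩

omit [DecidableEq (FF W K)] [DecidableEq K] [IsAlgClosed K] in
lemma card_point_eq [DecidableEq k] : Nat.card W.Point = (∑ a : k, fibreCard W a) + 1 := by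
  rw [Nat.card_congr W.pointEquiv]
  have : Nat.card (WithZero {xy : k × k // W.Equation xy.1 xy.2}) =
      Nat.card {xy : k × k // W.Equation xy.1 xy.2} + 1 := Finite.card_option
  rw [this, Nat.card_congr (Equiv.subtypeProdEquivSigmaSubtype fun a b => W.Equation a b),
    Nat.card_sigma]
  rfl

/-- The degree of `Frob - 1` is the number of rational points. -/
theorem hasHt_frobSubOne : HasHt W K (frobSubOne W K) (Nat.card W.Point) := by
  classical
  obtain ⟨U, hU, hdU⟩ := exists_frobNum_polyC W K
  obtain ⟨z, y, h, e, hz⟩ := frobSubOne_eq W K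
  let P : k → K[X] := fun a => X - C (algebraMap k K a)
  have hPmonic : ∀ a, (P a).Monic := fun a => monic_X_sub_C _
  set v := ∏ a : k, P a ^ fibreCard W a with hv
  set g := ∏ a : k, P a ^ (2 - fibreCard W a) with hgdef
  have hgv : g * v = frobD (k := k) K ^ 2 := by
    rw [hgdef, hv, ← Finset.prod_mul_distrib, frobD_eq_prod, ← Finset.prod_pow]
    refine Finset.prod_congr rfl fun a _ => ?_
    rw [← pow_add, Nat.sub_add_cancel (local_dvd W K a hU).1]
  have hgU : g ∣ U := by
    refine Finset.prod_dvd_of_coprime ?_ fun a _ => (local_dvd W K a hU).2.1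
    intro a _ b _ hab
    exact IsCoprime.pow (isCoprime_X_sub_C_of_isUnit_sub
      (Ne.isUnit (sub_ne_zero.mpr ((algebraMap k K).injective.ne hab))))
  obtain ⟨u, hu⟩ := hgU
  have hcop : IsCoprime u v := by
    refine IsCoprime.prod_right fun a _ => ?_
    by_cases hn : fibreCard W a = 0
    · rw [hn, pow_zero]; exact isCoprime_one_right
    refine IsCoprime.pow_right (((irreducible_X_sub_C _).coprime_iff_not_dvd).mpr ?_).symm
    intro hdvd
    refine (local_dvd W K a hU).2.2 hn ?_
    rw [show 3 - fibreCard W a = (2 - fibreCard W a) + 1 by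
      have := (local_dvd W K a hU).1; omega, pow_succ, hu]
    exact mul_dvd_mul (Finset.dvd_prod_of_mem (fun a => P a ^ (2 - fibreCard W a))
      (Finset.mem_univ a)) hdvd
  have dprod : ∀ n : k → ℕ, (∏ a : k, P a ^ n a).natDegree = ∑ a : k, n a := fun n => by
    rw [natDegree_prod _ _ fun a _ => pow_ne_zero _ (hPmonic a).ne_zero]
    exact Finset.sum_congr rfl fun a _ => by rw [natDegree_pow, natDegree_X_sub_C, mul_one]
  have hg0 : g ≠ 0 := Finset.prod_ne_zero_iff.mpr fun a _ => pow_ne_zero _ (hPmonic a).ne_zero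
  have hu0 : u ≠ 0 := fun e => by rw [hu, e, mul_zero, natDegree_zero] at hdU; omega
  have hsum : (∑ a : k, (2 - fibreCard W a)) + ∑ a : k, fibreCard W a = 2 * q := by
    rw [← Finset.sum_add_distrib, Finset.sum_congr rfl fun a _ =>
      Nat.sub_add_cancel (local_dvd W K a hU).1, Finset.sum_const, Finset.card_univ, smul_eq_mul,
      mul_comm]
  have hdu : u.natDegree = (∑ a : k, fibreCard W a) + 1 := by
    have h := natDegree_mul hg0 hu0
    rw [← hu, hdU, hgdef, dprod] at h
    omega
  have hdv : v.natDegree = ∑ a : k, fibreCard W a := dprod _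
  rw [card_point_eq W]
  refine ⟨![u, v], aeval (xL W K) v, ?_, ?_, fun i => ?_⟩
  · exact (map_ne_zero_iff _ (aeval_xL_injective W K)).mpr
      (Finset.prod_ne_zero_iff.mpr fun a _ => pow_ne_zero _ (hPmonic a).ne_zero)
  · have := isPrim_of_isCoprime hcop
    rwa [hdu, hdv, max_eq_left (Nat.le_succ _)] at this
  · rw [e, Affine.Point.xRep_some]
    fin_cases i
    · show aeval (xL W K) u = aeval (xL W K) v * z
      refine mul_left_cancel₀ ((map_ne_zero_iff _ (aeval_xL_injective W K)).mpr hg0) ?_
      rw [← map_mul, ← hu, ← mul_assoc, ← map_mul, hgv, ← toFF_polyC, ← hU, ← hz, ← toFF_polyC,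
        map_pow, map_pow, map_pow]
      exact mul_comm (G := FF W K) _ _
    · simp

end Fermat.Agent.EllFrobenius
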