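import Fermat.Agent.EllFrobenius.CoordRing
import Mathlib.AlgebraicGeometry.EllipticCurve.Affine.Point
import Mathlib.FieldTheory.IsAlgClosed.Basic
import Mathlib.RingTheory.Algebraic.Basic

/-!
# The function field of an elliptic curve, its generic point and substitutions
-/

set_option autoImplicit false

open Polynomial
open scoped Polynomial.Bivariate WeierstrassCurve.Affine

universe r u v

namespace Fermat.Agent.EllFrobenius

open WeierstrassCurve WeierstrassCurve.Affine

variable {R : Type r} [CommRing R] (W' : WeierstrassCurve.Affine R)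
  (K : Type u) [Field K] [Algebra R K]

/-- The function field of the curve over `K`. -/
abbrev FF : Type u := (W'⁄K).toAffine.FunctionField

/-- The embedding of the coordinate ring in the function field. -/
noncomputable abbrev toFF : (W'⁄K).toAffine.CoordinateRing →ₐ[K] FF W' K :=
  IsScalarTower.toAlgHom K (W'⁄K).toAffine.CoordinateRing (FF W' K)

lemma toFF_injective : Function.Injective (toFF W' K) :=
  IsFractionRing.injective (W'⁄K).toAffine.CoordinateRing (FF W' K)

/-- The function `x`. -/
noncomputable def xL : FF W' K := toFF W' K (xC (W'⁄K))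

/-- The function `y`. -/
noncomputable def yL : FF W' K := toFF W' K (yC (W'⁄K))

/-- Constants in the function field. -/
noncomputable abbrev cL : K →+* FF W' K := algebraMap K (FF W' K)

lemma toFF_cC (c : K) : toFF W' K (cC (W'⁄K) c) = cL W' K c := (toFF W' K).commutes c

lemma toFF_polyC (p : K[X]) : toFF W' K (polyC (W'⁄K) p) = aeval (xL W' K) p := by
  have h : (toFF W' K).comp (IsScalarTower.toAlgHom K K[X] (W'⁄K).toAffine.CoordinateRing) =
      aeval (xL W' K) := Polynomial.algHom_ext (by rw [aeval_X]; rfl)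
  exact DFunLike.congr_fun h p

lemma aeval_xL_injective : Function.Injective (aeval (R := K) (xL W' K)) := by
  intro p q h
  rw [← toFF_polyC, ← toFF_polyC] at h
  exact polyC_injective _ (toFF_injective W' K h)

lemma xL_transcendental : Transcendental K (xL W' K) :=
  transcendental_iff_injective.mpr (aeval_xL_injective W' K)

lemma equation_baseChange_iff {F : Type v} [CommRing F] [Algebra R F] [Algebra K F]
    [IsScalarTower R K F] (X0 Y0 : F) :
    (W'⁄F).toAffine.Equation X0 Y0 ↔
      Y0 ^ 2 + algebraMap K F (W'⁄K).a₁ * X0 * Y0 + algebraMap K F (W'⁄K).a₃ * Y0 =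
        X0 ^ 3 + algebraMap K F (W'⁄K).a₂ * X0 ^ 2 + algebraMap K F (W'⁄K).a₄ * X0 +
          algebraMap K F (W'⁄K).a₆ := by
  rw [equation_iff]
  show _ + algebraMap R F W'.a₁ * _ * _ + algebraMap R F W'.a₃ * _ =
    _ + algebraMap R F W'.a₂ * _ + algebraMap R F W'.a₄ * _ + algebraMap R F W'.a₆ ↔ _
  simp only [IsScalarTower.algebraMap_apply R K F]
  rfl

lemma equation_xL_yL : (W'⁄(FF W' K)).toAffine.Equation (xL W' K) (yL W' K) := by
  rw [equation_baseChange_iff W' K]
  have h := congrArg (toFF W' K) (coordRing_equation (W'⁄K))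
  simp only [map_add, map_mul, map_pow, toFF_cC] at h
  exact h

/-- Two algebra homomorphisms out of the coordinate ring agree if they agree at `x` and `y`. -/
lemma coordRing_hom_ext {A : Type v} [CommRing A] {φ ψ : (W'⁄K).toAffine.CoordinateRing →+* A}
    (hc : ∀ c, φ (cC _ c) = ψ (cC _ c)) (hx : φ (xC _) = ψ (xC _)) (hy : φ (yC _) = ψ (yC _)) :
    φ = ψ := by
  refine AdjoinRoot.ringHom_ext ?_ hy
  refine Polynomial.ringHom_ext (fun c => ?_) ?_
  · show φ (polyC _ (C c)) = ψ (polyC _ (C c))
    rw [polyC_C]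
    exact hc c
  · exact hx

variable [hE : (W'⁄K).IsElliptic]

instance isElliptic_FF : (W'⁄(FF W' K)).IsElliptic := by
  have h : W'⁄(FF W' K) = (W'⁄K).map (IsScalarTower.toAlgHom R K (FF W' K) : K →+* FF W' K) :=
    (WeierstrassCurve.map_baseChange (W := W') (IsScalarTower.toAlgHom R K (FF W' K))).symm
  rw [h]
  infer_instance

/-- The generic point. -/
noncomputable def genPt : (W'⁄(FF W' K)).toAffine.Point :=
  Affine.Point.mk (equation_xL_yL W' K)

lemma genPt_eq : ∃ h, genPt W' K = Affine.Point.some (xL W' K) (yL W' K) h := ⟨_, rfl⟩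

/-- The embedding of constant points. -/
noncomputable abbrev cpt [DecidableEq K] [DecidableEq (FF W' K)] :
    (W'⁄K).toAffine.Point →+ (W'⁄(FF W' K)).toAffine.Point :=
  Affine.Point.baseChange K (FF W' K)

section Subst

variable {F : Type v} [Field F] [Algebra K F] [Algebra R F] [IsScalarTower R K F]

/-- Substitution into the coordinate ring. -/
noncomputable def substCR (X0 Y0 : F) (he : (W'⁄F).toAffine.Equation X0 Y0) :
    (W'⁄K).toAffine.CoordinateRing →+* F :=
  AdjoinRoot.lift (aeval (R := K) X0).toRingHom Y0 (by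
    show eval₂ _ Y0 (Y ^ 2 + C (C (W'⁄K).a₁ * X + C (W'⁄K).a₃) * Y -
      C (X ^ 3 + C (W'⁄K).a₂ * X ^ 2 + C (W'⁄K).a₄ * X + C (W'⁄K).a₆)) = 0
    simp only [eval₂_add, eval₂_sub, eval₂_mul, eval₂_pow, eval₂_X, eval₂_C, map_add, map_mul,
      map_pow, AlgHom.toRingHom_eq_coe, RingHom.coe_coe, aeval_C, aeval_X]
    have h := (equation_baseChange_iff W' K X0 Y0).mp he
    linear_combination h)

omit hE in
lemma substCR_polyC (X0 Y0 : F) (he : (W'⁄F).toAffine.Equation X0 Y0) (p : K[X]) :
    substCR W' K X0 Y0 he (polyC _ p) = aeval X0 p := by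
  rw [substCR, polyC_apply, AdjoinRoot.lift_mk, eval₂_C]
  rfl

omit hE in
lemma substCR_yC (X0 Y0 : F) (he : (W'⁄F).toAffine.Equation X0 Y0) :
    substCR W' K X0 Y0 he (yC _) = Y0 := by
  rw [substCR, yC, AdjoinRoot.lift_mk, eval₂_X]

omit hE in
lemma substCR_injective (X0 Y0 : F) (he : (W'⁄F).toAffine.Equation X0 Y0)
    (ht : Transcendental K X0) : Function.Injective (substCR W' K X0 Y0 he) := by
  refine (injective_iff_map_eq_zero _).mpr fun a ha => ?_
  have h := congrArg (substCR W' K X0 Y0 he) (polyC_normP (W'⁄K) a)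
  rw [map_mul, ha, zero_mul, substCR_polyC] at h
  exact (normP_eq_zero _).mp ((transcendental_iff_injective.mp ht) (h.trans (map_zero _).symm))

/-- The substitution homomorphism of function fields given by a point with transcendental `x`. -/
noncomputable def substHom (X0 Y0 : F) (he : (W'⁄F).toAffine.Equation X0 Y0)
    (ht : Transcendental K X0) : FF W' K →ₐ[K] F :=
  { IsFractionRing.lift (K := FF W' K) (substCR_injective W' K X0 Y0 he ht) with
    commutes' := fun c => by
      show IsFractionRing.lift (substCR_injective W' K X0 Y0 he ht) (cL W' K c) = _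
      rw [← toFF_cC, IsScalarTower.coe_toAlgHom', IsFractionRing.lift_algebraMap, ← polyC_C,
        substCR_polyC, aeval_C] }

omit hE in
lemma substHom_toFF (X0 Y0 : F) (he : (W'⁄F).toAffine.Equation X0 Y0) (ht : Transcendental K X0)
    (a : (W'⁄K).toAffine.CoordinateRing) :
    substHom W' K X0 Y0 he ht (toFF W' K a) = substCR W' K X0 Y0 he a :=
  IsFractionRing.lift_algebraMap (substCR_injective W' K X0 Y0 he ht) a

omit hE in
lemma substHom_xL (X0 Y0 : F) (he : (W'⁄F).toAffine.Equation X0 Y0) (ht : Transcendental K X0) :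
    substHom W' K X0 Y0 he ht (xL W' K) = X0 := by
  rw [xL, substHom_toFF, ← polyC_X, substCR_polyC, aeval_X]

omit hE in
lemma substHom_yL (X0 Y0 : F) (he : (W'⁄F).toAffine.Equation X0 Y0) (ht : Transcendental K X0) :
    substHom W' K X0 Y0 he ht (yL W' K) = Y0 := by
  rw [yL, substHom_toFF, substCR_yC]

end Subst

variable [DecidableEq (FF W' K)]

omit hE [DecidableEq (FF W' K)] in
lemma ringHom_ext_FF {A : Type v} [Field A] {f g : FF W' K →+* A}
    (hc : ∀ c, f (cL W' K c) = g (cL W' K c))
    (hx : f (xL W' K) = g (xL W' K)) (hy : f (yL W' K) = g (yL W' K)) : f = g := by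
  refine IsLocalization.ringHom_ext (nonZeroDivisors (W'⁄K).toAffine.CoordinateRing) ?_
  refine coordRing_hom_ext W' K (fun c => ?_) hx hy
  show f (toFF W' K (cC _ c)) = g (toFF W' K (cC _ c))
  rw [toFF_cC]
  exact hc c

lemma algHom_ext_genPt {f g : FF W' K →ₐ[K] FF W' K}
    (h : Affine.Point.map (W' := W') f (genPt W' K) = Affine.Point.map g (genPt W' K)) :
    f = g := by
  obtain ⟨h1, e⟩ := genPt_eq W' K
  rw [e, Affine.Point.map_some, Affine.Point.map_some, Affine.Point.some.injEq] at h
  exact AlgHom.coe_ringHom_injective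
    (ringHom_ext_FF W' K (fun c => (f.commutes c).trans (g.commutes c).symm) h.1 h.2)

omit hE [DecidableEq (FF W' K)] in
lemma mem_range_of_isAlgebraic [IsAlgClosed K] {z : FF W' K} (h : IsAlgebraic K z) :
    z ∈ Set.range (cL W' K) :=
  minpoly.mem_range_of_degree_eq_one K z
    (IsAlgClosed.degree_eq_one_of_irreducible K (minpoly.irreducible h.isIntegral))

variable [DecidableEq K]

omit hE in
lemma mem_range_cpt_iff [IsAlgClosed K] {X0 Y0 : FF W' K}
    (h : (W'⁄(FF W' K)).toAffine.Nonsingular X0 Y0) :
    Affine.Point.some X0 Y0 h ∈ Set.range (cpt W' K) ↔ X0 ∈ Set.range (cL W' K) := by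
  constructor
  · rintro ⟨P, hP⟩
    rcases P with _ | ⟨a, b, hab⟩
    · exact absurd (hP.symm.trans (map_zero _)) (Affine.Point.some_ne_zero h)
    · rw [cpt, Affine.Point.baseChange, Affine.Point.map_some, Affine.Point.some.injEq] at hP
      exact ⟨a, hP.1⟩
  · rintro ⟨a, rfl⟩
    have he := (equation_baseChange_iff W' K (cL W' K a) Y0).mp h.left
    have halg : IsAlgebraic K Y0 := by
      refine ⟨X ^ 2 + C ((W'⁄K).a₁ * a + (W'⁄K).a₃) * X +
        C (-(a ^ 3 + (W'⁄K).a₂ * a ^ 2 + (W'⁄K).a₄ * a + (W'⁄K).a₆)), ?_, ?_⟩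
      · refine Polynomial.Monic.ne_zero ?_
        monicity!
      · simp only [map_add, map_mul, map_pow, map_neg, aeval_X, aeval_C]
        linear_combination he
    obtain ⟨b, rfl⟩ := mem_range_of_isAlgebraic W' K halg
    have hab : (W'⁄K).toAffine.Nonsingular a b :=
      (W'.baseChange_nonsingular (f := Algebra.ofId K (FF W' K))
        (RingHom.injective _) a b).mp h
    exact ⟨Affine.Point.some a b hab, by rw [cpt, Affine.Point.baseChange, Affine.Point.map_some]; rfl⟩

lemma genPt_not_mem_range [IsAlgClosed K] : genPt W' K ∉ Set.range (cpt W' K) := by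
  obtain ⟨h, e⟩ := genPt_eq W' K
  rw [e, mem_range_cpt_iff W' K h]
  rintro ⟨c, hc⟩
  exact xL_transcendental W' K (hc ▸ isAlgebraic_algebraMap c)

/-- Substitution of a non-constant point: an endomorphism of the function field. -/
lemma exists_substPt [IsAlgClosed K] {S : (W'⁄(FF W' K)).toAffine.Point}
    (hS : S ∉ Set.range (cpt W' K)) :
    ∃ σ : FF W' K →ₐ[K] FF W' K, Affine.Point.map (W' := W') σ (genPt W' K) = S := by
  rcases S with _ | ⟨X0, Y0, h⟩
  · exact absurd ⟨0, map_zero _⟩ hS
  · rw [mem_range_cpt_iff W' K h] at hS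
    have ht : Transcendental K X0 := fun ha => hS (mem_range_of_isAlgebraic W' K ha)
    obtain ⟨h0, e⟩ := genPt_eq W' K
    refine ⟨substHom W' K X0 Y0 h.left ht, ?_⟩
    rw [e, Affine.Point.map_some, Affine.Point.some.injEq]
    exact ⟨substHom_xL W' K X0 Y0 h.left ht, substHom_yL W' K X0 Y0 h.left ht⟩

open Classical in
/-- Substitution of a point into functions (junk value for constant points). -/
noncomputable def substPt (S : (W'⁄(FF W' K)).toAffine.Point) : FF W' K →ₐ[K] FF W' K :=
  if h : ∃ σ : FF W' K →ₐ[K] FF W' K, Affine.Point.map (W' := W') σ (genPt W' K) = S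
    then h.choose else AlgHom.id K _

lemma substPt_genPt [IsAlgClosed K] {S : (W'⁄(FF W' K)).toAffine.Point}
    (hS : S ∉ Set.range (cpt W' K)) :
    Affine.Point.map (W' := W') (substPt W' K S) (genPt W' K) = S := by
  have h := exists_substPt W' K hS
  rw [substPt, dif_pos h]
  exact h.choose_spec

omit hE in
lemma map_cpt (f : FF W' K →ₐ[K] FF W' K) (P : (W'⁄K).toAffine.Point) :
    Affine.Point.map (W' := W') f (cpt W' K P) = cpt W' K P :=
  Affine.Point.map_baseChange f P

lemma genPt_add_cpt_not_mem_range [IsAlgClosed K] (T : (W'⁄K).toAffine.Point) :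
    genPt W' K + cpt W' K T ∉ Set.range (cpt W' K) := by
  rintro ⟨P, hP⟩
  exact genPt_not_mem_range W' K ⟨P - T, by rw [map_sub, hP, add_sub_cancel_right]⟩

lemma neg_genPt_not_mem_range [IsAlgClosed K] : -genPt W' K ∉ Set.range (cpt W' K) := by
  rintro ⟨P, hP⟩
  exact genPt_not_mem_range W' K ⟨-P, by rw [map_neg, hP, neg_neg]⟩

/-- Translation by a constant point. -/
noncomputable def transl (T : (W'⁄K).toAffine.Point) : FF W' K →ₐ[K] FF W' K :=
  substPt W' K (genPt W' K + cpt W' K T)

lemma transl_genPt [IsAlgClosed K] (T : (W'⁄K).toAffine.Point) :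
    Affine.Point.map (W' := W') (transl W' K T) (genPt W' K) = genPt W' K + cpt W' K T :=
  substPt_genPt W' K (genPt_add_cpt_not_mem_range W' K T)

lemma transl_zero [IsAlgClosed K] (z : FF W' K) : transl W' K 0 z = z := by
  have : transl W' K 0 = AlgHom.id K _ := by
    refine algHom_ext_genPt W' K ?_
    rw [transl_genPt, map_zero, add_zero]
    obtain ⟨h, e⟩ := genPt_eq W' K
    rw [e, Affine.Point.map_some]
    rfl
  rw [this]
  rfl

lemma transl_add [IsAlgClosed K] (S T : (W'⁄K).toAffine.Point) (z : FF W' K) :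
    transl W' K S (transl W' K T z) = transl W' K (S + T) z := by
  have : (transl W' K S).comp (transl W' K T) = transl W' K (S + T) := by
    refine algHom_ext_genPt W' K ?_
    rw [← Affine.Point.map_map, transl_genPt, map_add, map_cpt, transl_genPt, transl_genPt,
      map_add (cpt W' K), add_assoc]
  exact DFunLike.congr_fun this z

/-- The conjugation automorphism, substitution of the negative of the generic point. -/
noncomputable def conjL : FF W' K →ₐ[K] FF W' K := substPt W' K (-genPt W' K)

lemma conjL_genPt [IsAlgClosed K] :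
    Affine.Point.map (W' := W') (conjL W' K) (genPt W' K) = -genPt W' K :=
  substPt_genPt W' K (neg_genPt_not_mem_range W' K)

lemma conjL_toFF [IsAlgClosed K] (a : (W'⁄K).toAffine.CoordinateRing) :
    conjL W' K (toFF W' K a) = toFF W' K (conj _ a) := by
  obtain ⟨h, e⟩ := genPt_eq W' K
  have h' := conjL_genPt W' K
  rw [e, Affine.Point.neg_some, Affine.Point.map_some, Affine.Point.some.injEq] at h'
  have : (conjL W' K).toRingHom.comp (toFF W' K).toRingHom =
      (toFF W' K).toRingHom.comp (conj (W'⁄K).toAffine) := by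
    refine coordRing_hom_ext W' K (fun c => ?_) ?_ ?_
    · show conjL W' K (toFF W' K (cC _ c)) = toFF W' K (conj _ (cC _ c))
      rw [conj_cC, toFF_cC]
      exact (conjL W' K).commutes c
    · show conjL W' K (xL W' K) = toFF W' K (conj _ (xC _))
      rw [conj_xC]
      exact h'.1
    · show conjL W' K (yL W' K) = toFF W' K (conj _ (yC _))
      rw [conj_yC, map_sub, map_sub, map_neg, map_mul, toFF_cC, toFF_cC]
      refine h'.2.trans ?_
      show _ - algebraMap R (FF W' K) W'.a₁ * _ - algebraMap R (FF W' K) W'.a₃ = _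
      simp only [IsScalarTower.algebraMap_apply R K (FF W' K)]
      rfl
  exact DFunLike.congr_fun this a

end Fermat.Agent.EllFrobenius
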