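import Mathlib.RingTheory.MvPolynomial.Homogeneous
import Mathlib.Algebra.Polynomial.Degree.Lemmas
import Mathlib.RingTheory.Ideal.Quotient.Operations
import Mathlib.Tactic.LinearCombination
import Mathlib.RingTheory.Polynomial.Basic
import Mathlib.Algebra.Polynomial.BigOperators
import Mathlib.RingTheory.PrincipalIdealDomain
import Mathlib.Algebra.Polynomial.FieldDivision
import Mathlib.Algebra.Polynomial.Homogenize

/-!
# Primitive vectors of polynomials and their degree

These are points of projective space over `K(X)` written with coprime polynomial coordinates.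
-/

set_option autoImplicit false

open Polynomial

universe u

namespace Fermat.Agent.EllFrobenius

variable {K : Type u} [Field K] {ι ι' : Type*}

/-- `v` has no common prime factor and maximal degree `d`. -/
structure IsPrim (v : ι → K[X]) (d : ℕ) : Prop where
  exists_not_dvd : ∀ π : K[X], Prime π → ∃ i, ¬ π ∣ v i
  deg_le : ∀ i, (v i).natDegree ≤ d
  exists_coeff : ∃ i, (v i).coeff d ≠ 0

lemma isPrim_one_zero : IsPrim (K := K) ![1, 0] 0 where
  exists_not_dvd π hπ := ⟨0, fun h => hπ.not_isUnit (isUnit_of_dvd_one h)⟩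
  deg_le i := by fin_cases i <;> simp
  exists_coeff := ⟨0, by simp⟩

lemma isPrim_of_isCoprime {u v : K[X]} (h : IsCoprime u v) :
    IsPrim ![u, v] (max u.natDegree v.natDegree) where
  exists_not_dvd π hπ := by
    by_contra hc
    push Not at hc
    exact hπ.not_isUnit (h.isUnit_of_dvd' (hc 0) (hc 1))
  deg_le i := by fin_cases i <;> simp
  exists_coeff := by
    have hne : u ≠ 0 ∨ v ≠ 0 := by
      by_contra hc
      push Not at hc
      rw [hc.1, hc.2] at h
      exact not_isCoprime_zero_zero h
    rcases lt_trichotomy u.natDegree v.natDegree with hlt | heq | hgt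
    · refine ⟨1, ?_⟩
      rw [max_eq_right hlt.le]
      exact leadingCoeff_ne_zero.mpr fun (e : v = 0) => by rw [e, natDegree_zero] at hlt; omega
    · rw [heq, max_self]
      rcases hne with h0 | h0
      · exact ⟨0, heq ▸ leadingCoeff_ne_zero.mpr h0⟩
      · exact ⟨1, leadingCoeff_ne_zero.mpr h0⟩
    · refine ⟨0, ?_⟩
      rw [max_eq_left hgt.le]
      exact leadingCoeff_ne_zero.mpr fun (e : u = 0) => by rw [e, natDegree_zero] at hgt; omega

lemma IsPrim.le_of_proportional [Fintype ι] {v w : ι → K[X]} {d e : ℕ} (hv : IsPrim v d)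
    (hw : IsPrim w e) (h : ∀ i j, v i * w j = v j * w i) : d ≤ e := by
  have hspan : Ideal.span (Set.range w) = ⊤ := by
    by_contra hne
    obtain ⟨m, hm, hle⟩ := Ideal.exists_le_maximal _ hne
    have hgen := Ideal.span_singleton_generator m
    by_cases h0 : Submodule.IsPrincipal.generator m = 0
    · obtain ⟨i, hi⟩ := hw.exists_coeff
      have hmem : w i ∈ m := hle (Ideal.subset_span ⟨i, rfl⟩)
      rw [← hgen, h0, Ideal.span_singleton_zero, Ideal.mem_bot] at hmem
      exact hi (by rw [hmem, coeff_zero])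
    · have hp : Prime (Submodule.IsPrincipal.generator m) :=
        Submodule.IsPrincipal.prime_generator_of_isPrime m (fun e => h0 (by
          have := hgen; rw [e] at this ⊢; exact Ideal.span_singleton_eq_bot.mp this))
      obtain ⟨i, hi⟩ := hw.exists_not_dvd _ hp
      refine hi (Ideal.mem_span_singleton.mp ?_)
      rw [hgen]
      exact hle (Ideal.subset_span ⟨i, rfl⟩)
  have h1 : (1 : K[X]) ∈ Ideal.span (Set.range w) := hspan ▸ Submodule.mem_top
  obtain ⟨r, hr⟩ := Ideal.mem_span_range_iff_exists_fun.mp h1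
  set c := ∑ j, r j * v j with hc
  have hvc : ∀ i, v i = c * w i := fun i => by
    calc v i = v i * ∑ j, r j * w j := by rw [hr, mul_one]
      _ = ∑ j, r j * (v i * w j) := by
        rw [Finset.mul_sum]; exact Finset.sum_congr rfl fun j _ => by ring
      _ = ∑ j, r j * (v j * w i) := Finset.sum_congr rfl fun j _ => by rw [h i j]
      _ = c * w i := by
        rw [hc, Finset.sum_mul]; exact Finset.sum_congr rfl fun j _ => by ring
  have hc0 : c ≠ 0 := by
    intro h0
    obtain ⟨i, hi⟩ := hv.exists_coeff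
    exact hi (by rw [hvc, h0, zero_mul, coeff_zero])
  have hcu : IsUnit c := by
    by_contra hn
    obtain ⟨π, hπ, hdvd⟩ := WfDvdMonoid.exists_irreducible_factor hn hc0
    obtain ⟨i, hi⟩ := hv.exists_not_dvd π hπ.prime
    exact hi (hvc i ▸ dvd_mul_of_dvd_left hdvd _)
  obtain ⟨i, hi⟩ := hv.exists_coeff
  calc d ≤ (v i).natDegree := le_natDegree_of_ne_zero hi
    _ ≤ c.natDegree + (w i).natDegree := by rw [hvc]; exact natDegree_mul_le
    _ ≤ e := by rw [natDegree_eq_zero_of_isUnit hcu, zero_add]; exact hw.deg_le i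

lemma IsPrim.eq_of_proportional [Fintype ι] {v w : ι → K[X]} {d e : ℕ} (hv : IsPrim v d)
    (hw : IsPrim w e) (h : ∀ i j, v i * w j = v j * w i) : d = e :=
  le_antisymm (hv.le_of_proportional hw h)
    (hw.le_of_proportional hv fun i j => by linear_combination (-1 : K[X]) * h i j)

lemma IsPrim.pow {v : Fin 2 → K[X]} {d : ℕ} (hv : IsPrim v d) {q : ℕ} (_hq : q ≠ 0) :
    IsPrim (fun i => v i ^ q) (q * d) where
  exists_not_dvd π hπ :=
    (hv.exists_not_dvd π hπ).imp fun i hi h => hi (hπ.dvd_of_dvd_pow h)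
  deg_le i := natDegree_pow_le.trans (Nat.mul_le_mul_left q (hv.deg_le i))
  exists_coeff := by
    obtain ⟨i, hi⟩ := hv.exists_coeff
    refine ⟨i, ?_⟩
    rw [coeff_pow_of_natDegree_le (hv.deg_le i)]
    exact pow_ne_zero q hi

lemma symm_prod_ne_zero {A : Type*} [CommRing A] [NoZeroDivisors A] {a b c d : A}
    (h₁ : a ≠ 0 ∨ b ≠ 0) (h₂ : c ≠ 0 ∨ d ≠ 0) :
    ¬(a * c = 0 ∧ a * d + b * c = 0 ∧ b * d = 0) := by
  rintro ⟨e1, e2, e3⟩
  rcases mul_eq_zero.mp e1 with rfl | rfl
  · rcases mul_eq_zero.mp e3 with rfl | rfl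
    · simp at h₁
    · simp only [zero_mul, zero_add] at e2
      rcases mul_eq_zero.mp e2 with rfl | rfl
      · simp at h₁
      · simp at h₂
  · rcases mul_eq_zero.mp e3 with rfl | rfl
    · simp only [mul_zero, add_zero] at e2
      rcases mul_eq_zero.mp e2 with rfl | rfl
      · simp at h₁
      · simp at h₂
    · simp at h₂

/-- The symmetric product of two pairs. -/
noncomputable def symProd (v w : Fin 2 → K[X]) : Fin 3 → K[X] :=
  ![v 0 * w 0, v 0 * w 1 + v 1 * w 0, v 1 * w 1]

lemma IsPrim.symProd {v w : Fin 2 → K[X]} {d e : ℕ} (hv : IsPrim v d) (hw : IsPrim w e) :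
    IsPrim (symProd v w) (d + e) where
  exists_not_dvd π hπ := by
    by_contra hc
    push Not at hc
    have h0 : π ∣ v 0 * w 0 := hc 0
    have h1 : π ∣ v 0 * w 1 + v 1 * w 0 := hc 1
    have h2 : π ∣ v 1 * w 1 := hc 2
    obtain ⟨i, hi⟩ := hv.exists_not_dvd π hπ
    obtain ⟨j, hj⟩ := hw.exists_not_dvd π hπ
    rcases hπ.dvd_or_dvd h0 with ha | ha <;> rcases hπ.dvd_or_dvd h2 with hb | hb
    · fin_cases i
      · exact hi ha
      · exact hi hb
    · rcases hπ.dvd_or_dvd ((dvd_add_right (dvd_mul_of_dvd_left ha _)).mp h1) with hm | hm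
      · fin_cases i
        · exact hi ha
        · exact hi hm
      · fin_cases j
        · exact hj hm
        · exact hj hb
    · rcases hπ.dvd_or_dvd ((dvd_add_left (dvd_mul_of_dvd_left hb _)).mp h1) with hm | hm
      · fin_cases i
        · exact hi hm
        · exact hi hb
      · fin_cases j
        · exact hj ha
        · exact hj hm
    · fin_cases j
      · exact hj ha
      · exact hj hb
  deg_le i := by
    fin_cases i
    · exact natDegree_mul_le_of_le (hv.deg_le 0) (hw.deg_le 0)
    · exact natDegree_add_le_of_degree_le (natDegree_mul_le_of_le (hv.deg_le 0) (hw.deg_le 1))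
        (natDegree_mul_le_of_le (hv.deg_le 1) (hw.deg_le 0))
    · exact natDegree_mul_le_of_le (hv.deg_le 1) (hw.deg_le 1)
  exists_coeff := by
    have hc : ∀ i j, (v i * w j).coeff (d + e) = (v i).coeff d * (w j).coeff e := fun i j =>
      coeff_mul_add_eq_of_natDegree_le (hv.deg_le i) (hw.deg_le j)
    have h1 : (v 0).coeff d ≠ 0 ∨ (v 1).coeff d ≠ 0 := by
      obtain ⟨i, hi⟩ := hv.exists_coeff
      fin_cases i
      exacts [Or.inl hi, Or.inr hi]
    have h2 : (w 0).coeff e ≠ 0 ∨ (w 1).coeff e ≠ 0 := by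
      obtain ⟨i, hi⟩ := hw.exists_coeff
      fin_cases i
      exacts [Or.inl hi, Or.inr hi]
    by_contra hcon
    push Not at hcon
    refine symm_prod_ne_zero h1 h2 ⟨?_, ?_, ?_⟩
    · rw [← hc]; exact hcon 0
    · rw [← hc, ← hc, ← coeff_add]; exact hcon 1
    · rw [← hc]; exact hcon 2

lemma coeff_finsetProd_pow {v : ι' → K[X]} {d : ℕ} (hd : ∀ i, (v i).natDegree ≤ d)
    (t : Finset ι') (k : ι' → ℕ) :
    (∏ i ∈ t, v i ^ k i).natDegree ≤ (∑ i ∈ t, k i) * d ∧
      (∏ i ∈ t, v i ^ k i).coeff ((∑ i ∈ t, k i) * d) = ∏ i ∈ t, (v i).coeff d ^ k i := by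
  classical
  induction t using Finset.induction_on with
  | empty => simp
  | insert i t hi ih =>
    rw [Finset.sum_insert hi, Finset.prod_insert hi, Finset.prod_insert hi, add_mul]
    have hb : (v i ^ k i).natDegree ≤ k i * d :=
      natDegree_pow_le.trans (Nat.mul_le_mul_left _ (hd i))
    exact ⟨natDegree_mul_le_of_le hb ih.1, by
      rw [coeff_mul_add_eq_of_natDegree_le hb ih.1, coeff_pow_of_natDegree_le (hd i), ih.2]⟩

lemma natDegree_aeval_le_and_coeff [Fintype ι'] {v : ι' → K[X]} {d e : ℕ}
    (hd : ∀ i, (v i).natDegree ≤ d) {F : MvPolynomial ι' K} (hF : F.IsHomogeneous e) :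
    (MvPolynomial.aeval v F).natDegree ≤ e * d ∧
      (MvPolynomial.aeval v F).coeff (e * d) = MvPolynomial.aeval (fun i => (v i).coeff d) F := by
  classical
  have hsum : ∀ s ∈ F.support, ∑ i ∈ s.support, s i = e := fun s hs => by
    have := hF (MvPolynomial.mem_support_iff.mp hs)
    rw [Finsupp.weight_apply, Finsupp.sum] at this
    simpa using this
  have hterm : ∀ s : ι' →₀ ℕ, MvPolynomial.aeval v (MvPolynomial.monomial s (F.coeff s)) =
      Polynomial.C (F.coeff s) * ∏ i ∈ s.support, v i ^ s i := fun s => by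
    rw [MvPolynomial.aeval_monomial]; rfl
  rw [F.as_sum, map_sum, map_sum]
  constructor
  · refine natDegree_sum_le_of_forall_le _ _ fun s hs => ?_
    rw [hterm]
    refine (natDegree_C_mul_le _ _).trans ?_
    rw [← hsum s hs]
    exact (coeff_finsetProd_pow hd _ _).1
  · rw [finsetSum_coeff]
    refine Finset.sum_congr rfl fun s hs => ?_
    rw [hterm, coeff_C_mul, ← hsum s hs, (coeff_finsetProd_pow hd _ _).2, MvPolynomial.aeval_monomial]
    rfl

/-- Homogeneous polynomials without common non-trivial zero preserve primitivity and multiply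
degrees. -/
lemma IsPrim.aeval [Fintype ι'] {v : ι' → K[X]} {d e : ℕ} (hv : IsPrim v d)
    {F : ι → MvPolynomial ι' K} (hF : ∀ i, (F i).IsHomogeneous e)
    (hz : ∀ (L : Type u) [Field L] [Algebra K L] (x : ι' → L), x ≠ 0 →
      ∃ i, MvPolynomial.aeval x (F i) ≠ 0) :
    IsPrim (fun i => MvPolynomial.aeval v (F i)) (e * d) where
  exists_not_dvd π hπ := by
    have : (Ideal.span {π} : Ideal K[X]).IsMaximal :=
      PrincipalIdealRing.isMaximal_of_irreducible hπ.irreducible
    let : Field (K[X] ⧸ Ideal.span {π}) := Ideal.Quotient.field _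
    let q := Ideal.Quotient.mkₐ K (Ideal.span {π})
    obtain ⟨j, hj⟩ := hv.exists_not_dvd π hπ
    obtain ⟨i, hi⟩ := hz _ (fun j => q (v j)) (fun e => hj (by
      have := congrFun e j
      exact Ideal.mem_span_singleton.mp (Ideal.Quotient.eq_zero_iff_mem.mp this)))
    refine ⟨i, fun hdvd => hi ?_⟩
    rw [← MvPolynomial.comp_aeval_apply]
    exact Ideal.Quotient.eq_zero_iff_mem.mpr (Ideal.mem_span_singleton.mpr hdvd)
  deg_le i := (natDegree_aeval_le_and_coeff hv.deg_le (hF i)).1
  exists_coeff := by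
    obtain ⟨j, hj⟩ := hv.exists_coeff
    obtain ⟨i, hi⟩ := hz K (fun j => (v j).coeff d) (fun e => hj (congrFun e j))
    exact ⟨i, by rw [(natDegree_aeval_le_and_coeff hv.deg_le (hF i)).2]; exact hi⟩

lemma homogenize_no_common_zero {u v : K[X]} (h : IsCoprime u v) (L : Type u) [Field L]
    [Algebra K L] (x : Fin 2 → L) (hx : x ≠ 0) :
    ∃ i, MvPolynomial.aeval x
      (![u.homogenize (max u.natDegree v.natDegree),
        v.homogenize (max u.natDegree v.natDegree)] i) ≠ 0 := by
  set d := max u.natDegree v.natDegree with hd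
  have key : ∀ p : K[X], p.natDegree ≤ d → MvPolynomial.aeval x (p.homogenize d) =
      MvPolynomial.eval x ((p.map (algebraMap K L)).homogenize d) := fun p _ => by
    rw [Polynomial.homogenize_map, MvPolynomial.eval_map, MvPolynomial.aeval_def]
  by_contra hc
  push Not at hc
  have hu := hc 0
  have hv := hc 1
  simp only [Matrix.cons_val_zero, Matrix.cons_val_one] at hu hv
  by_cases h1 : x 1 = 0
  · have h0 : x 0 ≠ 0 := fun e => hx (funext fun i => by fin_cases i <;> assumption)
    obtain ⟨i, hi⟩ := (isPrim_of_isCoprime h).exists_coeff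
    have top : ∀ p : K[X], p.natDegree ≤ d → MvPolynomial.aeval x (p.homogenize d) =
        algebraMap K L (p.coeff d) * x 0 ^ d := by
      intro p hp
      rw [Polynomial.homogenize, map_sum]
      rw [Finset.sum_eq_single (d, 0)]
      · simp [MvPolynomial.aeval_monomial]
      · rintro ⟨k, l⟩ hkl hne
        rw [Finset.mem_antidiagonal] at hkl
        have hl : l ≠ 0 := fun e => hne (by subst e; simp_all)
        simp [MvPolynomial.aeval_monomial, h1, zero_pow hl]
      · intro hn; simp at hn
    fin_cases i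
    · rw [top u (le_max_left _ _)] at hu
      exact mul_ne_zero (by simpa using hi) (pow_ne_zero _ h0) hu
    · rw [top v (le_max_right _ _)] at hv
      exact mul_ne_zero (by simpa using hi) (pow_ne_zero _ h0) hv
  · obtain ⟨a, b, hab⟩ := h
    have hu' := hu
    have hv' := hv
    rw [key u (le_max_left _ _), Polynomial.eval_homogenize
      ((natDegree_map_le).trans (le_max_left _ _)) _ h1] at hu'
    rw [key v (le_max_right _ _), Polynomial.eval_homogenize
      ((natDegree_map_le).trans (le_max_right _ _)) _ h1] at hv'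
    have hu0 := (mul_eq_zero.mp hu').resolve_right (pow_ne_zero _ h1)
    have hv0 := (mul_eq_zero.mp hv').resolve_right (pow_ne_zero _ h1)
    have := congrArg (fun p : K[X] => (p.map (algebraMap K L)).eval (x 0 / x 1)) hab
    simp [hu0, hv0] at this

end Fermat.Agent.EllFrobenius
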