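import Fermat.Agent.EllFrobenius.FuncField
import Fermat.Agent.EllFrobenius.PrimVec
import Fermat.Agent.EllFrobenius.AddSub

/-!
# The degree of `x(R)` for points `R` over the function field
-/

set_option autoImplicit false

open Polynomial
open scoped WeierstrassCurve.Affine

universe r u

namespace Fermat.Agent.EllFrobenius

open WeierstrassCurve WeierstrassCurve.Affine

variable {R : Type r} [CommRing R] (W' : WeierstrassCurve.Affine R)
  (K : Type u) [Field K] [Algebra R K]

/-- `x(P)` is the quotient of two coprime polynomials in `x` of maximal degree `d`. -/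
def HasHt (P : (W'⁄(FF W' K)).toAffine.Point) (d : ℕ) : Prop :=
  ∃ (v : Fin 2 → K[X]) (c : FF W' K), c ≠ 0 ∧ IsPrim v d ∧
    ∀ i, aeval (xL W' K) (v i) = c * P.xRep i

lemma HasHt.unique {P : (W'⁄(FF W' K)).toAffine.Point} {d e : ℕ} (hd : HasHt W' K P d)
    (he : HasHt W' K P e) : d = e := by
  obtain ⟨v, a, -, hv, ev⟩ := hd
  obtain ⟨w, b, -, hw, ew⟩ := he
  refine hv.eq_of_proportional hw fun i j => aeval_xL_injective W' K ?_
  rw [map_mul, map_mul, ev, ev, ew, ew]
  ring

lemma hasHt_zero : HasHt W' K (0 : (W'⁄(FF W' K)).toAffine.Point) 0 := by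
  refine ⟨![1, 0], 1, one_ne_zero, isPrim_one_zero, fun i => ?_⟩
  fin_cases i <;> simp

variable [hE : (W'⁄K).IsElliptic]

lemma hasHt_genPt : HasHt W' K (genPt W' K) 1 := by
  obtain ⟨h, e⟩ := genPt_eq W' K
  refine ⟨![X, 1], 1, one_ne_zero, ?_, fun i => ?_⟩
  · have := isPrim_of_isCoprime (isCoprime_one_right (x := (X : K[X])))
    simpa using this
  · rw [e]
    fin_cases i <;> simp

omit hE in
lemma aeval_eval_addSubMap {L : Type*} [Field L] [Algebra K L] [Algebra R L] [IsScalarTower R K L]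
    (x : Fin 3 → L) (i : Fin 3) :
    MvPolynomial.aeval x (addSubMap (W'⁄K) i) = MvPolynomial.eval x (addSubMap (W'⁄L) i) := by
  have h : (W'⁄L) = (W'⁄K).map (algebraMap K L) :=
    (WeierstrassCurve.map_baseChange (W := W') (IsScalarTower.toAlgHom R K L)).symm
  rw [h]
  fin_cases i <;>
    simp [addSubMap, map_ofNat]

lemma addSubMap_no_common_zero (L : Type u) [Field L] [Algebra K L] (x : Fin 3 → L) (hx : x ≠ 0) :
    ∃ i, MvPolynomial.aeval x (addSubMap (W'⁄K) i) ≠ 0 := by
  let : Algebra R L := Algebra.compHom L (algebraMap R K)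
  have : IsScalarTower R K L := IsScalarTower.of_algebraMap_eq' rfl
  have : (W'⁄L).IsElliptic := by
    have h : (W'⁄L) = (W'⁄K).map (algebraMap K L) :=
      (WeierstrassCurve.map_baseChange (W := W') (IsScalarTower.toAlgHom R K L)).symm
    rw [h]
    infer_instance
  by_contra hc
  push Not at hc
  refine addSubMap_ne_zero (W'⁄L) hx (funext fun i => ?_)
  rw [Pi.zero_apply, ← aeval_eval_addSubMap W' K]
  exact hc i

omit hE in
lemma eval_mul_left_of_isHomogeneous {F : MvPolynomial (Fin 3) (FF W' K)} {e : ℕ}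
    (hF : F.IsHomogeneous e) (c : FF W' K) (x : Fin 3 → FF W' K) :
    MvPolynomial.eval (fun i => c * x i) F = c ^ e * MvPolynomial.eval x F := by
  rw [MvPolynomial.eval_eq', MvPolynomial.eval_eq', Finset.mul_sum]
  refine Finset.sum_congr rfl fun s hs => ?_
  have h := hF (MvPolynomial.mem_support_iff.mp hs)
  rw [Finsupp.weight_apply, Finsupp.sum_fintype _ _ (by simp)] at h
  simp only [Pi.one_apply, smul_eq_mul, mul_one] at h
  simp only [mul_pow, Finset.prod_mul_distrib, Finset.prod_pow_eq_pow_sum, h]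
  ring

variable [DecidableEq (FF W' K)]

/-- The parallelogram law. -/
lemma HasHt.parallelogram {P Q : (W'⁄(FF W' K)).toAffine.Point} {dP dQ a b : ℕ}
    (hP : HasHt W' K P dP) (hQ : HasHt W' K Q dQ) (ha : HasHt W' K (P + Q) a)
    (hb : HasHt W' K (P - Q) b) : a + b = 2 * (dP + dQ) := by
  obtain ⟨v, cv, hcv, hv, ev⟩ := hP
  obtain ⟨w, cw, hcw, hw, ew⟩ := hQ
  obtain ⟨p, cp, -, hp, ep⟩ := ha
  obtain ⟨q, cq, -, hq, eq⟩ := hb
  have hout := (hv.symProd hw).aeval (fun i => isHomogeneous_addSubMap (W'⁄K) i)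
    (fun L _ _ x hx => addSubMap_no_common_zero W' K L x hx)
  refine (hp.symProd hq).eq_of_proportional hout fun i j => aeval_xL_injective W' K ?_
  obtain ⟨c, hc⟩ := exists_addSubMap_eq P Q
  have sym : ∀ {v w : Fin 2 → K[X]} {P Q : (W'⁄(FF W' K)).toAffine.Point} {a b : FF W' K},
      (∀ i, aeval (xL W' K) (v i) = a * P.xRep i) → (∀ i, aeval (xL W' K) (w i) = b * Q.xRep i) →
      ∀ i, aeval (xL W' K) (symProd v w i) = (a * b) * P.sym2x Q i := by
    intro v w P Q a b h1 h2 i
    fin_cases i <;> simp [symProd, Affine.Point.sym2x, h1, h2] <;> ring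
  have hL : ∀ i, aeval (xL W' K) (MvPolynomial.aeval (symProd v w) (addSubMap (W'⁄K) i)) =
      ((cv * cw) ^ 2 * c) * (P + Q).sym2x (P - Q) i := by
    intro i
    rw [MvPolynomial.comp_aeval_apply, aeval_eval_addSubMap W' K,
      funext fun j => sym ev ew j]
    have hhom := isHomogeneous_addSubMap (W'⁄(FF W' K)) i
    rw [mul_assoc, ← hc i]
    exact eval_mul_left_of_isHomogeneous W' K hhom (cv * cw) (P.sym2x Q)
  rw [map_mul, map_mul, sym ep eq i, sym ep eq j, hL i, hL j]
  ring

variable [DecidableEq K] [IsAlgClosed K]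

/-- Points compatible with the conjugation of the generic point. -/
noncomputable def oddPts : AddSubgroup (W'⁄(FF W' K)).toAffine.Point where
  carrier := {P | Affine.Point.map (W' := W') (conjL W' K) P = -P}
  add_mem' := fun {P Q} hP hQ => by
    simp only [Set.mem_ofPred_eq] at hP hQ ⊢
    rw [map_add, hP, hQ, neg_add]
  zero_mem' := by simp
  neg_mem' := fun {P} hP => by
    simp only [Set.mem_ofPred_eq] at hP ⊢
    rw [map_neg, hP]

lemma genPt_mem_oddPts : genPt W' K ∈ oddPts W' K := conjL_genPt W' K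

lemma exists_isCoprime_of_conjL_eq {z : FF W' K} (hz : conjL W' K z = z) :
    ∃ u v : K[X], IsCoprime u v ∧ v ≠ 0 ∧ z * aeval (xL W' K) v = aeval (xL W' K) u := by
  obtain ⟨a, b, hb, rfl⟩ := IsFractionRing.div_surjective (W'⁄K).toAffine.CoordinateRing z
  have hb0 : b ≠ 0 := nonZeroDivisors.ne_zero hb
  have hN : normP _ b ≠ 0 := (normP_eq_zero _).not.mpr hb0
  set z := algebraMap _ (FF W' K) a / algebraMap _ (FF W' K) b with hzdef
  have hzb : z * toFF W' K b = toFF W' K a :=
    div_mul_cancel₀ _ ((map_ne_zero_iff _ (toFF_injective W' K)).mpr hb0)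
  have hzN : z * aeval (xL W' K) (normP _ b) = toFF W' K (a * conj _ b) := by
    rw [← toFF_polyC, polyC_normP, map_mul, ← mul_assoc, hzb, map_mul]
  have hfix : conj _ (a * conj _ b) = a * conj _ b := by
    apply toFF_injective W' K
    rw [← conjL_toFF, ← hzN, map_mul, hz, ← aeval_algHom_apply,
      show conjL W' K (xL W' K) = xL W' K from
        (conjL_toFF W' K _).trans (congrArg _ (conj_xC _))]
  obtain ⟨p, hp⟩ := exists_polyC_of_conj_eq _ hfix
  rw [hp, toFF_polyC] at hzN
  classical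
  have hg : gcd p (normP _ b) ≠ 0 := fun e => hN ((gcd_eq_zero_iff _ _).mp e).2
  refine ⟨p / gcd p (normP _ b), normP _ b / gcd p (normP _ b),
    isCoprime_div_gcd_div_gcd hN, ?_, ?_⟩
  · exact fun e => hN (by
      rw [← EuclideanDomain.mul_div_cancel' hg (gcd_dvd_right p (normP _ b)), e, mul_zero])
  · have h1 := congrArg (aeval (xL W' K))
      (EuclideanDomain.mul_div_cancel' hg (gcd_dvd_left p (normP _ b)))
    have h2 := congrArg (aeval (xL W' K))
      (EuclideanDomain.mul_div_cancel' hg (gcd_dvd_right p (normP _ b)))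
    rw [map_mul] at h1 h2
    refine mul_left_cancel₀ ((map_ne_zero_iff _ (aeval_xL_injective W' K)).mpr hg) ?_
    rw [h1, mul_left_comm, h2, hzN]

lemma exists_hasHt {P : (W'⁄(FF W' K)).toAffine.Point} (hP : P ∈ oddPts W' K) :
    ∃ d, HasHt W' K P d := by
  rcases P with _ | ⟨X0, Y0, h⟩
  · exact ⟨0, hasHt_zero W' K⟩
  · have hP' : Affine.Point.map (W' := W') (conjL W' K) (.some X0 Y0 h) = -.some X0 Y0 h := hP
    rw [Affine.Point.map_some, Affine.Point.neg_some, Affine.Point.some.injEq] at hP'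
    obtain ⟨u, v, huv, hv, e⟩ := exists_isCoprime_of_conjL_eq W' K hP'.1
    refine ⟨_, ![u, v], aeval (xL W' K) v,
      (map_ne_zero_iff _ (aeval_xL_injective W' K)).mpr hv, isPrim_of_isCoprime huv, fun i => ?_⟩
    fin_cases i
    · simp only [Affine.Point.xRep_some]
      simp [← e, mul_comm]
    · simp

/-- The degree of `x(P)`. -/
noncomputable def ht (P : oddPts W' K) : ℤ := ((exists_hasHt W' K P.2).choose : ℕ)

lemma ht_spec (P : oddPts W' K) : ∃ d : ℕ, ht W' K P = d ∧ HasHt W' K P.1 d :=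
  ⟨_, rfl, (exists_hasHt W' K P.2).choose_spec⟩

lemma ht_eq {P : oddPts W' K} {d : ℕ} (h : HasHt W' K P.1 d) : ht W' K P = d := by
  obtain ⟨e, he, he'⟩ := ht_spec W' K P
  rw [he, he'.unique W' K h]

lemma ht_parallelogram (P Q : oddPts W' K) :
    ht W' K (P + Q) + ht W' K (P - Q) = 2 * ht W' K P + 2 * ht W' K Q := by
  obtain ⟨a, ea, ha⟩ := ht_spec W' K P
  obtain ⟨b, eb, hb⟩ := ht_spec W' K Q
  obtain ⟨c, ec, hc⟩ := ht_spec W' K (P + Q)
  obtain ⟨d, ed, hd⟩ := ht_spec W' K (P - Q)
  have := ha.parallelogram W' K hb hc hd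
  rw [ea, eb, ec, ed]
  omega

omit hE [IsAlgClosed K] in
lemma hasHt_cpt (T : (W'⁄K).toAffine.Point) : HasHt W' K (cpt W' K T) 0 := by
  rcases T with _ | ⟨a, b, h⟩
  · exact hasHt_zero W' K
  · refine ⟨![C a, 1], 1, one_ne_zero, ?_, fun i => ?_⟩
    · have := isPrim_of_isCoprime (isCoprime_one_right (x := C a))
      simpa using this
    · rw [cpt, Affine.Point.baseChange, Affine.Point.map_some]
      fin_cases i <;> simp [Algebra.ofId_apply]

omit hE in
lemma mem_range_cpt_of_hasHt_zero {P : (W'⁄(FF W' K)).toAffine.Point} (hP : HasHt W' K P 0) :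
    P ∈ Set.range (cpt W' K) := by
  rcases P with _ | ⟨X0, Y0, h⟩
  · exact ⟨0, map_zero _⟩
  · obtain ⟨v, c, hc, hv, e⟩ := hP
    rw [mem_range_cpt_iff W' K h]
    have h0 := e 0
    have h1 := e 1
    rw [Affine.Point.xRep_some, eq_C_of_natDegree_le_zero (hv.deg_le 0), aeval_C] at h0
    rw [Affine.Point.xRep_some, eq_C_of_natDegree_le_zero (hv.deg_le 1), aeval_C] at h1
    simp only [Matrix.cons_val_zero, Matrix.cons_val_one] at h0 h1
    refine ⟨(v 0).coeff 0 / (v 1).coeff 0, ?_⟩
    have hz1 : algebraMap K (FF W' K) ((v 1).coeff 0) ≠ 0 := by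
      rw [h1, mul_one]; exact hc
    rw [cL, map_div₀, div_eq_iff hz1, h0, h1, mul_one, mul_comm]

lemma not_mem_range_cpt_of_ht_ne_zero {P : oddPts W' K} (h : ht W' K P ≠ 0) :
    P.1 ∉ Set.range (cpt W' K) := by
  rintro ⟨T, hT⟩
  exact h (ht_eq W' K (hT ▸ hasHt_cpt W' K T))

/-- Degrees multiply under substitution. -/
lemma HasHt.substPt {P S : (W'⁄(FF W' K)).toAffine.Point} {d e : ℕ} (hP : HasHt W' K P d)
    (hS : HasHt W' K S e) (hgen : S ∉ Set.range (cpt W' K)) :
    HasHt W' K (Affine.Point.map (W' := W') (substPt W' K S) P) (d * e) := by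
  have hσ := substPt_genPt W' K hgen
  set σ := Fermat.Agent.EllFrobenius.substPt W' K S
  obtain ⟨v, c, hc, hv, ev⟩ := hP
  obtain ⟨w, b, hb, hw, ew⟩ := hS
  obtain ⟨hg, eg⟩ := genPt_eq W' K
  rcases S with _ | ⟨X0, Y0, h0⟩
  · exact absurd ⟨0, map_zero _⟩ hgen
  rw [eg, Affine.Point.map_some, Affine.Point.some.injEq] at hσ
  have hw0 : aeval (xL W' K) (w 0) = b * X0 := by simpa using ew 0
  have hw1 : aeval (xL W' K) (w 1) = b := by simpa using ew 1
  have hcop : IsCoprime (v 0) (v 1) := by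
    refine EuclideanDomain.isCoprime_of_dvd ?_ ?_
    · rintro ⟨e0, e1⟩
      obtain ⟨i, hi⟩ := hv.exists_coeff
      fin_cases i <;> simp_all
    · intro z hz hz0 h1 h2
      obtain ⟨π, hπ, hdvd⟩ := WfDvdMonoid.exists_irreducible_factor hz hz0
      obtain ⟨i, hi⟩ := hv.exists_not_dvd π hπ.prime
      fin_cases i
      · exact hi (hdvd.trans h1)
      · exact hi (hdvd.trans h2)
  have hd : max (v 0).natDegree (v 1).natDegree = d := by
    refine le_antisymm (max_le (hv.deg_le 0) (hv.deg_le 1)) ?_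
    obtain ⟨i, hi⟩ := hv.exists_coeff
    have := le_natDegree_of_ne_zero hi
    fin_cases i
    · exact this.trans (le_max_left _ _)
    · exact this.trans (le_max_right _ _)
  have hhom : ∀ i, (![(v 0).homogenize d, (v 1).homogenize d] i).IsHomogeneous d := fun i => by
    fin_cases i <;> exact Polynomial.isHomogeneous_homogenize _
  have hz := fun L (_ : Field L) (_ : Algebra K L) x hx => homogenize_no_common_zero hcop L x hx
  simp only [hd] at hz
  refine ⟨fun i => MvPolynomial.aeval w (![(v 0).homogenize d, (v 1).homogenize d] i),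
    b ^ d * σ c, mul_ne_zero (pow_ne_zero _ hb) ((_root_.map_ne_zero _).mpr hc),
    hw.aeval hhom hz, fun i => ?_⟩
  have key : ∀ p : K[X], p.natDegree ≤ d →
      aeval (xL W' K) (MvPolynomial.aeval w (p.homogenize d)) = b ^ d * σ (aeval (xL W' K) p) := by
    intro p hp
    rw [MvPolynomial.comp_aeval_apply, ← aeval_algHom_apply, hσ.1, MvPolynomial.aeval_def,
      ← MvPolynomial.eval_map, ← Polynomial.homogenize_map,
      Polynomial.eval_homogenize (natDegree_map_le.trans hp) _ (by rw [hw1]; exact hb), hw0, hw1,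
      mul_div_cancel_left₀ _ hb, eval_map_algebraMap, mul_comm]
  have hmap : ∀ i, (Affine.Point.map (W' := W') σ P).xRep i = σ (P.xRep i) := by
    intro i
    rcases P with _ | ⟨A, B, hA⟩
    · rw [← Affine.Point.zero_def, map_zero]
      fin_cases i <;> simp
    · rw [Affine.Point.map_some]
      fin_cases i <;> simp
  rw [hmap, mul_assoc, ← map_mul σ, ← ev]
  fin_cases i
  · exact key _ (hv.deg_le 0)
  · exact key _ (hv.deg_le 1)

end Fermat.Agent.EllFrobenius
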