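import Fermat.Agent.EllFrobenius.Theta
import Mathlib.LinearAlgebra.Eigenspace.Triangularizable

/-!
# The Weil pairing as the commutator of theta operators
-/

set_option autoImplicit false

open Polynomial
open scoped Polynomial.Bivariate WeierstrassCurve.Affine

universe r u

namespace Fermat.Agent.EllFrobenius

open WeierstrassCurve WeierstrassCurve.Affine

variable {R : Type r} [CommRing R] (W' : WeierstrassCurve.Affine R)
  (K : Type u) [Field K] [Algebra R K] [hE : (W'⁄K).IsElliptic] [DecidableEq (FF W' K)]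
  [DecidableEq K] [IsAlgClosed K]

lemma exists_comm {n : ℕ} {S T : (W'⁄K).toAffine.Point} (hS : n • S = 0) (hT : n • T = 0) :
    ∃ c : K, c ≠ 0 ∧ ∀ f g, Valid W' K n S f → Valid W' K n T g →
      f * transl W' K S g = cL W' K c * (g * transl W' K T f) := by
  obtain ⟨f₀, hf₀⟩ := exists_valid W' K hS
  obtain ⟨g₀, hg₀⟩ := exists_valid W' K hT
  have hST : n • (S + T) = 0 := by rw [smul_add, hS, hT, add_zero]
  have h2 := hg₀.mul hf₀
  rw [add_comm T S] at h2
  obtain ⟨c, hc, e⟩ := (hf₀.mul hg₀).exists_eq_mul hST h2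
  refine ⟨c, hc, fun f g hf hg => ?_⟩
  obtain ⟨a, -, rfl⟩ := hf.exists_eq_mul hS hf₀
  obtain ⟨b, -, rfl⟩ := hg.exists_eq_mul hT hg₀
  rw [map_mul (transl W' K S), map_mul (transl W' K T), AlgHom.commutes, AlgHom.commutes]
  linear_combination (cL W' K a * cL W' K b) * e

open Classical in
/-- The Weil pairing on `n`-torsion points (junk value elsewhere). -/
noncomputable def weil (n : ℕ) (S T : (W'⁄K).toAffine.Point) : K :=
  if h : n • S = 0 ∧ n • T = 0 then (exists_comm W' K h.1 h.2).choose else 1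

lemma weil_ne_zero (n : ℕ) (S T : (W'⁄K).toAffine.Point) : weil W' K n S T ≠ 0 := by
  rw [weil]
  split_ifs with h
  · exact (exists_comm W' K h.1 h.2).choose_spec.1
  · exact one_ne_zero

lemma weil_spec {n : ℕ} {S T : (W'⁄K).toAffine.Point} (hS : n • S = 0) (hT : n • T = 0)
    {f g : FF W' K} (hf : Valid W' K n S f) (hg : Valid W' K n T g) :
    f * transl W' K S g = cL W' K (weil W' K n S T) * (g * transl W' K T f) := by
  rw [weil, dif_pos ⟨hS, hT⟩]
  exact (exists_comm W' K hS hT).choose_spec.2 f g hf hg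

lemma weil_eq_of_spec {n : ℕ} {S T : (W'⁄K).toAffine.Point} (hS : n • S = 0) (hT : n • T = 0)
    {f g : FF W' K} (hf : Valid W' K n S f) (hg : Valid W' K n T g) {c : K}
    (h : f * transl W' K S g = cL W' K c * (g * transl W' K T f)) : weil W' K n S T = c := by
  have h0 : g * transl W' K T f ≠ 0 := mul_ne_zero hg.1 ((_root_.map_ne_zero _).mpr hf.1)
  exact (cL W' K).injective (mul_right_cancel₀ h0 ((weil_spec W' K hS hT hf hg).symm.trans h))

lemma weil_self {n : ℕ} {T : (W'⁄K).toAffine.Point} (hT : n • T = 0) : weil W' K n T T = 1 := by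
  obtain ⟨f, hf⟩ := exists_valid W' K hT
  exact weil_eq_of_spec W' K hT hT hf hf (by rw [map_one, one_mul])

lemma weil_swap {n : ℕ} {S T : (W'⁄K).toAffine.Point} (hS : n • S = 0) (hT : n • T = 0) :
    weil W' K n S T * weil W' K n T S = 1 := by
  obtain ⟨f, hf⟩ := exists_valid W' K hS
  obtain ⟨g, hg⟩ := exists_valid W' K hT
  have h1 := weil_spec W' K hS hT hf hg
  have h2 := weil_spec W' K hT hS hg hf
  rw [h2, ← mul_assoc, ← map_mul] at h1
  have h0 : f * transl W' K S g ≠ 0 := mul_ne_zero hf.1 ((_root_.map_ne_zero _).mpr hg.1)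
  refine (cL W' K).injective (mul_right_cancel₀ h0 ?_)
  rw [map_one, one_mul]
  exact h1.symm

lemma weil_add_left {n : ℕ} {S T U : (W'⁄K).toAffine.Point} (hS : n • S = 0) (hT : n • T = 0)
    (hU : n • U = 0) :
    weil W' K n (S + T) U = weil W' K n S U * weil W' K n T U := by
  obtain ⟨f, hf⟩ := exists_valid W' K hS
  obtain ⟨g, hg⟩ := exists_valid W' K hT
  obtain ⟨u, hu⟩ := exists_valid W' K hU
  refine weil_eq_of_spec W' K (by rw [smul_add, hS, hT, add_zero]) hU (hf.mul hg) hu ?_
  have h1 := weil_spec W' K hS hU hf hu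
  have h2 := congrArg (transl W' K S) (weil_spec W' K hT hU hg hu)
  simp only [map_mul, AlgHom.commutes, transl_add] at h1 h2 ⊢
  rw [add_comm U S]
  linear_combination f * h2 +
    (cL W' K (weil W' K n T U) * transl W' K (S + U) g) * h1

lemma weil_zero_left {n : ℕ} {T : (W'⁄K).toAffine.Point} (hT : n • T = 0) :
    weil W' K n 0 T = 1 := by
  have h := weil_add_left W' K (smul_zero n) (smul_zero n) hT
  rw [add_zero] at h
  exact (mul_eq_left₀ (weil_ne_zero W' K n 0 T)).mp h.symm

lemma weil_nsmul_left {n : ℕ} {S T : (W'⁄K).toAffine.Point} (hS : n • S = 0) (hT : n • T = 0)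
    (k : ℕ) : weil W' K n (k • S) T = weil W' K n S T ^ k := by
  induction k with
  | zero => rw [zero_smul, pow_zero, weil_zero_left W' K hT]
  | succ k ih =>
    rw [succ_nsmul, weil_add_left W' K (by rw [smul_comm, hS, smul_zero]) hS hT, ih, pow_succ]

lemma weil_pow_self {n : ℕ} {S T : (W'⁄K).toAffine.Point} (hS : n • S = 0) (hT : n • T = 0) :
    weil W' K n S T ^ n = 1 := by
  rw [← weil_nsmul_left W' K hS hT, hS, weil_zero_left W' K hT]

lemma weil_add_right {n : ℕ} {S T U : (W'⁄K).toAffine.Point} (hS : n • S = 0) (hT : n • T = 0)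
    (hU : n • U = 0) :
    weil W' K n U (S + T) = weil W' K n U S * weil W' K n U T := by
  have hST : n • (S + T) = 0 := by rw [smul_add, hS, hT, add_zero]
  have h := weil_swap W' K hU hST
  rw [weil_add_left W' K hS hT hU] at h
  have a := weil_swap W' K hU hS
  have b := weil_swap W' K hU hT
  have h0 : weil W' K n S U * weil W' K n T U ≠ 0 :=
    mul_ne_zero (weil_ne_zero W' K n S U) (weil_ne_zero W' K n T U)
  apply mul_right_cancel₀ h0
  linear_combination h - weil W' K n U T * weil W' K n T U * a - b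

lemma weil_nsmul_right {n : ℕ} {S T : (W'⁄K).toAffine.Point} (hS : n • S = 0) (hT : n • T = 0)
    (k : ℕ) : weil W' K n S (k • T) = weil W' K n S T ^ k := by
  have hk : n • (k • T) = 0 := by rw [smul_comm, hT, smul_zero]
  have h := weil_swap W' K hS hk
  rw [weil_nsmul_left W' K hT hS k] at h
  have h' : (weil W' K n S T * weil W' K n T S) ^ k = 1 := by
    rw [weil_swap W' K hS hT, one_pow]
  rw [mul_pow] at h'
  exact mul_right_cancel₀ (pow_ne_zero k (weil_ne_zero W' K n T S)) (h.trans h'.symm)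

/-! ### Non-degeneracy -/

omit hE [DecidableEq (FF W' K)] [DecidableEq K] [IsAlgClosed K] in
lemma finiteDimensional_VL (n : ℕ) : FiniteDimensional K (VL W' K n) := by
  have hle : VC (W'⁄K).toAffine n ≤ Submodule.span K
      ((fun i : ℕ => polyC (W'⁄K).toAffine (X ^ i)) '' Set.Iic n ∪
        (fun i : ℕ => polyC (W'⁄K).toAffine (X ^ i) * yC _) '' Set.Iic n) := by
    intro a ha
    obtain ⟨p, q, rfl⟩ := exists_repr _ a
    obtain ⟨hp, hq⟩ := (dg_le_iff _ p q n).mp ha
    have key : ∀ (s : K[X]) (z : (W'⁄K).toAffine.CoordinateRing), polyC _ s * z =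
        ∑ i ∈ Finset.range (s.natDegree + 1), s.coeff i • (polyC _ (X ^ i) * z) := by
      intro s z
      conv_lhs => rw [s.as_sum_range_C_mul_X_pow, map_sum, Finset.sum_mul]
      refine Finset.sum_congr rfl fun i _ => ?_
      rw [map_mul, polyC_C, Algebra.smul_def, mul_assoc]
      rfl
    refine add_mem ?_ ?_
    · rw [← mul_one (polyC _ p), key]
      refine sum_mem fun i hi => Submodule.smul_mem _ _ (Submodule.subset_span ?_)
      rw [Finset.mem_range] at hi
      exact Or.inl ⟨i, Set.mem_Iic.mpr (by omega), (mul_one _).symm⟩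
    · by_cases hq0 : q = 0
      · rw [hq0, map_zero, zero_mul]; exact zero_mem _
      rw [key]
      refine sum_mem fun i hi => Submodule.smul_mem _ _ (Submodule.subset_span ?_)
      rw [Finset.mem_range] at hi
      have := hq hq0
      exact Or.inr ⟨i, Set.mem_Iic.mpr (by omega), rfl⟩
  have : FiniteDimensional K (Submodule.span K
      ((fun i : ℕ => polyC (W'⁄K).toAffine (X ^ i)) '' Set.Iic n ∪
        (fun i : ℕ => polyC (W'⁄K).toAffine (X ^ i) * yC _) '' Set.Iic n)) :=
    FiniteDimensional.span_of_finite K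
      (((Set.finite_Iic n).image _).union ((Set.finite_Iic n).image _))
  have : FiniteDimensional K (VC (W'⁄K).toAffine n) := Submodule.finiteDimensional_of_le hle
  exact inferInstanceAs (FiniteDimensional K ((VC (W'⁄K).toAffine n).map (toFF W' K).toLinearMap))

/-- The operator attached to a valid pair. -/
noncomputable def thetaOp {n : ℕ} {T : (W'⁄K).toAffine.Point} {f : FF W' K}
    (hf : Valid W' K n T f) : Module.End K (VL W' K n) :=
  LinearMap.codRestrict (VL W' K n)
    ((LinearMap.mulLeft K f).comp ((transl W' K T).toLinearMap.comp (VL W' K n).subtype))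
    fun z => hf.2 z z.2

omit [IsAlgClosed K] in
lemma thetaOp_apply {n : ℕ} {T : (W'⁄K).toAffine.Point} {f : FF W' K} (hf : Valid W' K n T f)
    (z : VL W' K n) : (thetaOp W' K hf z : FF W' K) = f * transl W' K T z := rfl

lemma exists_common_eigenvector {n : ℕ} {S T : (W'⁄K).toAffine.Point} (hS : n • S = 0)
    (hT : n • T = 0) {f g : FF W' K} (hf : Valid W' K n S f) (hg : Valid W' K n T g)
    (hw : weil W' K n S T = 1) :
    ∃ z ∈ VL W' K n, z ≠ 0 ∧ (∃ c : K, f * transl W' K S z = cL W' K c * z) ∧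
      ∃ c : K, g * transl W' K T z = cL W' K c * z := by
  have := finiteDimensional_VL W' K n
  set A := thetaOp W' K hf
  set B := thetaOp W' K hg
  have hAB : ∀ z, A (B z) = B (A z) := by
    intro z
    apply Subtype.ext
    simp only [A, B, thetaOp_apply, map_mul, transl_add]
    have h := weil_spec W' K hS hT hf hg
    rw [hw, map_one, one_mul] at h
    rw [add_comm T S]
    linear_combination (transl W' K (S + T) (z : FF W' K)) * h
  have : Nontrivial (VL W' K n) :=
    ⟨⟨⟨1, one_mem_VL W' K n⟩, 0, fun e => one_ne_zero (congrArg Subtype.val e)⟩⟩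
  obtain ⟨μ, hμ⟩ := Module.End.exists_eigenvalue A
  have hmap : ∀ z ∈ A.eigenspace μ, B z ∈ A.eigenspace μ := by
    intro z hz
    rw [Module.End.mem_eigenspace_iff] at hz ⊢
    rw [hAB, hz, map_smul]
  have : Nontrivial (A.eigenspace μ) := Submodule.nontrivial_iff_ne_bot.mpr hμ
  obtain ⟨ν, hν⟩ := Module.End.exists_eigenvalue (K := K) (V := A.eigenspace μ)
    (LinearMap.restrict B hmap)
  obtain ⟨⟨z, hz⟩, hzν⟩ := Module.End.HasEigenvalue.exists_hasEigenvector hν
  refine ⟨z, z.2, fun e => hzν.2 (Subtype.ext (Subtype.ext e)), ⟨μ, ?_⟩, ⟨ν, ?_⟩⟩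
  · have h := congrArg Subtype.val (Module.End.mem_eigenspace_iff.mp hz)
    rw [Submodule.coe_smul, Algebra.smul_def] at h
    exact h
  · have h := congrArg (fun w => ((w : VL W' K n) : FF W' K)) (congrArg Subtype.val hzν.apply_eq_smul)
    simp only [Submodule.coe_smul, Algebra.smul_def] at h
    exact h

/-- `z` takes the value `v` at the point `(a, b)`, with denominator a power of `x - xT`. -/
def HasValue (xT : K) {a b : K} (he : (W'⁄K).toAffine.Equation a b) (z : FF W' K) (v : K) : Prop :=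
  ∃ (num : (W'⁄K).toAffine.CoordinateRing) (k : ℕ),
    z * toFF W' K (dx _ xT ^ k) = toFF W' K num ∧ evalPt _ he num = (a - xT) ^ k * v

variable {W' K} in
omit hE [DecidableEq (FF W' K)] [DecidableEq K] [IsAlgClosed K] in
lemma evalPt_dx {a b : K} (he : (W'⁄K).toAffine.Equation a b) (xT : K) :
    evalPt _ he (dx _ xT) = a - xT := by
  rw [dx, map_sub, evalPt_xC, evalPt_cC]

variable {W' K} in
omit hE [DecidableEq (FF W' K)] [DecidableEq K] [IsAlgClosed K] in
lemma HasValue.add {xT a b : K} {he : (W'⁄K).toAffine.Equation a b} {z₁ z₂ : FF W' K} {v₁ v₂ : K}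
    (h₁ : HasValue W' K xT he z₁ v₁) (h₂ : HasValue W' K xT he z₂ v₂) :
    HasValue W' K xT he (z₁ + z₂) (v₁ + v₂) := by
  obtain ⟨N₁, k₁, e₁, f₁⟩ := h₁
  obtain ⟨N₂, k₂, e₂, f₂⟩ := h₂
  refine ⟨N₁ * dx _ xT ^ k₂ + N₂ * dx _ xT ^ k₁, k₁ + k₂, ?_, ?_⟩
  · simp only [pow_add, map_add, map_mul, ← e₁, ← e₂]
    ring
  · rw [map_add, map_mul, map_mul, map_pow, map_pow, evalPt_dx, f₁, f₂]
    ring

variable {W' K} in
omit hE [DecidableEq (FF W' K)] [DecidableEq K] [IsAlgClosed K] in
lemma HasValue.mul {xT a b : K} {he : (W'⁄K).toAffine.Equation a b} {z₁ z₂ : FF W' K} {v₁ v₂ : K}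
    (h₁ : HasValue W' K xT he z₁ v₁) (h₂ : HasValue W' K xT he z₂ v₂) :
    HasValue W' K xT he (z₁ * z₂) (v₁ * v₂) := by
  obtain ⟨N₁, k₁, e₁, f₁⟩ := h₁
  obtain ⟨N₂, k₂, e₂, f₂⟩ := h₂
  refine ⟨N₁ * N₂, k₁ + k₂, ?_, ?_⟩
  · simp only [pow_add, map_mul, ← e₁, ← e₂]
    ring
  · rw [map_mul, f₁, f₂]
    ring

omit hE [DecidableEq (FF W' K)] [DecidableEq K] [IsAlgClosed K] in
lemma hasValue_toFF (xT : K) {a b : K} (he : (W'⁄K).toAffine.Equation a b)
    (c : (W'⁄K).toAffine.CoordinateRing) :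
    HasValue W' K xT he (toFF W' K c) (evalPt _ he c) :=
  ⟨c, 0, by rw [pow_zero, map_one, mul_one], by rw [pow_zero, one_mul]⟩

/-- Translation commutes with evaluation. -/
lemma hasValue_transl {xT yT a b a' b' : K} (hT : (W'⁄K).toAffine.Nonsingular xT yT)
    (hQ : (W'⁄K).toAffine.Nonsingular a b) (hQ' : (W'⁄K).toAffine.Nonsingular a' b')
    (hne : a ≠ xT)
    (hsum : Affine.Point.some a b hQ + Affine.Point.some xT yT hT = Affine.Point.some a' b' hQ')
    (c : (W'⁄K).toAffine.CoordinateRing) :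
    HasValue W' K xT hQ.left (transl W' K (.some xT yT hT) (toFF W' K c))
      (evalPt _ hQ'.left c) := by
  rw [Affine.Point.add_of_X_ne hne, Affine.Point.some.injEq] at hsum
  obtain ⟨e1, e2⟩ := hsum
  have hd : a - xT ≠ 0 := sub_ne_zero.mpr hne
  obtain ⟨hx, hy⟩ := transl_xL_mul W' K hT
  have hN2 : evalPt _ hQ.left (num2 (W'⁄K).toAffine xT yT) = (a - xT) ^ 2 * a' := by
    rw [← e1, addX, slope_of_X_ne hne]
    simp only [num2, dy, map_sub, map_add, map_mul, map_pow, evalPt_dx, evalPt_xC, evalPt_yC,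
      evalPt_cC]
    field_simp
    ring
  have hX : HasValue W' K xT hQ.left (transl W' K (.some xT yT hT) (xL W' K)) a' :=
    ⟨_, 2, hx, hN2⟩
  have hN3 : evalPt _ hQ.left (num3 (W'⁄K).toAffine xT yT) = (a - xT) ^ 3 * b' := by
    rw [← e2, addY, negAddY, negY, e1, slope_of_X_ne hne]
    simp only [num3, dy, map_sub, map_neg, map_mul, map_pow, evalPt_dx, 
      evalPt_yC, evalPt_cC, hN2]
    field_simp
    ring
  have hY : HasValue W' K xT hQ.left (transl W' K (.some xT yT hT) (yL W' K)) b' :=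
    ⟨_, 3, hy, hN3⟩
  have hP : ∀ p : K[X], HasValue W' K xT hQ.left
      (transl W' K (.some xT yT hT) (toFF W' K (polyC _ p))) (p.eval a') := by
    intro p
    induction p using Polynomial.induction_on with
    | C k =>
      rw [polyC_C, toFF_cC, AlgHom.commutes, eval_C]
      have := hasValue_toFF W' K xT hQ.left (cC _ k)
      rwa [toFF_cC, evalPt_cC] at this
    | add p q hp hq =>
      rw [map_add, map_add, map_add, eval_add]
      exact hp.add hq
    | monomial k c ih =>
      rw [pow_succ, ← mul_assoc, map_mul, map_mul, map_mul, polyC_X, eval_mul, eval_X]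
      exact ih.mul hX
  obtain ⟨p, q, rfl⟩ := exists_repr _ c
  rw [map_add, map_add, map_mul, map_mul, map_add, map_mul, evalPt_polyC, evalPt_polyC, evalPt_yC]
  exact (hP p).add ((hP q).mul hY)

omit hE [DecidableEq (FF W' K)] [DecidableEq K] [IsAlgClosed K] in
lemma evalPt_conj {a b : K} (he : (W'⁄K).toAffine.Equation a b)
    (c : (W'⁄K).toAffine.CoordinateRing) :
    evalPt _ he (conj _ c) = evalPt _ ((equation_neg a b).mpr he) c := by
  obtain ⟨p, q, rfl⟩ := exists_repr _ c
  simp only [map_add, map_mul, conj_polyC, conj_yC, map_sub, map_neg, evalPt_polyC, evalPt_yC,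
    evalPt_cC, evalPt_xC, negY]

omit hE [DecidableEq (FF W' K)] [DecidableEq K] in
lemma exists_zero {c : (W'⁄K).toAffine.CoordinateRing} (hc : dg _ c ≠ 0) :
    ∃ (a b : K) (he : (W'⁄K).toAffine.Equation a b), evalPt _ he c = 0 := by
  have hpos : (normP _ c).degree ≠ 0 := fun h => hc (natDegree_eq_of_degree_eq_some h)
  obtain ⟨a, ha⟩ := IsAlgClosed.exists_root _ hpos
  obtain ⟨b, hb⟩ : ∃ b, (C (1 : K) * X ^ 2 + C ((W'⁄K).a₁ * a + (W'⁄K).a₃) * X +
      C (-(a ^ 3 + (W'⁄K).a₂ * a ^ 2 + (W'⁄K).a₄ * a + (W'⁄K).a₆))).IsRoot b := by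
    refine IsAlgClosed.exists_root _ ?_
    rw [degree_quadratic one_ne_zero]
    decide
  have he : (W'⁄K).toAffine.Equation a b := by
    rw [equation_iff]
    simp only [IsRoot, eval_add, eval_mul, eval_C, eval_pow, eval_X] at hb
    linear_combination hb
  have h := congrArg (evalPt _ he) (polyC_normP _ c)
  rw [evalPt_polyC, ha.eq_zero, map_mul, evalPt_conj] at h
  rcases mul_eq_zero.mp h.symm with h | h
  exacts [⟨a, b, he, h⟩, ⟨a, _, _, h⟩]

open Classical in
omit hE [DecidableEq (FF W' K)] [IsAlgClosed K] [DecidableEq K] in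
lemma exists_finset_zeros {c : (W'⁄K).toAffine.CoordinateRing} (hc : c ≠ 0) :
    ∃ s : Finset (W'⁄K).toAffine.Point, s.card ≤ 2 * dg _ c ∧
      ∀ (a b : K) (h : (W'⁄K).toAffine.Nonsingular a b),
        evalPt _ h.left c = 0 → Affine.Point.some a b h ∈ s := by
  let quad : K → K[X] := fun a => C (1 : K) * X ^ 2 + C ((W'⁄K).a₁ * a + (W'⁄K).a₃) * X +
      C (-(a ^ 3 + (W'⁄K).a₂ * a ^ 2 + (W'⁄K).a₄ * a + (W'⁄K).a₆))
  let pts : K → K → (W'⁄K).toAffine.Point := fun a b =>
    if h : (W'⁄K).toAffine.Nonsingular a b then .some a b h else 0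
  refine ⟨(normP _ c).roots.toFinset.biUnion fun a => (quad a).roots.toFinset.image (pts a), ?_, ?_⟩
  · refine Finset.card_biUnion_le.trans ?_
    refine (Finset.sum_le_card_nsmul _ _ 2 fun a _ => ?_).trans ?_
    · refine Finset.card_image_le.trans ((quad a).roots.toFinset_card_le.trans ?_)
      exact (card_roots' _).trans (natDegree_quadratic_le)
    · rw [smul_eq_mul, mul_comm]
      exact Nat.mul_le_mul_left 2 ((normP _ c).roots.toFinset_card_le.trans (card_roots' _))
  · intro a b h hab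
    rw [Finset.mem_biUnion]
    refine ⟨a, ?_, ?_⟩
    · rw [Multiset.mem_toFinset, mem_roots ((normP_eq_zero _).not.mpr hc), IsRoot,
        ← evalPt_polyC _ h.left, polyC_normP, map_mul, hab, zero_mul]
    · rw [Finset.mem_image]
      refine ⟨b, ?_, dif_pos h⟩
      have hq0 : quad a ≠ 0 := fun e => by
        have := congrArg natDegree e
        rw [natDegree_quadratic one_ne_zero, natDegree_zero] at this
        omega
      rw [Multiset.mem_toFinset, mem_roots hq0]
      have he := (equation_iff a b).mp h.left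
      simp only [quad, IsRoot, eval_add, eval_mul, eval_C, eval_pow, eval_X]
      linear_combination he

theorem weil_ne_one_of_card {p : ℕ} (hp : 0 < p) {S T : (W'⁄K).toAffine.Point}
    (hS : p • S = 0) (hT : p • T = 0) (G : Finset (W'⁄K).toAffine.Point)
    (hcard2 : 2 * p + 3 ≤ G.card)
    (hgen : ∀ U ∈ G, U ∈ AddSubmonoid.closure ({S, T} : Set (W'⁄K).toAffine.Point)) :
    weil W' K p S T ≠ 1 := by
  intro hw
  obtain ⟨f, hf⟩ := exists_valid W' K hS
  obtain ⟨g, hg⟩ := exists_valid W' K hT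
  obtain ⟨z, hz, hz0, ⟨μ, hμ⟩, ν, hν⟩ := exists_common_eigenvector W' K hS hT hf hg hw
  -- every element of the subgroup fixes `z` after normalisation
  have hall : ∀ U ∈ AddSubmonoid.closure ({S, T} : Set (W'⁄K).toAffine.Point),
      p • U = 0 ∧ ∃ u, Valid W' K p U u ∧ u * transl W' K U z = z := by
    have norm1 : ∀ {U f}, Valid W' K p U f → ∀ {c : K}, f * transl W' K U z = cL W' K c * z →
        ∃ u, Valid W' K p U u ∧ u * transl W' K U z = z := by
      intro U f hf c hc
      have hc0 : c ≠ 0 := by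
        rintro rfl
        rw [map_zero, zero_mul] at hc
        exact mul_ne_zero hf.1 ((_root_.map_ne_zero _).mpr hz0) hc
      refine ⟨cL W' K c⁻¹ * f, ⟨mul_ne_zero ((_root_.map_ne_zero _).mpr (inv_ne_zero hc0)) hf.1,
        fun v hv => ?_⟩, ?_⟩
      · rw [mul_assoc, ← Algebra.smul_def]
        exact Submodule.smul_mem _ _ (hf.2 v hv)
      · rw [mul_assoc, hc, ← mul_assoc, ← map_mul, inv_mul_cancel₀ hc0, map_one, one_mul]
    intro U hU
    induction hU using AddSubmonoid.closure_induction with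
    | mem U h =>
      rcases h with rfl | h
      · exact ⟨hS, norm1 hf hμ⟩
      · rw [Set.mem_singleton_iff] at h
        subst h
        exact ⟨hT, norm1 hg hν⟩
    | zero => exact ⟨smul_zero _, 1, valid_zero W' K p, by rw [transl_zero, one_mul]⟩
    | add U V _ _ hu hv =>
      obtain ⟨hU, u, hu, eu⟩ := hu
      obtain ⟨hV, v, hv, ev⟩ := hv
      refine ⟨by rw [smul_add, hU, hV, add_zero], u * transl W' K U v, hu.mul hv, ?_⟩
      rw [mul_assoc, ← transl_add, ← map_mul, ev, eu]
  obtain ⟨b, hb, rfl⟩ := (mem_VL W' K).mp hz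
  have hb0 : b ≠ 0 := fun e => hz0 (by rw [e, map_zero])
  -- for an affine `U` the normalised function is a multiple of the generator
  have hgenU : ∀ {xT yT : K} (h : (W'⁄K).toAffine.Nonsingular xT yT),
      Affine.Point.some xT yT h ∈ G → ∃ (c : K) (a : (W'⁄K).toAffine.CoordinateRing), c ≠ 0 ∧
        IsTorsionGen _ p xT yT a ∧
        toFF W' K (cC _ c * a) * transl W' K (.some xT yT h) (toFF W' K b) = toFF W' K b := by
    intro xT yT h hUG
    obtain ⟨hU, u, hu, eu⟩ := hall _ (hgen _ hUG)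
    obtain ⟨a, ha⟩ := exists_torsionGen _ h hU
    obtain ⟨c, hc, rfl⟩ := hu.exists_eq_mul hU (valid_of_torsionGen W' K h ha)
    exact ⟨c, a, hc, ha, by rw [map_mul, toFF_cC]; exact eu⟩
  have hdgb : dg _ b ≠ 0 := by
    intro hdg
    obtain ⟨k, rfl⟩ := exists_cC_of_dg_eq_zero _ hdg
    obtain ⟨U, hUG, hU0⟩ : ∃ U ∈ G, U ≠ 0 := by
      by_contra hall0
      push Not at hall0
      have : G ⊆ {0} := fun U hU => Finset.mem_singleton.mpr (hall0 U hU)
      have := Finset.card_le_card this
      rw [Finset.card_singleton] at this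
      omega
    rcases U with _ | ⟨xT, yT, h⟩
    · exact hU0 rfl
    obtain ⟨c, a, hc, ha, e⟩ := hgenU h hUG
    rw [toFF_cC, AlgHom.commutes] at e
    have h1 : toFF W' K (cC _ c * a) = toFF W' K (cC _ 1) := by
      rw [toFF_cC, map_one]
      have hk : cL W' K k ≠ 0 := by rw [← toFF_cC]; exact hz0
      exact mul_right_cancel₀ hk (e.trans (one_mul _).symm)
    have h2 := congrArg (dg _) (toFF_injective W' K h1)
    rw [dg_mul _ ((map_ne_zero_iff _ (cC_injective _)).mpr hc) ha.ne_zero, dg_cC, dg_cC, ha.dg_eq]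
      at h2
    omega
  obtain ⟨a0, b0, he0, hz00⟩ := exists_zero W' K hdgb
  have hQ : (W'⁄K).toAffine.Nonsingular a0 b0 := equation_iff_nonsingular.mp he0
  set Q : (W'⁄K).toAffine.Point := .some a0 b0 hQ with hQdef
  obtain ⟨s, hs, hmem⟩ := exists_finset_zeros W' K hb0
  classical
  have hsub : (((G.erase 0).erase Q).erase (-Q)).image (fun U => Q + U) ⊆ s := by
    intro P hP
    simp only [Finset.mem_image, Finset.mem_erase] at hP
    obtain ⟨U, ⟨hUnQ, hUQ, hU0, hUG⟩, rfl⟩ := hP
    rcases U with _ | ⟨xT, yT, h⟩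
    · exact absurd rfl hU0
    have hne : a0 ≠ xT := fun e => by
      rcases (Affine.Point.X_eq_iff (h₁ := hQ) (h₂ := h)).mp e with e' | e'
      · exact hUQ e'.symm
      · exact hUnQ (neg_eq_iff_eq_neg.mpr e').symm
    have hsumne : Q + Affine.Point.some xT yT h ≠ 0 := fun e => hUnQ (eq_neg_of_add_eq_zero_right e)
    obtain ⟨a', b', h', hsum⟩ : ∃ a' b' h', Q + Affine.Point.some xT yT h =
        Affine.Point.some a' b' h' := by
      rcases hR : Q + Affine.Point.some xT yT h with _ | ⟨a', b', h'⟩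
      · exact absurd hR hsumne
      · exact ⟨a', b', h', rfl⟩
    rw [hsum]
    refine hmem a' b' h' ?_
    obtain ⟨c, a, hc, ha, e⟩ := hgenU h hUG
    obtain ⟨N, k, eN, fN⟩ := hasValue_transl W' K h hQ h' hne hsum b
    have key : cC _ c * a * N = b * dx _ xT ^ k := by
      apply toFF_injective W' K
      rw [map_mul _ _ N, ← eN, ← mul_assoc, e, map_mul]
    have key' := congrArg (evalPt _ hQ.left) key
    rw [map_mul, map_mul, map_mul, evalPt_cC, fN, hz00, zero_mul] at key'
    obtain ⟨d, hd, hd'⟩ := ha.mul_conj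
    have hae : evalPt _ hQ.left a ≠ 0 := by
      intro h0
      have h3 := congrArg (evalPt _ hQ.left) hd'
      rw [map_mul, map_mul, map_pow, h0, zero_mul, evalPt_cC, evalPt_dx] at h3
      exact mul_ne_zero hd (pow_ne_zero _ (sub_ne_zero.mpr hne)) h3.symm
    rcases mul_eq_zero.mp key' with h4 | h4
    · exact absurd h4 (mul_ne_zero hc hae)
    · exact (mul_eq_zero.mp h4).resolve_left (pow_ne_zero _ (sub_ne_zero.mpr hne))
  have c1 := Finset.pred_card_le_card_erase (s := G) (a := (0 : (W'⁄K).toAffine.Point))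
  have c2 := Finset.pred_card_le_card_erase (s := G.erase 0) (a := Q)
  have c3 := Finset.pred_card_le_card_erase (s := (G.erase 0).erase Q) (a := -Q)
  have hQmem : Q ∈ s := hmem a0 b0 hQ hz00
  have hQnot : Q ∉ (((G.erase 0).erase Q).erase (-Q)).image (fun U => Q + U) := by
    simp only [Finset.mem_image, Finset.mem_erase, not_exists, not_and]
    rintro U ⟨-, -, hU0, -⟩ e
    exact hU0 (add_left_cancel (e.trans (add_zero Q).symm))
  have hcard' := (Finset.card_le_card (Finset.insert_subset hQmem hsub)).trans hs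
  rw [Finset.card_insert_of_notMem hQnot,
    Finset.card_image_of_injective _ (add_right_injective Q)] at hcard'
  have hdg2 : dg _ b ≤ p := hb
  omega

theorem weil_ne_one {p : ℕ} (hp : 3 ≤ p) {S T : (W'⁄K).toAffine.Point}
    (hS : p • S = 0) (hT : p • T = 0) (G : Finset (W'⁄K).toAffine.Point) (hG : p ^ 2 ≤ G.card)
    (hgen : ∀ U ∈ G, U ∈ AddSubmonoid.closure ({S, T} : Set (W'⁄K).toAffine.Point)) :
    weil W' K p S T ≠ 1 :=
  weil_ne_one_of_card W' K (by omega) hS hT G (le_trans (by nlinarith) hG) hgen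

end Fermat.Agent.EllFrobenius
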