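import Mathlib.Algebra.Group.Basic
import Mathlib.Algebra.Ring.Int.Defs
import Mathlib.GroupTheory.GroupAction.Defs
import Mathlib.Tactic.LinearCombination
import Mathlib.Tactic.Ring
import Mathlib.Tactic.Abel
import Mathlib.Algebra.Module.NatInt

/-!
# Functions satisfying the parallelogram law are quadratic
-/

set_option autoImplicit false

universe u

namespace Fermat.Agent.EllFrobenius

variable {G : Type u} [AddCommGroup G] (f : G → ℤ)

/-- The parallelogram law. -/
def IsParallelogram : Prop := ∀ a b, f (a + b) + f (a - b) = 2 * f a + 2 * f b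

/-- The polar form. -/
def polarZ (a b : G) : ℤ := f (a + b) - f a - f b

variable {f}

namespace IsParallelogram

variable (hf : IsParallelogram f)

include hf

lemma apply_zero : f 0 = 0 := by
  have := hf 0 0
  simp only [add_zero, sub_zero] at this
  omega

lemma apply_neg (a : G) : f (-a) = f a := by
  have := hf 0 a
  have := hf.apply_zero
  simp only [zero_add, zero_sub] at *
  omega

lemma polarZ_add_left (a b c : G) : polarZ f (a + b) c = polarZ f a c + polarZ f b c := by
  have h1 := hf (a + b) c
  have h2 := hf (a + c) b
  have h3 := hf a (b - c)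
  have h4 := hf b c
  rw [show a + c + b = a + b + c by abel, show a + c - b = a - b + c by abel] at h2
  rw [show a + (b - c) = a + b - c by abel, show a - (b - c) = a - b + c by abel] at h3
  simp only [polarZ]
  omega

lemma polarZ_comm (a b : G) : polarZ f a b = polarZ f b a := by
  simp only [polarZ, add_comm a b]
  ring

lemma polarZ_zero_left (c : G) : polarZ f 0 c = 0 := by
  simp [polarZ, hf.apply_zero]

lemma polarZ_zsmul_left (m : ℤ) (a c : G) : polarZ f (m • a) c = m * polarZ f a c := by
  induction m using Int.induction_on with
  | zero => simp [hf.polarZ_zero_left]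
  | succ i ih =>
    rw [add_zsmul, one_zsmul, hf.polarZ_add_left, ih]
    ring
  | pred i ih =>
    have h := hf.polarZ_add_left ((-(i : ℤ) - 1) • a) a c
    rw [← add_one_zsmul, sub_add_cancel, ih] at h
    linear_combination -h

lemma polarZ_zsmul_right (m : ℤ) (a c : G) : polarZ f a (m • c) = m * polarZ f a c := by
  rw [hf.polarZ_comm, hf.polarZ_zsmul_left, hf.polarZ_comm]

lemma polarZ_self (a : G) : polarZ f a a = 2 * f a := by
  have := hf a a
  have := hf.apply_zero
  rw [sub_self] at *
  simp only [polarZ]
  omega

lemma apply_zsmul (m : ℤ) (a : G) : f (m • a) = m ^ 2 * f a := by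
  have h := hf.polarZ_self (m • a)
  rw [hf.polarZ_zsmul_left, hf.polarZ_zsmul_right, hf.polarZ_self] at h
  exact mul_left_cancel₀ (two_ne_zero (α := ℤ))
    (show 2 * f (m • a) = 2 * (m ^ 2 * f a) by linear_combination -h)

lemma apply_add (a b : G) : f (a + b) = f a + f b + polarZ f a b := by
  simp only [polarZ]
  ring

end IsParallelogram

end Fermat.Agent.EllFrobenius
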