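import Fermat.Agent.EllTorsion.Integral
import Fermat.Agent.EllTorsion.Transfer
import Fermat.Agent.EllTorsion.Galois
import Fermat.Agent.Frobenius.Exists
import Fermat.Prelude.Def_FLTPrelim_Modularity
import Fermat.Prelude.Def_EllipticCurve_FrobeniusTrace

/-!
# Good reduction and the action of Frobenius on torsion
-/

set_option autoImplicit false

open WeierstrassCurve
open scoped Pointwise
open scoped WeierstrassCurve.Affine

namespace Fermat.Agent.EllFrobenius

namespace Reduction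

variable {L : Type*} [Field L] {A : ValuationSubring L} (W₀ : WeierstrassCurve A)

/-- The generic fibre. -/
abbrev genFibre : WeierstrassCurve.Affine L := W₀.map A.subtype

/-- The closed fibre. -/
abbrev clFibre : WeierstrassCurve.Affine (IsLocalRing.ResidueField A) :=
  W₀.map (IsLocalRing.residue A)

variable {W₀}

lemma clFibre_equation {x y : A} (h : (genFibre W₀).Equation (x : L) (y : L)) :
    (clFibre W₀).Equation (IsLocalRing.residue A x) (IsLocalRing.residue A y) :=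
  (Affine.Equation.map (IsLocalRing.residue A)
    ((W₀.toAffine.map_equation (f := A.subtype) Subtype.val_injective x y).1 h) :)

lemma mem_of_sq_add_mul_mem {l : L} (a : A) (h : l ^ 2 + (a : L) * l ∈ A) : l ∈ A := by
  obtain ⟨b, hb⟩ := IsIntegrallyClosed.isIntegral_iff.mp
    (show IsIntegral A l from ⟨Polynomial.X ^ 2 + Polynomial.C a * Polynomial.X
      - Polynomial.C ⟨_, h⟩, by monicity!, by
        simp only [Polynomial.eval₂_sub, Polynomial.eval₂_add, Polynomial.eval₂_mul,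
          Polynomial.eval₂_pow, Polynomial.eval₂_X, Polynomial.eval₂_C]
        exact sub_self _⟩)
  exact hb ▸ b.2

/-- A point with integral coordinates. -/
def IsInt : (genFibre W₀).Point → Prop
  | .zero => True
  | .some x y _ => x ∈ A ∧ y ∈ A

lemma isInt_of_nsmul_eq_zero [DecidableEq L] {n : ℕ} (hn : IsUnit (n : A))
    {P : (genFibre W₀).Point} (hP : n • P = 0) : IsInt P := by
  rcases P with _ | ⟨x, y, h⟩
  · trivial
  · exact EllTorsion.mem_of_nsmul_eq_zero A W₀.a₁.2 W₀.a₂.2 W₀.a₃.2 W₀.a₄.2 W₀.a₆.2 hn h hP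

variable (W₀) [hE : (clFibre W₀).IsElliptic]

/-- Reduction of points; non-integral points go to zero. -/
noncomputable def red : (genFibre W₀).Point → (clFibre W₀).Point
  | .zero => .zero
  | .some x y hxy =>
    open Classical in
    if hm : x ∈ A ∧ y ∈ A then
      .some (IsLocalRing.residue A ⟨x, hm.1⟩) (IsLocalRing.residue A ⟨y, hm.2⟩)
        (Affine.equation_iff_nonsingular.mp
          (clFibre_equation (x := ⟨x, hm.1⟩) (y := ⟨y, hm.2⟩) hxy.1))
    else .zero

lemma red_some {x y : L} (h : (genFibre W₀).Nonsingular x y) (hx : x ∈ A) (hy : y ∈ A) :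
    ∃ h', red W₀ (.some x y h) =
      .some (IsLocalRing.residue A ⟨x, hx⟩) (IsLocalRing.residue A ⟨y, hy⟩) h' := by
  refine ⟨Affine.equation_iff_nonsingular.mp
    (clFibre_equation (x := ⟨x, hx⟩) (y := ⟨y, hy⟩) h.1), ?_⟩
  simp only [red]
  rw [dif_pos ⟨hx, hy⟩]

lemma red_eq_zero_iff {P : (genFibre W₀).Point} (hP : IsInt P) : red W₀ P = 0 ↔ P = 0 := by
  rcases P with _ | ⟨x, y, hxy⟩
  · simp [red, ← Affine.Point.zero_def]
  · obtain ⟨h', he⟩ := red_some W₀ hxy hP.1 hP.2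
    simp [he]

variable [DecidableEq L] [DecidableEq (IsLocalRing.ResidueField A)]

lemma red_neg {P : (genFibre W₀).Point} (hP : IsInt P) : red W₀ (-P) = -red W₀ P := by
  rcases P with _ | ⟨x, y, hxy⟩
  · simp [red, ← Affine.Point.zero_def]
  · obtain ⟨hx, hy⟩ := hP
    have hn : ((W₀.toAffine.negY ⟨x, hx⟩ ⟨y, hy⟩ : A) : L) = (genFibre W₀).negY x y :=
      (Affine.map_negY (f := A.subtype) ⟨x, hx⟩ ⟨y, hy⟩).symm
    rw [Affine.Point.neg_some]
    obtain ⟨h1, e1⟩ := red_some W₀ ((Affine.nonsingular_neg x y).mpr hxy) hx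
      (hn ▸ (W₀.toAffine.negY ⟨x, hx⟩ ⟨y, hy⟩).2)
    obtain ⟨h2, e2⟩ := red_some W₀ hxy hx hy
    rw [e1, e2, Affine.Point.neg_some]
    simp only [Affine.Point.some.injEq, true_and]
    rw [Affine.map_negY]
    exact congrArg _ (Subtype.ext hn.symm)

lemma red_add {P Q : (genFibre W₀).Point} (hP : IsInt P) (hQ : IsInt Q) (hPQ : IsInt (P + Q)) :
    red W₀ (P + Q) = red W₀ P + red W₀ Q := by
  rcases P with _ | ⟨x₁, y₁, h₁⟩
  · simp [red, ← Affine.Point.zero_def]
  rcases Q with _ | ⟨x₂, y₂, h₂⟩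
  · simp [red, ← Affine.Point.zero_def]
  obtain ⟨hx₁, hy₁⟩ := hP
  obtain ⟨hx₂, hy₂⟩ := hQ
  by_cases hc : x₁ = x₂ ∧ y₁ = (genFibre W₀).negY x₂ y₂
  · have hQP : (Affine.Point.some x₁ y₁ h₁ : (genFibre W₀).Point) = -.some x₂ y₂ h₂ := by
      simp [Affine.Point.neg_some, hc.1, hc.2]
    rw [hQP, neg_add_cancel, red_neg W₀ (show IsInt (.some x₂ y₂ h₂) from ⟨hx₂, hy₂⟩),
      neg_add_cancel]
    rfl
  have hadd := Affine.Point.add_some (h₁ := h₁) (h₂ := h₂) hc
  rw [hadd] at hPQ ⊢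
  set l := (genFibre W₀).slope x₁ x₂ y₁ y₂ with hl
  obtain ⟨hx₃, hy₃⟩ := hPQ
  have R1 : l * (x₁ - x₂) = y₁ - y₂ := by
    by_cases hx : x₁ = x₂
    · have hy : y₁ ≠ (genFibre W₀).negY x₂ y₂ := fun e => hc ⟨hx, e⟩
      rw [hx, Affine.Y_eq_of_Y_ne h₁.1 h₂.1 hx hy]; ring
    · rw [hl, Affine.slope_of_X_ne hx, div_mul_cancel₀ _ (sub_ne_zero.2 hx)]
  have R2 : l * (y₁ + y₂ + (W₀.a₁ : L) * x₁ + (W₀.a₃ : L)) = x₁ ^ 2 + x₁ * x₂ + x₂ ^ 2 +
      (W₀.a₂ : L) * (x₁ + x₂) + (W₀.a₄ : L) - (W₀.a₁ : L) * y₂ := by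
    by_cases hx : x₁ = x₂
    · subst hx
      have hy : y₁ ≠ (genFibre W₀).negY x₁ y₂ := fun e => hc ⟨rfl, e⟩
      obtain rfl : y₁ = y₂ := Affine.Y_eq_of_Y_ne h₁.1 h₂.1 rfl hy
      have hl' : l * (y₁ - (genFibre W₀).negY x₁ y₁) =
          3 * x₁ ^ 2 + 2 * (genFibre W₀).a₂ * x₁ + (genFibre W₀).a₄
            - (genFibre W₀).a₁ * y₁ := by
        rw [hl, Affine.slope_of_Y_ne rfl hy, div_mul_cancel₀ _ (sub_ne_zero.2 hy)]
      simp only [Affine.negY, map_a₁, map_a₂, map_a₃, map_a₄, ValuationSubring.subtype_apply]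
        at hl'
      linear_combination hl'
    · have e₁ := (Affine.equation_iff _ _).1 h₁.1
      have e₂ := (Affine.equation_iff _ _).1 h₂.1
      simp only [map_a₁, map_a₂, map_a₃, map_a₄, map_a₆, ValuationSubring.subtype_apply]
        at e₁ e₂
      refine mul_left_cancel₀ (sub_ne_zero.2 hx) ?_
      linear_combination (y₁ + y₂ + (W₀.a₁ : L) * x₁ + (W₀.a₃ : L)) * R1 + e₁ - e₂
  have hlm : l ∈ A := by
    refine mem_of_sq_add_mul_mem W₀.a₁ ?_
    have : l ^ 2 + (W₀.a₁ : L) * l =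
        (genFibre W₀).addX x₁ x₂ l + (W₀.a₂ : L) + x₁ + x₂ := by
      simp only [Affine.addX, map_a₁, map_a₂, ValuationSubring.subtype_apply]; ring
    rw [this]
    exact add_mem (add_mem (add_mem hx₃ W₀.a₂.2) hx₁) hx₂
  obtain ⟨n₃, e₃⟩ := red_some W₀
    (Affine.nonsingular_add h₁ h₂ hc) hx₃ hy₃
  obtain ⟨n₁, d₁⟩ := red_some W₀ h₁ hx₁ hy₁
  obtain ⟨n₂, d₂⟩ := red_some W₀ h₂ hx₂ hy₂
  rw [e₃, d₁, d₂]
  set X₁ := IsLocalRing.residue A ⟨x₁, hx₁⟩
  set X₂ := IsLocalRing.residue A ⟨x₂, hx₂⟩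
  set Y₁ := IsLocalRing.residue A ⟨y₁, hy₁⟩
  set Y₂ := IsLocalRing.residue A ⟨y₂, hy₂⟩
  set M := IsLocalRing.residue A ⟨l, hlm⟩
  have S1 : M * (X₁ - X₂) = Y₁ - Y₂ := by
    simp only [M, X₁, X₂, Y₁, Y₂, ← map_sub, ← map_mul]
    congr 1; ext; push_cast; exact R1
  have S2 : M * (Y₁ + Y₂ + (clFibre W₀).a₁ * X₁ + (clFibre W₀).a₃) = X₁ ^ 2 + X₁ * X₂ + X₂ ^ 2 +
      (clFibre W₀).a₂ * (X₁ + X₂) + (clFibre W₀).a₄ - (clFibre W₀).a₁ * Y₂ := by
    simp only [map_a₁, map_a₂, map_a₃, map_a₄, M, X₁, X₂, Y₁, Y₂, ← map_sub, ← map_mul, ← map_add,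
      ← map_pow]
    congr 1; ext; push_cast; exact R2
  have hc' : ¬(X₁ = X₂ ∧ Y₁ = (clFibre W₀).negY X₂ Y₂) := by
    rintro ⟨hX, hY⟩
    simp only [Affine.negY] at hY
    obtain ⟨-, k | k⟩ := (Affine.nonsingular_iff _ _).1 n₁
    · apply k
      rw [hX] at S1 S2 ⊢
      rw [sub_self, mul_zero] at S1
      linear_combination (clFibre W₀).a₁ * (sub_eq_zero.mp S1.symm) + S2 - M * hY
    · apply k
      rw [hX] at S1 ⊢
      rw [sub_self, mul_zero] at S1
      linear_combination hY + sub_eq_zero.mp S1.symm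
  have hM : (clFibre W₀).slope X₁ X₂ Y₁ Y₂ = M := by
    by_cases hX : X₁ = X₂
    · have hY : Y₁ ≠ (clFibre W₀).negY X₂ Y₂ := fun e => hc' ⟨hX, e⟩
      rw [Affine.slope_of_Y_ne hX hY]
      have hY' : Y₁ = Y₂ := Affine.Y_eq_of_Y_ne n₁.1 n₂.1 hX hY
      rw [← hX, ← hY'] at hY S2
      rw [div_eq_iff (sub_ne_zero.2 hY)]
      simp only [Affine.negY]
      linear_combination -S2
    · rw [Affine.slope_of_X_ne hX, div_eq_iff (sub_ne_zero.2 hX)]
      exact S1.symm
  rw [Affine.Point.add_some hc']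
  simp only [Affine.Point.some.injEq, hM]
  constructor
  · simp only [M, X₁, X₂, Affine.map_addX]
    exact congrArg _
      (Subtype.ext (Affine.map_addX (f := A.subtype) ⟨x₁, hx₁⟩ ⟨x₂, hx₂⟩ ⟨l, hlm⟩))
  · refine Eq.trans (congrArg (IsLocalRing.residue A) ?_)
      (Affine.map_addY (W' := W₀.toAffine) (f := IsLocalRing.residue A)
        ⟨x₁, hx₁⟩ ⟨y₁, hy₁⟩ ⟨x₂, hx₂⟩ ⟨l, hlm⟩).symm
    exact Subtype.ext
      (Affine.map_addY (W' := W₀.toAffine) (f := A.subtype)
        ⟨x₁, hx₁⟩ ⟨y₁, hy₁⟩ ⟨x₂, hx₂⟩ ⟨l, hlm⟩)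

/-- Reduction on torsion of order invertible in `A`. -/
noncomputable def redTors {n : ℕ} (hn : IsUnit (n : A)) :
    Submodule.torsionBy ℤ (genFibre W₀).Point (n : ℤ) →+
      Submodule.torsionBy ℤ (clFibre W₀).Point (n : ℤ) :=
  let f : Submodule.torsionBy ℤ (genFibre W₀).Point (n : ℤ) →+ (clFibre W₀).Point :=
    { toFun := fun P => red W₀ P.1
      map_zero' := rfl
      map_add' := fun P Q =>
        have hint : ∀ R : Submodule.torsionBy ℤ (genFibre W₀).Point (n : ℤ), IsInt R.1 := fun R =>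
          isInt_of_nsmul_eq_zero hn
            (by rw [← natCast_zsmul]; exact (Submodule.mem_torsionBy_iff _ _).1 R.2)
        red_add W₀ (hint P) (hint Q) (hint (P + Q)) }
  f.codRestrict _ fun P => (Submodule.mem_torsionBy_iff _ _).2 <| by
    rw [← map_zsmul f, show (n : ℤ) • P = 0 from Submodule.smul_torsionBy _ P, map_zero]

lemma redTors_apply {n : ℕ} (hn : IsUnit (n : A))
    (P : Submodule.torsionBy ℤ (genFibre W₀).Point (n : ℤ)) :
    ((redTors W₀ hn P : Submodule.torsionBy ℤ (clFibre W₀).Point (n : ℤ)) : (clFibre W₀).Point) =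
      red W₀ P.1 := rfl

lemma redTors_injective {n : ℕ} (hn : IsUnit (n : A)) : Function.Injective (redTors W₀ hn) := by
  rw [injective_iff_map_eq_zero]
  intro P hP
  have := congrArg Subtype.val hP
  rw [redTors_apply] at this
  exact Subtype.ext ((red_eq_zero_iff W₀ (isInt_of_nsmul_eq_zero hn
    (by rw [← natCast_zsmul]; exact (Submodule.mem_torsionBy_iff _ _).1 P.2))).1 this)

omit hE [DecidableEq L] [DecidableEq (IsLocalRing.ResidueField A)] in
/-- The residue field of a valuation ring in an algebraically closed field is algebraically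
closed. -/
theorem isAlgClosed_residueField [IsAlgClosed L] (A : ValuationSubring L) :
    IsAlgClosed (IsLocalRing.ResidueField A) := by
  refine IsAlgClosed.of_exists_root _ fun p hp hirr => ?_
  obtain ⟨q, hq, hdeg, hmon⟩ := Polynomial.lifts_and_degree_eq_and_monic
    (f := IsLocalRing.residue A) (p := p)
    ((Polynomial.lifts_iff_coeff_lifts p).mpr fun n => IsLocalRing.residue_surjective _) hp
  have hd : (q.map (algebraMap A L)).degree ≠ 0 := by
    rw [hmon.degree_map, hdeg]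
    exact (Polynomial.degree_pos_of_irreducible hirr).ne'
  obtain ⟨z, hz⟩ := IsAlgClosed.exists_root _ hd
  obtain ⟨b, hb⟩ := IsIntegrallyClosed.isIntegral_iff.mp
    (show IsIntegral A z from ⟨q, hmon, by rwa [Polynomial.IsRoot.def, Polynomial.eval_map] at hz⟩)
  refine ⟨IsLocalRing.residue A b, ?_⟩
  rw [← hq, Polynomial.eval_map, Polynomial.eval₂_at_apply,
    show q.eval b = 0 from ?_, map_zero]
  apply Subtype.val_injective
  rw [Polynomial.IsRoot.def, Polynomial.eval_map, ← hb, Polynomial.eval₂_at_apply] at hz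
  exact hz

end Reduction

section Rat

local notation "Qb" => AlgebraicClosure ℚ

variable (W : WeierstrassCurve ℤ)

/-- Reduction at a place over a prime of good reduction identifies the `p`-torsion over `ℚ̄`, with
a Frobenius element acting, with the `p`-torsion of the reduced curve over the residue field with
the Frobenius automorphism acting. -/
theorem exists_torsion_reduction (ℓ p : ℕ) [Fact ℓ.Prime] [Fact p.Prime] (hlp : ℓ ≠ p)
    (hgood : W.IsGoodPrimeFor ℓ) (A : ValuationSubring Qb) (σ : Qb ≃ₐ[ℚ] Qb)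
    (hA : A.LiesOverPrime ℓ) (hσ : A.IsFrobeniusAt σ ℓ) :
    ∃ (k : Type) (_ : Field k) (_ : Algebra (ZMod ℓ) k) (_ : DecidableEq k) (_ : IsAlgClosed k)
      (τ : k ≃ₐ[ZMod ℓ] k), (∀ x : k, τ x = x ^ ℓ) ∧ (p : k) ≠ 0 ∧ (W.reductionMod ℓ).IsElliptic ∧
      ∃ e : Submodule.torsionBy ℤ
          ((W.map (Int.castRingHom ℚ))⁄Qb).Point (p : ℤ) ≃ₗ[ZMod p]
          Submodule.torsionBy ℤ ((W.reductionMod ℓ)⁄k).Point (p : ℤ),
        ∀ x, e (σ • x) = τ • e x := by
  classical
  let k := IsLocalRing.ResidueField A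
  have hℓ : ℓ.Prime := Fact.out
  have hp : p.Prime := Fact.out
  have hchar : CharP k ℓ := Frobenius.residueField_charP hℓ hA
  let _ : Algebra (ZMod ℓ) k := ZMod.algebra k ℓ
  have : IsAlgClosed k := Reduction.isAlgClosed_residueField A
  obtain ⟨hσd, hσx⟩ := hσ
  let τ₀ : k ≃+* k := MulSemiringAction.toRingEquiv _ k (⟨σ, hσd⟩ : A.decompositionSubgroup ℚ)
  have hτ₀ : ∀ x : k, τ₀ x = x ^ ℓ := hσx
  let τ : k ≃ₐ[ZMod ℓ] k := AlgEquiv.ofRingEquiv (f := τ₀) fun r => by
    rw [hτ₀, ← map_pow, ZMod.pow_card]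
  have hpk : (p : k) ≠ 0 := by
    rw [Ne, CharP.cast_eq_zero_iff k ℓ, Nat.prime_dvd_prime_iff_eq hℓ hp]
    exact hlp
  have hpA : IsUnit (p : A) := by
    rw [← IsLocalRing.residue_ne_zero_iff_isUnit, map_natCast]
    exact hpk
  have hΔ : (W.reductionMod ℓ).IsElliptic := by
    refine ⟨isUnit_iff_ne_zero.mpr ?_⟩
    simp only [WeierstrassCurve.reductionMod, map_Δ, eq_intCast]
    rwa [Ne, ZMod.intCast_zmod_eq_zero_iff_dvd]
  have hE : (W.map (Int.castRingHom ℚ)).IsElliptic := by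
    refine ⟨isUnit_iff_ne_zero.mpr ?_⟩
    simp only [map_Δ, eq_intCast, Int.cast_ne_zero]
    intro h0
    exact hgood (h0 ▸ dvd_zero _)
  let W₀ : WeierstrassCurve A := W.map (Int.castRingHom A)
  have hL : ((W.map (Int.castRingHom ℚ))⁄Qb : WeierstrassCurve.Affine Qb) =
      Reduction.genFibre W₀ := by
    show (W.map _).map _ = (W.map _).map _
    rw [WeierstrassCurve.map_map, WeierstrassCurve.map_map]
    exact congrArg _ (RingHom.ext_int _ _)
  have hK : Reduction.clFibre W₀ = ((W.reductionMod ℓ)⁄k : WeierstrassCurve.Affine k) := by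
    show (W.map _).map _ = (W.map _).map _
    rw [WeierstrassCurve.map_map, WeierstrassCurve.map_map]
    exact congrArg _ (RingHom.ext_int _ _)
  have hKE : ((W.reductionMod ℓ)⁄k).IsElliptic :=
    EllTorsion.isElliptic_affine_baseChange (W.reductionMod ℓ) k
  have : (Reduction.clFibre W₀).IsElliptic := hK ▸ hKE
  -- the maps
  let gL : Submodule.torsionBy ℤ ((W.map (Int.castRingHom ℚ))⁄Qb).Point (p : ℤ) →+
      Submodule.torsionBy ℤ (Reduction.genFibre W₀).Point (p : ℤ) :=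
    ((EllTorsion.pointCongr hL).toAddMonoidHom.comp
      (Submodule.torsionBy ℤ ((W.map (Int.castRingHom ℚ))⁄Qb).Point
        (p : ℤ)).subtype.toAddMonoidHom).codRestrict _ fun P => by
      show EllTorsion.pointCongr hL P.1 ∈ Submodule.torsionBy ℤ _ _
      rw [Submodule.mem_torsionBy_iff, ← map_zsmul, (Submodule.mem_torsionBy_iff _ _).1 P.2,
        map_zero]
  let gK : Submodule.torsionBy ℤ (Reduction.clFibre W₀).Point (p : ℤ) →+
      Submodule.torsionBy ℤ ((W.reductionMod ℓ)⁄k).Point (p : ℤ) :=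
    ((EllTorsion.pointCongr hK).toAddMonoidHom.comp
      (Submodule.torsionBy ℤ (Reduction.clFibre W₀).Point
        (p : ℤ)).subtype.toAddMonoidHom).codRestrict _ fun P => by
      show EllTorsion.pointCongr hK P.1 ∈ Submodule.torsionBy ℤ _ _
      rw [Submodule.mem_torsionBy_iff, ← map_zsmul, (Submodule.mem_torsionBy_iff _ _).1 P.2,
        map_zero]
  let f : Submodule.torsionBy ℤ ((W.map (Int.castRingHom ℚ))⁄Qb).Point (p : ℤ) →+
      Submodule.torsionBy ℤ ((W.reductionMod ℓ)⁄k).Point (p : ℤ) :=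
    gK.comp ((Reduction.redTors W₀ hpA).comp gL)
  have hf : ∀ P, (f P).1 =
      EllTorsion.pointCongr hK (Reduction.red W₀ (EllTorsion.pointCongr hL P.1)) := fun P => rfl
  have hinj : Function.Injective f := by
    intro P Q h
    have h1 := (EllTorsion.pointCongr hK).injective (congrArg Subtype.val h)
    have h2 := Reduction.redTors_injective W₀ hpA (Subtype.ext h1)
    exact Subtype.ext ((EllTorsion.pointCongr hL).injective (congrArg Subtype.val h2))
  have hcard1 : Nat.card (Submodule.torsionBy ℤ ((W.map (Int.castRingHom ℚ))⁄Qb).Point (p : ℤ))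
      = p ^ 2 := EllTorsion.natCard_torsionBy_rat _ hp.ne_zero
  have hcard2 : Nat.card (Submodule.torsionBy ℤ ((W.reductionMod ℓ)⁄k).Point (p : ℤ)) = p ^ 2 :=
    EllTorsion.natCard_torsionBy_baseChange _ k p hpk
  have : Finite (Submodule.torsionBy ℤ ((W.reductionMod ℓ)⁄k).Point (p : ℤ)) :=
    Nat.finite_of_card_ne_zero (hcard2 ▸ pow_ne_zero 2 hp.ne_zero)
  have hbij : Function.Bijective f := hinj.bijective_of_nat_card_le (by rw [hcard1, hcard2])
  refine ⟨k, inferInstance, inferInstance, inferInstance, inferInstance, τ, hτ₀, hpk, hΔ,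
    LinearEquiv.ofBijective (f.toZModLinearMap p) hbij, fun x => ?_⟩
  apply Subtype.ext
  show (f (σ • x)).1 = τ • (f x).1
  rw [hf, hf]
  obtain ⟨P, hP⟩ := x
  show EllTorsion.pointCongr hK (Reduction.red W₀ (EllTorsion.pointCongr hL (σ • P))) = _
  rcases P with _ | ⟨x, y, h⟩
  · show EllTorsion.pointCongr hK (Reduction.red W₀ (EllTorsion.pointCongr hL
      (σ • (0 : ((W.map (Int.castRingHom ℚ))⁄Qb).Point)))) =
      τ • EllTorsion.pointCongr hK (Reduction.red W₀ (EllTorsion.pointCongr hL 0))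
    rw [show σ • (0 : ((W.map (Int.castRingHom ℚ))⁄Qb).Point) = 0 from rfl, map_zero]
    show EllTorsion.pointCongr hK 0 = τ • EllTorsion.pointCongr hK 0
    rw [map_zero]
    rfl
  · obtain ⟨h', he⟩ := EllTorsion.smul_some σ h
    have hint : Reduction.IsInt (EllTorsion.pointCongr hL (Affine.Point.some x y h)) :=
      Reduction.isInt_of_nsmul_eq_zero hpA (by
        rw [← map_nsmul, ← natCast_zsmul, (Submodule.mem_torsionBy_iff _ _).1 hP, map_zero])
    rw [EllTorsion.pointCongr_some] at hint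
    obtain ⟨hx, hy⟩ := hint
    have hmem : ∀ z ∈ A, σ z ∈ A := fun z hz => by
      have h1 := ValuationSubring.smul_mem_pointwise_smul σ z A hz
      have h2 : σ • A = A := hσd
      rw [h2] at h1
      exact h1
    have key : ∀ (z : Qb) (hz : z ∈ A), IsLocalRing.residue A ⟨σ z, hmem z hz⟩ =
        τ (IsLocalRing.residue A ⟨z, hz⟩) := fun z hz => rfl
    show _ = τ • EllTorsion.pointCongr hK
      (Reduction.red W₀ (EllTorsion.pointCongr hL (Affine.Point.some x y h)))
    rw [he, EllTorsion.pointCongr_some, EllTorsion.pointCongr_some]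
    obtain ⟨n1, r1⟩ := Reduction.red_some W₀ (hL ▸ h' : (Reduction.genFibre W₀).Nonsingular _ _)
      (hmem x hx) (hmem y hy)
    obtain ⟨n2, r2⟩ := Reduction.red_some W₀ (hL ▸ h : (Reduction.genFibre W₀).Nonsingular _ _)
      hx hy
    rw [r1, r2, EllTorsion.pointCongr_some, EllTorsion.pointCongr_some]
    obtain ⟨n3, r3⟩ := EllTorsion.smul_some (W := W.reductionMod ℓ) τ (hK ▸ n2)
    rw [r3]
    simp only [Affine.Point.some.injEq]
    exact ⟨key x hx, key y hy⟩

end Rat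

end Fermat.Agent.EllFrobenius
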