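import Fermat.Agent.EllFrobenius.FrobPoint
import Fermat.Agent.EllFrobenius.Parallelogram

/-!
# Frobenius satisfies its quadratic relation
-/

set_option autoImplicit false

open Polynomial
open scoped WeierstrassCurve.Affine

universe r u

namespace Fermat.Agent.EllFrobenius

open WeierstrassCurve WeierstrassCurve.Affine

/-- The quadratic expression `φ²x - t φx + q x`. -/
def relExpr {A : Type*} [AddCommGroup A] (φ : A →+ A) (t n : ℤ) (x : A) : A :=
  φ (φ x) - t • φ x + n • x

lemma relExpr_add {A : Type*} [AddCommGroup A] (φ : A →+ A) (t n : ℤ) (x y : A) :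
    relExpr φ t n (x + y) = relExpr φ t n x + relExpr φ t n y := by
  simp only [relExpr, map_add, zsmul_add]
  abel

lemma relExpr_map {A B : Type*} [AddCommGroup A] [AddCommGroup B] (φ : A →+ A) (ψ : B →+ B)
    (h : A →+ B) (hc : ∀ x, h (φ x) = ψ (h x)) (t n : ℤ) (x : A) :
    h (relExpr φ t n x) = relExpr ψ t n (h x) := by
  simp only [relExpr, map_add, map_sub, map_zsmul, hc]

variable {k : Type r} [Field k] [Fintype k] (W : WeierstrassCurve.Affine k) [W.IsElliptic]
  (K : Type u) [Field K] [Algebra k K] [IsAlgClosed K] [DecidableEq (FF W K)] [DecidableEq K]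

local notation "q" => Fintype.card k

/-- Frobenius on points over the function field. -/
noncomputable abbrev frobL : (W⁄(FF W K)).toAffine.Point →+ (W⁄(FF W K)).toAffine.Point :=
  Affine.Point.map (W' := W) (FiniteField.frobeniusAlgHom k (FF W K))

omit [W.IsElliptic] [IsAlgClosed K] [DecidableEq K] in
lemma map_frobL (f : FF W K →ₐ[K] FF W K) (P : (W⁄(FF W K)).toAffine.Point) :
    Affine.Point.map (W' := W) f (frobL W K P) = frobL W K (Affine.Point.map (W' := W) f P) := by
  rcases P with _ | ⟨a, b, h⟩
  · rfl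
  · simp only [frobL, Affine.Point.map_some, 
      FiniteField.coe_frobeniusAlgHom, map_pow]

omit [W.IsElliptic] [IsAlgClosed K] in
lemma frobL_cpt (T : (W⁄K).toAffine.Point) :
    frobL W K (cpt W K T) =
      cpt W K (Affine.Point.map (W' := W) (FiniteField.frobeniusAlgHom k K) T) := by
  rcases T with _ | ⟨a, b, h⟩
  · rfl
  · simp only [frobL, cpt, Affine.Point.baseChange, Affine.Point.map_some,
      FiniteField.coe_frobeniusAlgHom, map_pow]

omit [IsAlgClosed K] [DecidableEq K] in
lemma frobL_mem_oddPts {P : (W⁄(FF W K)).toAffine.Point} (hP : P ∈ oddPts W K) :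
    frobL W K P ∈ oddPts W K := by
  show Affine.Point.map (W' := W) (conjL W K) (frobL W K P) = -frobL W K P
  rw [map_frobL, show Affine.Point.map (W' := W) (conjL W K) P = -P from hP, map_neg]

omit [W.IsElliptic] [IsAlgClosed K] [DecidableEq K] in
lemma HasHt.frobL {P : (W⁄(FF W K)).toAffine.Point} {d : ℕ} (hP : HasHt W K P d) :
    HasHt W K (frobL W K P) (q * d) := by
  obtain ⟨v, c, hc, hv, e⟩ := hP
  refine ⟨fun i => v i ^ q, c ^ q, pow_ne_zero _ hc, hv.pow Fintype.card_ne_zero, fun i => ?_⟩
  have hrep : (Fermat.Agent.EllFrobenius.frobL W K P).xRep i = P.xRep i ^ q := by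
    rcases P with _ | ⟨a, b, h⟩
    · rw [← Affine.Point.zero_def, map_zero]
      fin_cases i <;> simp
    · simp only [Fermat.Agent.EllFrobenius.frobL, Affine.Point.map_some]
      fin_cases i <;> simp
  rw [map_pow, e, hrep, mul_pow]

/-- The relation for the generic point. -/
theorem frobL_relation_genPt :
    frobL W K (frobL W K (genPt W K)) - W.traceOfFrobenius • frobL W K (genPt W K) +
      (q : ℤ) • genPt W K = 0 := by
  classical
  set g := genPt W K
  set f := ht W K with hf
  have hpar : IsParallelogram f := ht_parallelogram W K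
  let P : oddPts W K := ⟨g, genPt_mem_oddPts W K⟩
  let F : oddPts W K := ⟨frobL W K g, frobL_mem_oddPts W K P.2⟩
  let F2 : oddPts W K := ⟨frobL W K (frobL W K g), frobL_mem_oddPts W K F.2⟩
  have fP : f P = 1 := ht_eq W K (P := P) (hasHt_genPt W K)
  have fF : f F = q := (ht_eq W K (P := F) (hasHt_genPt W K).frobL).trans (by simp)
  have fF2 : f F2 = (q : ℤ) ^ 2 :=
    (ht_eq W K (P := F2) (hasHt_genPt W K).frobL.frobL).trans (by push_cast; ring)
  set t := polarZ f F P with ht'
  have fsub : f (F - P) = Nat.card W.Point := by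
    refine ht_eq W K (P := F - P) ?_
    exact hasHt_frobSubOne W K
  have hFmP : f (F - P) = q + 1 - t := by
    rw [sub_eq_add_neg, hpar.apply_add, hpar.apply_neg, fF, fP,
      ← neg_one_zsmul P, hpar.polarZ_zsmul_right]
    rw [← ht']
    ring
  have htr : W.traceOfFrobenius = t := by
    rw [WeierstrassCurve.traceOfFrobenius, WeierstrassCurve.card, Nat.card_eq_fintype_card (α := k)]
    show (q : ℤ) + 1 - Nat.card W.Point = t
    rw [← fsub, hFmP]
    ring
  have hFaP : f (F + P) = q + 1 + t := by rw [hpar.apply_add, fF, fP]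
  have hF2F : polarZ f F2 F = q * t := by
    obtain ⟨d, ed, hd⟩ := ht_spec W K (F + P)
    have h2 : f (F2 + F) = q * d := by
      refine (ht_eq W K (P := F2 + F) (d := q * d) ?_).trans (by push_cast; rfl)
      have e : (F2 + F : oddPts W K).1 = frobL W K (F + P).1 := (map_add (frobL W K) _ _).symm
      rw [e]
      exact hd.frobL
    have h3 : f (F + P) = d := ed
    have h1 := hpar.apply_add F2 F
    rw [fF2, fF, h2] at h1
    rw [hFaP] at h3
    linear_combination (-1 : ℤ) * h1 - (q : ℤ) * h3
  have hpos : f (F + P) ≠ 0 := by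
    obtain ⟨U, hU, -⟩ := exists_frobNum_polyC W K
    have hle : ∑ a : k, fibreCard W a ≤ 2 * q := by
      refine (Finset.sum_le_card_nsmul _ _ 2 fun a _ => (local_dvd W K a hU).1).trans ?_
      rw [Finset.card_univ, smul_eq_mul, mul_comm]
    have hc := card_point_eq W
    rw [hFaP]
    rw [hFmP] at fsub
    omega
  have hgen := not_mem_range_cpt_of_ht_ne_zero W K hpos
  have hF2P : polarZ f F2 P = t ^ 2 - 2 * q := by
    obtain ⟨a, ea, ha⟩ := ht_spec W K (F - P)
    obtain ⟨b, eb, hb⟩ := ht_spec W K (F + P)
    have hmap := ha.substPt W K hb hgen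
    have e : Affine.Point.map (W' := W) (substPt W K (F + P).1) (F - P).1 = (F2 - P).1 := by
      show Affine.Point.map (W' := W) (substPt W K (frobL W K g + g)) (frobL W K g - g) =
        frobL W K (frobL W K g) - g
      have hS : Affine.Point.map (W' := W) (substPt W K (frobL W K g + g)) g = frobL W K g + g :=
        substPt_genPt W K hgen
      rw [map_sub, map_frobL, hS, map_add]
      abel
    rw [e] at hmap
    have h1 : f (F2 - P) = a * b := (ht_eq W K (P := F2 - P) hmap).trans (by push_cast; rfl)
    have ea' : f (F - P) = a := ea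
    have eb' : f (F + P) = b := eb
    rw [← ea', ← eb', hFmP, hFaP] at h1
    rw [sub_eq_add_neg, hpar.apply_add, hpar.apply_neg, fF2, fP, ← neg_one_zsmul P,
      hpar.polarZ_zsmul_right] at h1
    linear_combination -h1
  set r : oddPts W K := F2 + (-t) • F + (q : ℤ) • P with hr
  have fr : f r = 0 := by
    rw [hr, hpar.apply_add, hpar.apply_add, hpar.apply_zsmul, hpar.apply_zsmul, fF2, fF, fP,
      hpar.polarZ_add_left, hpar.polarZ_zsmul_right, hpar.polarZ_zsmul_right,
      hpar.polarZ_zsmul_right, hpar.polarZ_zsmul_left, hF2F, hF2P, ← ht']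
    ring
  have hrval : r.1 = frobL W K (frobL W K g) - t • frobL W K g + (q : ℤ) • g := by
    simp only [hr, AddSubgroup.coe_add, AddSubgroup.coe_zsmul, neg_zsmul, sub_eq_add_neg,
      AddSubgroup.coe_neg, P, F, F2]
  rw [htr, ← hrval]
  obtain ⟨d, ed, hd⟩ := ht_spec W K r
  have hd0 : d = 0 := by
    have : f r = d := ed
    omega
  obtain ⟨T, hT⟩ := mem_range_cpt_of_hasHt_zero W K (hd0 ▸ hd)
  have h2 : f (P + P) = 4 := by rw [hpar.apply_add, fP, hpar.polarZ_self, fP]; norm_num
  have hgen2 := not_mem_range_cpt_of_ht_ne_zero W K (P := P + P) (by rw [← hf, h2]; norm_num)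
  have hS2 : Affine.Point.map (W' := W) (substPt W K (g + g)) g = g + g :=
    substPt_genPt W K hgen2
  have key : Affine.Point.map (W' := W) (substPt W K (g + g)) r.1 = r.1 + r.1 := by
    rw [hrval]
    have h1 := relExpr_map (frobL W K) (frobL W K)
      (Affine.Point.map (W' := W) (substPt W K (g + g))) (map_frobL W K _) t (q : ℤ) g
    rw [hS2, relExpr_add] at h1
    exact h1
  rw [← hT, map_cpt] at key
  rw [← hT]
  exact left_eq_add.mp key

/-- The relation for every point over `K`. -/
theorem frobenius_relation_map (T : (W⁄K).toAffine.Point) :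
    Affine.Point.map (W' := W) (FiniteField.frobeniusAlgHom k K)
        (Affine.Point.map (W' := W) (FiniteField.frobeniusAlgHom k K) T) -
      W.traceOfFrobenius • Affine.Point.map (W' := W) (FiniteField.frobeniusAlgHom k K) T +
      (q : ℤ) • T = 0 := by
  have h0 : relExpr (frobL W K) W.traceOfFrobenius (q : ℤ) (genPt W K) = 0 :=
    frobL_relation_genPt W K
  have h1 := relExpr_map (frobL W K) (frobL W K)
    (Affine.Point.map (W' := W) (transl W K T)) (map_frobL W K _) W.traceOfFrobenius (q : ℤ)
    (genPt W K)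
  have h2 := relExpr_map (Affine.Point.map (W' := W) (FiniteField.frobeniusAlgHom k K))
    (frobL W K) (cpt W K) (fun x => (frobL_cpt W K x).symm) W.traceOfFrobenius (q : ℤ) T
  rw [h0, map_zero, transl_genPt, relExpr_add, h0, zero_add, ← h2] at h1
  exact Affine.Point.map_injective (W' := W) (Algebra.ofId K (FF W K))
    (h1.symm.trans (map_zero (cpt W K)).symm)

end Fermat.Agent.EllFrobenius
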