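import Fermat.Agent.EllFrobenius.Pairing

/-!
# Galois equivariance of the Weil pairing
-/

set_option autoImplicit false

open Polynomial
open scoped Polynomial.Bivariate WeierstrassCurve.Affine

universe r u

namespace Fermat.Agent.EllFrobenius

open WeierstrassCurve WeierstrassCurve.Affine

variable {R : Type r} [CommRing R] (W' : WeierstrassCurve.Affine R)
  (K : Type u) [Field K] [Algebra R K]

/-- The action of an automorphism of the constants on the coordinate ring. -/
noncomputable def conjCR (σ : K ≃ₐ[R] K) :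
    (W'⁄K).toAffine.CoordinateRing →+* (W'⁄K).toAffine.CoordinateRing :=
  AdjoinRoot.lift ((polyC (W'⁄K).toAffine).comp (Polynomial.mapRingHom (σ : K →+* K))) (yC _) (by
    show eval₂ _ (yC _) (Y ^ 2 + C (C (W'⁄K).a₁ * X + C (W'⁄K).a₃) * Y -
      C (X ^ 3 + C (W'⁄K).a₂ * X ^ 2 + C (W'⁄K).a₄ * X + C (W'⁄K).a₆)) = 0
    have e1 : σ (W'⁄K).a₁ = (W'⁄K).a₁ := σ.commutes _
    have e2 : σ (W'⁄K).a₂ = (W'⁄K).a₂ := σ.commutes _
    have e3 : σ (W'⁄K).a₃ = (W'⁄K).a₃ := σ.commutes _
    have e4 : σ (W'⁄K).a₄ = (W'⁄K).a₄ := σ.commutes _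
    have e6 : σ (W'⁄K).a₆ = (W'⁄K).a₆ := σ.commutes _
    simp only [eval₂_add, eval₂_sub, eval₂_mul, eval₂_pow, eval₂_X, eval₂_C, RingHom.comp_apply,
      map_add, map_mul, map_pow, coe_mapRingHom, Polynomial.map_C, Polynomial.map_X,
      RingHom.coe_coe, e1, e2, e3, e4, e6, polyC_C, polyC_X]
    linear_combination coordRing_equation (W'⁄K).toAffine)

lemma conjCR_polyC (σ : K ≃ₐ[R] K) (p : K[X]) :
    conjCR W' K σ (polyC _ p) = polyC _ (p.map (σ : K →+* K)) := by
  rw [conjCR, polyC_apply, AdjoinRoot.lift_mk, eval₂_C]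
  rfl

lemma conjCR_cC (σ : K ≃ₐ[R] K) (c : K) : conjCR W' K σ (cC _ c) = cC _ (σ c) := by
  rw [← polyC_C, conjCR_polyC, Polynomial.map_C, polyC_C]
  rfl

lemma conjCR_xC (σ : K ≃ₐ[R] K) : conjCR W' K σ (xC _) = xC _ := by
  rw [← polyC_X, conjCR_polyC, Polynomial.map_X]

lemma conjCR_yC (σ : K ≃ₐ[R] K) : conjCR W' K σ (yC _) = yC _ := by
  exact AdjoinRoot.lift_root _

lemma conjCR_conjCR (σ : K ≃ₐ[R] K) (a : (W'⁄K).toAffine.CoordinateRing) :
    conjCR W' K σ.symm (conjCR W' K σ a) = a := by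
  have : (conjCR W' K σ.symm).comp (conjCR W' K σ) = RingHom.id _ := by
    refine coordRing_hom_ext W' K (fun c => ?_) ?_ ?_
    · rw [RingHom.comp_apply, conjCR_cC, conjCR_cC, AlgEquiv.symm_apply_apply]
      rfl
    · rw [RingHom.comp_apply, conjCR_xC, conjCR_xC]; rfl
    · rw [RingHom.comp_apply, conjCR_yC, conjCR_yC]; rfl
  exact DFunLike.congr_fun this a

lemma dg_conjCR_le (σ : K ≃ₐ[R] K) (a : (W'⁄K).toAffine.CoordinateRing) :
    dg _ (conjCR W' K σ a) ≤ dg _ a := by
  obtain ⟨p, q, rfl⟩ := exists_repr _ a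
  obtain ⟨hp, hq⟩ := (dg_le_iff _ p q _).mp le_rfl
  rw [map_add, map_mul, conjCR_polyC, conjCR_polyC, conjCR_yC, dg_le_iff]
  refine ⟨(Nat.mul_le_mul_left 2 natDegree_map_le).trans hp, fun hne => ?_⟩
  have hq0 : q ≠ 0 := fun e => hne (by rw [e, Polynomial.map_zero])
  have h := natDegree_map_le (f := (σ : K →+* K)) (p := q)
  have := hq hq0
  omega

lemma toFF_comp_conjCR_injective (σ : K ≃ₐ[R] K) :
    Function.Injective ((toFF W' K).toRingHom.comp (conjCR W' K σ)) :=
  (toFF_injective W' K).comp (Function.LeftInverse.injective (conjCR_conjCR W' K σ))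

/-- The action on the function field, as a ring homomorphism. -/
noncomputable def conjFFHom (σ : K ≃ₐ[R] K) : FF W' K →+* FF W' K :=
  IsFractionRing.lift (toFF_comp_conjCR_injective W' K σ)

lemma conjFFHom_toFF (σ : K ≃ₐ[R] K) (a : (W'⁄K).toAffine.CoordinateRing) :
    conjFFHom W' K σ (toFF W' K a) = toFF W' K (conjCR W' K σ a) :=
  IsFractionRing.lift_algebraMap (toFF_comp_conjCR_injective W' K σ) a

/-- The action of an automorphism of the constants on the function field. -/
noncomputable def conjFF (σ : K ≃ₐ[R] K) : FF W' K →ₐ[R] FF W' K :=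
  { conjFFHom W' K σ with
    commutes' := fun r => by
      show conjFFHom W' K σ (algebraMap R (FF W' K) r) = algebraMap R (FF W' K) r
      have h : algebraMap R (FF W' K) r = toFF W' K (cC _ (algebraMap R K r)) := by
        rw [toFF_cC]
        exact IsScalarTower.algebraMap_apply R K (FF W' K) r
      rw [h, conjFFHom_toFF, conjCR_cC, σ.commutes] }

lemma conjFF_toFF (σ : K ≃ₐ[R] K) (a : (W'⁄K).toAffine.CoordinateRing) :
    conjFF W' K σ (toFF W' K a) = toFF W' K (conjCR W' K σ a) :=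
  conjFFHom_toFF W' K σ a

lemma conjFF_cL (σ : K ≃ₐ[R] K) (c : K) : conjFF W' K σ (cL W' K c) = cL W' K (σ c) := by
  rw [← toFF_cC, conjFF_toFF, conjCR_cC, toFF_cC]

lemma conjFF_xL (σ : K ≃ₐ[R] K) : conjFF W' K σ (xL W' K) = xL W' K := by
  rw [xL, conjFF_toFF, conjCR_xC]

lemma conjFF_yL (σ : K ≃ₐ[R] K) : conjFF W' K σ (yL W' K) = yL W' K := by
  rw [yL, conjFF_toFF, conjCR_yC]

lemma conjFF_mem_VL_iff (σ : K ≃ₐ[R] K) {n : ℕ} {z : FF W' K} :
    z ∈ VL W' K n → conjFF W' K σ z ∈ VL W' K n := by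
  intro hz
  obtain ⟨a, ha, rfl⟩ := (mem_VL W' K).mp hz
  exact (mem_VL W' K).mpr ⟨_, (dg_conjCR_le W' K σ a).trans ha, (conjFF_toFF W' K σ a).symm⟩

variable [hE : (W'⁄K).IsElliptic] [DecidableEq (FF W' K)] [DecidableEq K]

omit hE in
lemma conjFF_cpt (σ : K ≃ₐ[R] K) (P : (W'⁄K).toAffine.Point) :
    Affine.Point.map (W' := W') (conjFF W' K σ) (cpt W' K P) =
      cpt W' K (Affine.Point.map (W' := W') σ.toAlgHom P) := by
  rcases P with _ | ⟨a, b, h⟩
  · rfl
  · simp only [cpt, Affine.Point.baseChange, Affine.Point.map_some, Affine.Point.some.injEq]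
    exact ⟨conjFF_cL W' K σ a, conjFF_cL W' K σ b⟩

omit hE [DecidableEq K] in
lemma map_restrictScalars_eq (f : FF W' K →ₐ[K] FF W' K) (P : (W'⁄(FF W' K)).toAffine.Point) :
    Affine.Point.map (W' := W') (f.restrictScalars R) P = Affine.Point.map (W' := W') f P := by
  rcases P with _ | ⟨a, b, h⟩ <;> rfl

variable [IsAlgClosed K]

lemma conjFF_transl (σ : K ≃ₐ[R] K) (T : (W'⁄K).toAffine.Point) (z : FF W' K) :
    conjFF W' K σ (transl W' K T z) =
      transl W' K (Affine.Point.map (W' := W') σ.toAlgHom T) (conjFF W' K σ z) := by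
  set T' := Affine.Point.map (W' := W') σ.toAlgHom T with hT'
  obtain ⟨h1, e⟩ := genPt_eq W' K
  have hfix : Affine.Point.map (W' := W') (conjFF W' K σ) (genPt W' K) = genPt W' K := by
    rw [e, Affine.Point.map_some, Affine.Point.some.injEq]
    exact ⟨conjFF_xL W' K σ, conjFF_yL W' K σ⟩
  have hpt : Affine.Point.map (W' := W')
        ((conjFF W' K σ).comp ((transl W' K T).restrictScalars R)) (genPt W' K) =
      Affine.Point.map (W' := W')
        (((transl W' K T').restrictScalars R).comp (conjFF W' K σ)) (genPt W' K) := by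
    have el : Affine.Point.map (W' := W') ((transl W' K T).restrictScalars R) (genPt W' K) =
        genPt W' K + cpt W' K T :=
      (map_restrictScalars_eq W' K (transl W' K T) (genPt W' K)).trans (transl_genPt W' K T)
    have er : Affine.Point.map (W' := W') ((transl W' K T').restrictScalars R) (genPt W' K) =
        genPt W' K + cpt W' K T' :=
      (map_restrictScalars_eq W' K (transl W' K T') (genPt W' K)).trans (transl_genPt W' K T')
    have l1 := Affine.Point.map_map ((transl W' K T).restrictScalars R) (conjFF W' K σ) (genPt W' K)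
    have r1 := Affine.Point.map_map (conjFF W' K σ) ((transl W' K T').restrictScalars R) (genPt W' K)
    refine l1.symm.trans (Eq.trans ?_ r1)
    rw [el, hfix, er, map_add, hfix, conjFF_cpt]
  rw [e, Affine.Point.map_some, Affine.Point.map_some, Affine.Point.some.injEq] at hpt
  have h : (conjFF W' K σ).toRingHom.comp (transl W' K T).toRingHom =
      (transl W' K T').toRingHom.comp (conjFF W' K σ).toRingHom := by
    refine ringHom_ext_FF W' K (fun c => ?_) hpt.1 hpt.2
    show conjFF W' K σ (transl W' K T (cL W' K c)) = transl W' K T' (conjFF W' K σ (cL W' K c))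
    rw [AlgHom.commutes, conjFF_cL, AlgHom.commutes]
  exact DFunLike.congr_fun h z

lemma Valid.map {n : ℕ} {T : (W'⁄K).toAffine.Point} {f : FF W' K} (hf : Valid W' K n T f)
    (σ : K ≃ₐ[R] K) :
    Valid W' K n (Affine.Point.map (W' := W') σ.toAlgHom T) (conjFF W' K σ f) := by
  refine ⟨(_root_.map_ne_zero _).mpr hf.1, fun z hz => ?_⟩
  obtain ⟨a, ha, rfl⟩ := (mem_VL W' K).mp hz
  have e : toFF W' K a = conjFF W' K σ (toFF W' K (conjCR W' K σ.symm a)) := by
    rw [conjFF_toFF]
    congr 1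
    exact (conjCR_conjCR W' K σ.symm a).symm
  rw [e, ← conjFF_transl, ← map_mul]
  exact conjFF_mem_VL_iff W' K σ
    (hf.2 _ ((mem_VL W' K).mpr ⟨_, (dg_conjCR_le W' K σ.symm a).trans ha, rfl⟩))

lemma weil_map (σ : K ≃ₐ[R] K) {n : ℕ} {S T : (W'⁄K).toAffine.Point} (hS : n • S = 0)
    (hT : n • T = 0) :
    weil W' K n (Affine.Point.map (W' := W') σ.toAlgHom S)
        (Affine.Point.map (W' := W') σ.toAlgHom T) = σ (weil W' K n S T) := by
  obtain ⟨f, hf⟩ := exists_valid W' K hS
  obtain ⟨g, hg⟩ := exists_valid W' K hT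
  refine weil_eq_of_spec W' K (by rw [← map_nsmul, hS, map_zero]) (by rw [← map_nsmul, hT, map_zero])
    (hf.map W' K σ) (hg.map W' K σ) ?_
  rw [← conjFF_transl, ← conjFF_transl, ← conjFF_cL, ← map_mul, ← map_mul, ← map_mul,
    weil_spec W' K hS hT hf hg]

end Fermat.Agent.EllFrobenius
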