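import Fermat.Agent.EllFrobenius.FuncField

/-!
# Theta operators attached to torsion points

For a point `T` killed by `n` there is a function `f` with `f * (h ∘ τ_T)` in `L(n·O)` for every
`h` in `L(n·O)`; it is unique up to constants.
-/

set_option autoImplicit false

open Polynomial
open scoped Polynomial.Bivariate WeierstrassCurve.Affine

universe r u

namespace Fermat.Agent.EllFrobenius

open WeierstrassCurve WeierstrassCurve.Affine

section CoordRing

variable {K : Type u} [Field K] (W : WeierstrassCurve.Affine K)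

/-- Elements of the coordinate ring with pole order at most `n` at infinity. -/
noncomputable def VC (n : ℕ) : Submodule K W.CoordinateRing where
  carrier := {a | dg W a ≤ n}
  add_mem' := fun {a b} ha hb => (dg_add_le W a b).trans (max_le ha hb)
  zero_mem' := by simp [dg_zero]
  smul_mem' := fun c a ha => by
    show dg W (c • a) ≤ n
    rw [Algebra.smul_def]
    refine (dg_mul_le W _ _).trans ?_
    rw [show algebraMap K W.CoordinateRing c = cC W c from rfl, dg_cC, zero_add]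
    exact ha

/-- `x - x_T`. -/
noncomputable def dx (xT : K) : W.CoordinateRing := xC W - cC W xT

/-- `y - y_T`. -/
noncomputable def dy (yT : K) : W.CoordinateRing := yC W - cC W yT

/-- Numerator of the translated `x`. -/
noncomputable def num2 (xT yT : K) : W.CoordinateRing :=
  dy W yT ^ 2 + cC W W.a₁ * dy W yT * dx W xT - (cC W W.a₂ + xC W + cC W xT) * dx W xT ^ 2

/-- Numerator of the translated `y`. -/
noncomputable def num3 (xT yT : K) : W.CoordinateRing :=
  -(dy W yT * (num2 W xT yT - cC W xT * dx W xT ^ 2)) - cC W yT * dx W xT ^ 3 -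
    cC W W.a₁ * num2 W xT yT * dx W xT - cC W W.a₃ * dx W xT ^ 3

lemma dx_eq_polyC (xT : K) : dx W xT = polyC W (X - C xT) := by
  rw [map_sub, polyC_X, polyC_C]; rfl

lemma dx_ne_zero (xT : K) : dx W xT ≠ 0 := by
  rw [dx_eq_polyC]
  exact (map_ne_zero_iff _ (polyC_injective W)).mpr (X_sub_C_ne_zero xT)

lemma dg_dx (xT : K) : dg W (dx W xT) = 2 := by
  rw [dx_eq_polyC, dg_polyC, natDegree_X_sub_C]

lemma dg_dx_pow (xT : K) (k : ℕ) : dg W (dx W xT ^ k) = 2 * k := by
  rw [dg_pow, dg_dx, mul_comm]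

lemma dx_mem (xT yT : K) : dx W xT ∈ CoordinateRing.XYIdeal W xT (C yT) := by
  apply Ideal.subset_span
  left
  rw [dx_eq_polyC]
  rfl

lemma dy_mem (xT yT : K) : dy W yT ∈ CoordinateRing.XYIdeal W xT (C yT) := by
  apply Ideal.subset_span
  right
  show dy W yT = CoordinateRing.mk W (Y - C (C yT))
  rw [map_sub]
  rfl

lemma num2_mem (xT yT : K) : num2 W xT yT ∈ CoordinateRing.XYIdeal W xT (C yT) ^ 2 := by
  have h1 := dx_mem W xT yT
  have h2 := dy_mem W xT yT
  have hs : dy W yT ^ 2 ∈ CoordinateRing.XYIdeal W xT (C yT) ^ 2 := Ideal.pow_mem_pow h2 2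
  have hd : dx W xT ^ 2 ∈ CoordinateRing.XYIdeal W xT (C yT) ^ 2 := Ideal.pow_mem_pow h1 2
  have hsd : dy W yT * dx W xT ∈ CoordinateRing.XYIdeal W xT (C yT) ^ 2 := by
    rw [sq]; exact Ideal.mul_mem_mul h2 h1
  refine sub_mem (add_mem hs ?_) (Ideal.mul_mem_left _ _ hd)
  rw [mul_assoc]
  exact Ideal.mul_mem_left _ _ hsd

lemma num3_mem (xT yT : K) : num3 W xT yT ∈ CoordinateRing.XYIdeal W xT (C yT) ^ 3 := by
  have h1 := dx_mem W xT yT
  have h2 := dy_mem W xT yT
  have hn := num2_mem W xT yT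
  have hd : dx W xT ^ 3 ∈ CoordinateRing.XYIdeal W xT (C yT) ^ 3 := Ideal.pow_mem_pow h1 3
  have hd2 : dx W xT ^ 2 ∈ CoordinateRing.XYIdeal W xT (C yT) ^ 2 := Ideal.pow_mem_pow h1 2
  refine sub_mem (sub_mem (sub_mem (neg_mem ?_) (Ideal.mul_mem_left _ _ hd)) ?_)
    (Ideal.mul_mem_left _ _ hd)
  · rw [show (3 : ℕ) = 1 + 2 from rfl, pow_add, pow_one]
    exact Ideal.mul_mem_mul h2 (sub_mem hn (Ideal.mul_mem_left _ _ hd2))
  · rw [show (3 : ℕ) = 2 + 1 from rfl, pow_add, pow_one]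
    exact Ideal.mul_mem_mul (Ideal.mul_mem_left _ _ hn) h1

lemma dg_num2_le (xT yT : K) : dg W (num2 W xT yT) ≤ 4 := by
  have e : num2 W xT yT =
      polyC W (C xT * X ^ 2 + C (W.a₄ - W.a₁ * yT + 2 * W.a₂ * xT + xT ^ 2) * X +
        C (W.a₆ + yT ^ 2 + W.a₁ * xT * yT - W.a₂ * xT ^ 2 - xT ^ 3)) +
      polyC W (C (-2 * yT - W.a₃ - W.a₁ * xT)) * yC W := by
    simp only [num2, dx, dy, map_add, map_sub, map_mul, map_pow, map_neg, polyC_C, polyC_X,
      map_ofNat]
    linear_combination coordRing_equation W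
  rw [e, dg_le_iff]
  refine ⟨?_, fun _ => ?_⟩
  · have h := natDegree_quadratic_le (a := xT)
      (b := W.a₄ - W.a₁ * yT + 2 * W.a₂ * xT + xT ^ 2)
      (c := W.a₆ + yT ^ 2 + W.a₁ * xT * yT - W.a₂ * xT ^ 2 - xT ^ 3)
    omega
  · rw [natDegree_C]
    norm_num

lemma dg_num3_le {xT yT : K}
    (he : num3 W xT yT ^ 2 + cC W W.a₁ * num2 W xT yT * num3 W xT yT * dx W xT +
        cC W W.a₃ * num3 W xT yT * dx W xT ^ 3 =
      num2 W xT yT ^ 3 + cC W W.a₂ * num2 W xT yT ^ 2 * dx W xT ^ 2 +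
        cC W W.a₄ * num2 W xT yT * dx W xT ^ 4 + cC W W.a₆ * dx W xT ^ 6) :
    dg W (num3 W xT yT) ≤ 6 := by
  by_contra hlt
  rw [not_le] at hlt
  have h2 := dg_num2_le W xT yT
  set a := num3 W xT yT with ha
  set b := num2 W xT yT with hb
  set d := dx W xT with hd
  have bound : ∀ (c : K) (z : W.CoordinateRing), dg W (cC W c * z) ≤ dg W z := fun c z =>
    (dg_mul_le W _ _).trans (by rw [dg_cC, zero_add])
  have m6 : ∀ k, dg W (d ^ k) = 2 * k := fun k => dg_dx_pow W xT k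
  have t1 : dg W (cC W W.a₁ * b * a * d) ≤ dg W a + 6 := by
    rw [mul_assoc, mul_assoc]
    refine (bound _ _).trans ((dg_mul_le W _ _).trans ?_)
    have := dg_mul_le W a d
    have := dg_dx W xT
    rw [← hd] at this
    omega
  have t2 : dg W (cC W W.a₃ * a * d ^ 3) ≤ dg W a + 6 := by
    rw [mul_assoc]
    refine (bound _ _).trans ((dg_mul_le W _ _).trans ?_)
    rw [m6]
  have r1 : dg W (b ^ 3) ≤ 12 := by rw [dg_pow]; omega
  have r2 : dg W (cC W W.a₂ * b ^ 2 * d ^ 2) ≤ 12 := by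
    rw [mul_assoc]
    refine (bound _ _).trans ((dg_mul_le W _ _).trans ?_)
    rw [m6, dg_pow]; omega
  have r3 : dg W (cC W W.a₄ * b * d ^ 4) ≤ 12 := by
    rw [mul_assoc]
    refine (bound _ _).trans ((dg_mul_le W _ _).trans ?_)
    rw [m6]; omega
  have r4 : dg W (cC W W.a₆ * d ^ 6) ≤ 12 := (bound _ _).trans (by rw [m6])
  have key : a ^ 2 = b ^ 3 + cC W W.a₂ * b ^ 2 * d ^ 2 + cC W W.a₄ * b * d ^ 4 +
      cC W W.a₆ * d ^ 6 + cC W (-1) * (cC W W.a₁ * b * a * d) +
      cC W (-1) * (cC W W.a₃ * a * d ^ 3) := by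
    rw [map_neg, map_one]; linear_combination he
  have hsq : dg W (a ^ 2) = 2 * dg W a := dg_pow W a 2
  have : dg W (a ^ 2) ≤ max (max 12 (dg W a + 6)) (dg W a + 6) := by
    rw [key]
    refine (dg_add_le W _ _).trans (max_le_max ?_ ((bound _ _).trans t2))
    refine (dg_add_le W _ _).trans (max_le_max ?_ ((bound _ _).trans t1))
    refine (dg_add_le W _ _).trans (max_le ?_ r4)
    refine (dg_add_le W _ _).trans (max_le ?_ r3)
    exact (dg_add_le W _ _).trans (max_le r1 r2)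
  omega

lemma map_conj_XYIdeal (xT yT : K) :
    Ideal.map (conj W) (CoordinateRing.XYIdeal W xT (C (W.negY xT yT))) =
      CoordinateRing.XYIdeal W xT (C yT) := by
  have e1 : CoordinateRing.XClass W xT = dx W xT := by rw [dx_eq_polyC]; rfl
  have e2 : ∀ y : K, CoordinateRing.YClass W (C y) = dy W y := fun y => by
    show CoordinateRing.mk W (Y - C (C y)) = dy W y
    rw [map_sub]
    rfl
  rw [CoordinateRing.XYIdeal, CoordinateRing.XYIdeal, Ideal.map_span, Set.image_pair, e1, e2, e2]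
  have hx : conj W (dx W xT) = dx W xT := by rw [dx, map_sub, conj_xC, conj_cC]
  have hy : conj W (dy W (W.negY xT yT)) = -dy W yT + -cC W W.a₁ * dx W xT := by
    rw [dy, map_sub, conj_yC, conj_cC, negY, map_sub, map_sub, map_neg, map_mul, dy, dx]
    ring
  rw [hx, hy, Ideal.span_pair_add_mul_left, Ideal.span_pair_comm,
    Ideal.span_insert, Ideal.span_singleton_neg, ← Ideal.span_insert, Ideal.span_pair_comm]

/-- A function with divisor `n(-T) - n(O)` in the coordinate ring. -/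
structure IsTorsionGen (n : ℕ) (xT yT : K) (a : W.CoordinateRing) : Prop where
  ne_zero : a ≠ 0
  mem : a ∈ CoordinateRing.XYIdeal W xT (C (W.negY xT yT)) ^ n
  dg_eq : dg W a = n
  mul_conj : ∃ c : K, c ≠ 0 ∧ a * conj W a = cC W c * dx W xT ^ n

lemma exists_torsionGen [DecidableEq K] {n : ℕ} {xT yT : K} (h : W.Nonsingular xT yT)
    (hn : n • Affine.Point.some xT yT h = 0) : ∃ a, IsTorsionGen W n xT yT a := by
  have h' : W.Nonsingular xT (W.negY xT yT) := (nonsingular_neg ..).mpr h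
  have hn' : n • Affine.Point.some xT (W.negY xT yT) h' = 0 := by
    rw [show Affine.Point.some xT (W.negY xT yT) h' = -Affine.Point.some xT yT h from rfl,
      smul_neg, hn, neg_zero]
  have hcl := congrArg Affine.Point.toClass hn'
  rw [map_nsmul, Affine.Point.toClass_zero, Affine.Point.toClass_some] at hcl
  have hcl' : ClassGroup.mk W.FunctionField ((CoordinateRing.XYIdeal' (W := W) h') ^ n) = 1 := by
    rw [map_pow]
    exact hcl
  obtain ⟨a, ha0, ha⟩ := (ClassGroup.mk_eq_one_of_coe_ideal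
    (I' := CoordinateRing.XYIdeal W xT (C (W.negY xT yT)) ^ n)
    (by rw [Units.val_pow_eq_pow_val, CoordinateRing.XYIdeal'_eq, FractionalIdeal.coeIdeal_pow])).mp
    hcl'
  have hconj : Ideal.span {conj W a} = CoordinateRing.XYIdeal W xT (C yT) ^ n := by
    rw [← map_conj_XYIdeal, ← Ideal.map_pow, ha, Ideal.map_span, Set.image_singleton]
  have hprod : Ideal.span {a * conj W a} = Ideal.span {dx W xT ^ n} := by
    rw [← Ideal.span_singleton_mul_span_singleton, ← ha, hconj, ← mul_pow,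
      CoordinateRing.XYIdeal_neg_mul h, CoordinateRing.XIdeal, Ideal.span_singleton_pow]
    congr 2
    rw [dx_eq_polyC]
    rfl
  obtain ⟨u, hu⟩ := (Ideal.span_singleton_eq_span_singleton.mp hprod).symm
  obtain ⟨c, hc⟩ := exists_cC_of_isUnit W u.isUnit
  have hc0 : c ≠ 0 := by
    rintro rfl
    rw [map_zero] at hc
    exact u.isUnit.ne_zero hc
  have hN : normP W a = C c * (X - C xT) ^ n := by
    apply polyC_injective W
    rw [polyC_normP, map_mul, map_pow, polyC_C, ← dx_eq_polyC, ← hu, hc]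
    ring
  refine ⟨a, ha0, ?_, ?_, c, hc0, ?_⟩
  · rw [ha]
    exact Ideal.subset_span rfl
  · rw [dg, hN, natDegree_C_mul hc0, natDegree_pow, natDegree_X_sub_C, mul_one]
  · rw [← hu, hc]
    ring

end CoordRing

variable {R : Type r} [CommRing R] (W' : WeierstrassCurve.Affine R)
  (K : Type u) [Field K] [Algebra R K] [hE : (W'⁄K).IsElliptic] [DecidableEq (FF W' K)]
  [DecidableEq K] [IsAlgClosed K]

/-- The space `L(n·O)` inside the function field. -/
noncomputable def VL (n : ℕ) : Submodule K (FF W' K) :=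
  (VC (W'⁄K).toAffine n).map (toFF W' K).toLinearMap

omit hE [DecidableEq (FF W' K)] [DecidableEq K] [IsAlgClosed K] in
lemma mem_VL {n : ℕ} {z : FF W' K} :
    z ∈ VL W' K n ↔ ∃ a, dg (W'⁄K).toAffine a ≤ n ∧ toFF W' K a = z :=
  Iff.rfl

omit hE [DecidableEq (FF W' K)] [DecidableEq K] [IsAlgClosed K] in
lemma one_mem_VL (n : ℕ) : (1 : FF W' K) ∈ VL W' K n := by
  refine (mem_VL W' K).mpr ⟨1, ?_, map_one _⟩
  rw [show (1 : (W'⁄K).toAffine.CoordinateRing) = cC _ 1 from (map_one _).symm, dg_cC]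
  exact Nat.zero_le _

lemma transl_xL_mul {xT yT : K} (h : (W'⁄K).toAffine.Nonsingular xT yT) :
    transl W' K (.some xT yT h) (xL W' K) * toFF W' K (dx _ xT ^ 2) =
        toFF W' K (num2 _ xT yT) ∧
      transl W' K (.some xT yT h) (yL W' K) * toFF W' K (dx _ xT ^ 3) =
        toFF W' K (num3 _ xT yT) := by
  obtain ⟨hg, eg⟩ := genPt_eq W' K
  have hne : xL W' K ≠ cL W' K xT := fun e =>
    xL_transcendental W' K (e ▸ isAlgebraic_algebraMap xT)
  have hT := transl_genPt W' K (.some xT yT h)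
  rw [eg, Affine.Point.map_some, cpt, Affine.Point.baseChange, Affine.Point.map_some] at hT
  simp only [Algebra.ofId_apply] at hT
  rw [Affine.Point.add_of_X_ne hne, Affine.Point.some.injEq] at hT
  obtain ⟨hX, hY⟩ := hT
  have ha1 : (W'⁄(FF W' K)).a₁ = cL W' K (W'⁄K).a₁ := IsScalarTower.algebraMap_apply R K _ _
  have ha2 : (W'⁄(FF W' K)).a₂ = cL W' K (W'⁄K).a₂ := IsScalarTower.algebraMap_apply R K _ _
  have ha3 : (W'⁄(FF W' K)).a₃ = cL W' K (W'⁄K).a₃ := IsScalarTower.algebraMap_apply R K _ _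
  have hd : toFF W' K (dx _ xT) = xL W' K - cL W' K xT := by
    rw [dx, map_sub, toFF_cC]; rfl
  have hs : toFF W' K (dy _ yT) = yL W' K - cL W' K yT := by
    rw [dy, map_sub, toFF_cC]; rfl
  have hd0 : xL W' K - cL W' K xT ≠ 0 := sub_ne_zero.mpr hne
  have hslope := slope_of_X_ne (W := (W'⁄(FF W' K)).toAffine) (y₁ := yL W' K)
    (y₂ := cL W' K yT) hne
  have hn2 : toFF W' K (num2 _ xT yT) = (yL W' K - cL W' K yT) ^ 2 +
      cL W' K (W'⁄K).a₁ * (yL W' K - cL W' K yT) * (xL W' K - cL W' K xT) -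
      (cL W' K (W'⁄K).a₂ + xL W' K + cL W' K xT) * (xL W' K - cL W' K xT) ^ 2 := by
    simp only [num2, map_sub, map_add, map_mul, map_pow, hs, hd, toFF_cC]
    rfl
  have hx : transl W' K (.some xT yT h) (xL W' K) * toFF W' K (dx _ xT ^ 2) =
      toFF W' K (num2 _ xT yT) := by
    rw [hX, hn2, map_pow, hd, addX, hslope, ha1, ha2]
    field_simp
    ring
  refine ⟨hx, ?_⟩
  rw [hY, addY, negAddY, negY, ← hX, hslope, ha1, ha3]
  simp only [num3, map_sub, map_neg, map_mul, map_pow, hs, hd, toFF_cC]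
  rw [map_pow, hd] at hx
  rw [← hx]
  field_simp
  ring

lemma dg_num3_le' {xT yT : K} (h : (W'⁄K).toAffine.Nonsingular xT yT) :
    dg _ (num3 (W'⁄K).toAffine xT yT) ≤ 6 := by
  refine dg_num3_le _ (toFF_injective W' K ?_)
  obtain ⟨hx, hy⟩ := transl_xL_mul W' K h
  have he := (equation_baseChange_iff W' K (F := FF W' K) (xL W' K) (yL W' K)).mp
    (equation_xL_yL W' K)
  have he' := congrArg (transl W' K (.some xT yT h)) he
  simp only [map_add, map_mul, map_pow, AlgHom.commutes] at he'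
  simp only [map_add, map_mul, map_pow, toFF_cC] at hx hy ⊢
  rw [← hx, ← hy]
  linear_combination (toFF W' K (dx _ xT)) ^ 6 * he'

/-- `f * (h ∘ τ_T)` lies in `L(n·O)` for all `h` in `L(n·O)`. -/
def Valid (n : ℕ) (T : (W'⁄K).toAffine.Point) (f : FF W' K) : Prop :=
  f ≠ 0 ∧ ∀ z ∈ VL W' K n, f * transl W' K T z ∈ VL W' K n

lemma monomial_mem {n : ℕ} {xT yT : K} (h : (W'⁄K).toAffine.Nonsingular xT yT)
    {a : (W'⁄K).toAffine.CoordinateRing} (ha : IsTorsionGen _ n xT yT a) {i j : ℕ}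
    (hij : 2 * i + 3 * j ≤ n) :
    toFF W' K a * transl W' K (.some xT yT h) (xL W' K ^ i * yL W' K ^ j) ∈ VL W' K n := by
  obtain ⟨hx, hy⟩ := transl_xL_mul W' K h
  set num := a * (num2 _ xT yT ^ i * num3 _ xT yT ^ j) with hnum
  have hmem : num ∈ Ideal.span {dx (W'⁄K).toAffine xT ^ (2 * i + 3 * j)} := by
    have h1 : a ∈ CoordinateRing.XYIdeal _ xT (C ((W'⁄K).toAffine.negY xT yT)) ^ (2 * i + 3 * j) :=
      Ideal.pow_le_pow_right hij ha.mem
    have h2 : num2 (W'⁄K).toAffine xT yT ^ i * num3 _ xT yT ^ j ∈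
        CoordinateRing.XYIdeal _ xT (C yT) ^ (2 * i + 3 * j) := by
      rw [pow_add, pow_mul, pow_mul]
      exact Ideal.mul_mem_mul (Ideal.pow_mem_pow (num2_mem _ xT yT) i)
        (Ideal.pow_mem_pow (num3_mem _ xT yT) j)
    have h12 := Ideal.mul_mem_mul h1 h2
    rw [← mul_pow, CoordinateRing.XYIdeal_neg_mul h, CoordinateRing.XIdeal,
      Ideal.span_singleton_pow] at h12
    rw [dx_eq_polyC]
    exact h12
  obtain ⟨g, hg⟩ := Ideal.mem_span_singleton'.mp hmem
  refine (mem_VL W' K).mpr ⟨g, ?_, ?_⟩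
  · by_cases hg0 : g = 0
    · rw [hg0, dg_zero]; exact Nat.zero_le _
    have e := congrArg (dg _) hg
    rw [dg_mul _ hg0 (pow_ne_zero _ (dx_ne_zero _ _)), dg_dx_pow] at e
    have b1 := dg_num2_le (W'⁄K).toAffine xT yT
    have b2 := dg_num3_le' W' K h
    have e1 := dg_mul_le _ a (num2 (W'⁄K).toAffine xT yT ^ i * num3 _ xT yT ^ j)
    have e2 := dg_mul_le _ (num2 (W'⁄K).toAffine xT yT ^ i) (num3 _ xT yT ^ j)
    rw [dg_pow, dg_pow] at e2
    rw [ha.dg_eq, ← hnum] at e1
    have := Nat.mul_le_mul_left i b1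
    have := Nat.mul_le_mul_left j b2
    omega
  · apply mul_right_cancel₀ (b := toFF W' K (dx _ xT ^ (2 * i + 3 * j)))
      ((map_ne_zero_iff _ (toFF_injective W' K)).mpr (pow_ne_zero _ (dx_ne_zero _ _)))
    rw [← map_mul, hg, hnum, map_mul, map_mul, map_pow, map_pow, ← hx, ← hy, map_mul, map_pow,
      map_pow, map_pow, map_pow, map_pow, mul_pow, mul_pow, pow_add, pow_mul, pow_mul]
    ring

lemma valid_of_torsionGen {n : ℕ} {xT yT : K} (h : (W'⁄K).toAffine.Nonsingular xT yT)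
    {a : (W'⁄K).toAffine.CoordinateRing} (ha : IsTorsionGen _ n xT yT a) :
    Valid W' K n (.some xT yT h) (toFF W' K a) := by
  refine ⟨(map_ne_zero_iff _ (toFF_injective W' K)).mpr ha.ne_zero, ?_⟩
  intro z hz
  obtain ⟨b, hb, rfl⟩ := (mem_VL W' K).mp hz
  obtain ⟨p, q, rfl⟩ := exists_repr _ b
  obtain ⟨hp, hq⟩ := (dg_le_iff _ p q n).mp hb
  rw [map_add, map_mul, toFF_polyC, toFF_polyC, map_add, mul_add]
  refine add_mem ?_ ?_
  · rw [aeval_eq_sum_range, map_sum, Finset.mul_sum]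
    refine sum_mem fun i hi => ?_
    rw [Finset.mem_range] at hi
    rw [map_smul, mul_smul_comm]
    refine Submodule.smul_mem _ _ ?_
    simpa using monomial_mem W' K h ha (i := i) (j := 0) (by omega)
  · rw [aeval_eq_sum_range, Finset.sum_mul, map_sum, Finset.mul_sum]
    refine sum_mem fun i hi => ?_
    rw [Finset.mem_range] at hi
    rw [smul_mul_assoc, map_smul, mul_smul_comm]
    by_cases hq0 : q = 0
    · rw [hq0, coeff_zero, zero_smul]; exact zero_mem _
    refine Submodule.smul_mem _ _ ?_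
    have := hq hq0
    have hm := monomial_mem W' K h ha (i := i) (j := 1) (by omega)
    rw [pow_one] at hm
    exact hm

lemma valid_zero (n : ℕ) : Valid W' K n 0 1 :=
  ⟨one_ne_zero, fun z hz => by rw [transl_zero, one_mul]; exact hz⟩

lemma exists_valid {n : ℕ} {T : (W'⁄K).toAffine.Point} (hT : n • T = 0) :
    ∃ f, Valid W' K n T f := by
  rcases T with _ | ⟨xT, yT, h⟩
  · exact ⟨1, valid_zero W' K n⟩
  · obtain ⟨a, ha⟩ := exists_torsionGen _ h hT
    exact ⟨_, valid_of_torsionGen W' K h ha⟩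

variable {W' K}

lemma Valid.mul {n : ℕ} {S T : (W'⁄K).toAffine.Point} {f g : FF W' K}
    (hf : Valid W' K n S f) (hg : Valid W' K n T g) :
    Valid W' K n (S + T) (f * transl W' K S g) := by
  refine ⟨mul_ne_zero hf.1 ((_root_.map_ne_zero _).mpr hg.1), fun z hz => ?_⟩
  rw [mul_assoc, ← transl_add, ← map_mul]
  exact hf.2 _ (hg.2 z hz)

lemma Valid.exists_const {n : ℕ} {f : FF W' K} (hf : Valid W' K n 0 f) :
    ∃ c : K, c ≠ 0 ∧ f = cL W' K c := by
  have hpow : ∀ m, f ^ m ∈ VL W' K n := by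
    intro m
    induction m with
    | zero => rw [pow_zero]; exact one_mem_VL W' K n
    | succ m ih =>
      have := hf.2 _ ih
      rwa [transl_zero, ← pow_succ'] at this
  obtain ⟨a, -, ha⟩ := (mem_VL W' K).mp (hpow 1)
  rw [pow_one] at ha
  obtain ⟨b, hb, hb'⟩ := (mem_VL W' K).mp (hpow (n + 1))
  rw [← ha, ← map_pow] at hb'
  rw [toFF_injective W' K hb', dg_pow] at hb
  have h0 : dg _ a = 0 := by
    rcases Nat.eq_zero_or_pos (dg _ a) with h | h
    · exact h
    · have := Nat.le_mul_of_pos_right (n + 1) h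
      omega
  obtain ⟨c, rfl⟩ := exists_cC_of_dg_eq_zero _ h0
  rw [toFF_cC] at ha
  refine ⟨c, ?_, ha.symm⟩
  rintro rfl
  exact hf.1 (ha.symm.trans (map_zero _))

lemma Valid.exists_eq_mul {n : ℕ} {T : (W'⁄K).toAffine.Point} (hT : n • T = 0) {f g : FF W' K}
    (hf : Valid W' K n T f) (hg : Valid W' K n T g) : ∃ c : K, c ≠ 0 ∧ f = cL W' K c * g := by
  obtain ⟨u, hu⟩ := exists_valid W' K (n := n) (T := -T) (by rw [smul_neg, hT, neg_zero])
  have h1 := hf.mul hu
  have h2 := hg.mul hu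
  rw [add_neg_cancel] at h1 h2
  obtain ⟨c, hc, ec⟩ := h1.exists_const
  obtain ⟨d, hd, ed⟩ := h2.exists_const
  refine ⟨c / d, div_ne_zero hc hd, ?_⟩
  have hu0 : transl W' K T u ≠ 0 := (_root_.map_ne_zero _).mpr hu.1
  apply mul_right_cancel₀ hu0
  rw [mul_assoc, ec, ed, ← map_mul, div_mul_cancel₀ c hd]

end Fermat.Agent.EllFrobenius
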